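/-
GATE-C / C4 (G3-an) R2 (helper88): the ray class group `Cl_m` of a Dedekind domain, as a quotient of
the monoid of nonzero ideals coprime to `m` by the congruence
`I ~ J  ↔  ∃ a b ≠ 0, a ≡ b ≡ 1 mod m, (a) I = (b) J`.
Mathlib only.
-/
import Mathlib

set_option autoImplicit false
set_option linter.unusedSectionVars false

open Ideal
open scoped nonZeroDivisors

namespace Fermat.Agent.GC.RaySI.RayClass

variable {R : Type*} [CommRing R] [IsDedekindDomain R] (m : Ideal R)

/-! ### ideals coprime to `m` -/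

/-- The submonoid of nonzero ideals coprime to `m`. -/
def coprimeSubmonoid : Submonoid (Ideal R)⁰ where
  carrier := {I | IsCoprime (I : Ideal R) m}
  one_mem' := by
    change IsCoprime ((1 : (Ideal R)⁰) : Ideal R) m
    rw [Submonoid.coe_one]
    exact isCoprime_one_left
  mul_mem' := fun {a b} ha hb => by
    change IsCoprime ((a * b : (Ideal R)⁰) : Ideal R) m
    rw [Submonoid.coe_mul]
    exact IsCoprime.mul_left ha hb

variable {m}

/-- The underlying ideal. -/
abbrev idl (I : coprimeSubmonoid m) : Ideal R := ((I : (Ideal R)⁰) : Ideal R)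

theorem idl_ne_zero (I : coprimeSubmonoid m) : idl I ≠ 0 :=
  nonZeroDivisors.coe_ne_zero _

theorem idl_coprime (I : coprimeSubmonoid m) : IsCoprime (idl I) m := I.2

@[simp] theorem idl_one : idl (1 : coprimeSubmonoid m) = 1 := rfl

@[simp] theorem idl_mul (I J : coprimeSubmonoid m) : idl (I * J) = idl I * idl J := rfl

theorem idl_injective : Function.Injective (idl (m := m)) := fun _ _ h =>
  Subtype.ext (Subtype.ext h)

/-- Constructor from an ideal. -/
def ofIdeal (I : Ideal R) (h0 : I ≠ 0) (hc : IsCoprime I m) : coprimeSubmonoid m :=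
  ⟨⟨I, mem_nonZeroDivisors_iff_ne_zero.2 h0⟩, hc⟩

@[simp] theorem idl_ofIdeal (I : Ideal R) (h0 : I ≠ 0) (hc : IsCoprime I m) :
    idl (ofIdeal I h0 hc) = I := rfl

theorem sub_one_mul {a c : R} (ha : a - 1 ∈ m) (hc : c - 1 ∈ m) : a * c - 1 ∈ m := by
  have : a * c - 1 = a * (c - 1) + (a - 1) := by ring
  rw [this]
  exact m.add_mem (m.mul_mem_left _ hc) ha

theorem isCoprime_span_of_sub_one {a : R} (ha : a - 1 ∈ m) : IsCoprime (span {a}) m := by
  rw [Ideal.isCoprime_iff_exists]
  exact ⟨a, mem_span_singleton_self a, 1 - a, by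
    have : 1 - a = -(a - 1) := by ring
    rw [this]; exact m.neg_mem ha, by ring⟩

variable (m)

/-- The ray relation. -/
def RayRel (I J : coprimeSubmonoid m) : Prop :=
  ∃ a b : R, a ≠ 0 ∧ b ≠ 0 ∧ a - 1 ∈ m ∧ b - 1 ∈ m ∧ span {a} * idl I = span {b} * idl J

theorem rayRel_refl (I : coprimeSubmonoid m) : RayRel m I I :=
  ⟨1, 1, one_ne_zero, one_ne_zero, by simp, by simp, rfl⟩

theorem rayRel_symm {I J : coprimeSubmonoid m} (h : RayRel m I J) : RayRel m J I := by
  obtain ⟨a, b, ha, hb, ha1, hb1, h⟩ := h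
  exact ⟨b, a, hb, ha, hb1, ha1, h.symm⟩

theorem rayRel_trans {I J L : coprimeSubmonoid m} (h1 : RayRel m I J) (h2 : RayRel m J L) :
    RayRel m I L := by
  obtain ⟨a, b, ha, hb, ha1, hb1, h⟩ := h1
  obtain ⟨c, d, hc, hd, hc1, hd1, h'⟩ := h2
  refine ⟨a * c, b * d, mul_ne_zero ha hc, mul_ne_zero hb hd, sub_one_mul ha1 hc1,
    sub_one_mul hb1 hd1, ?_⟩
  calc span {a * c} * idl I = span {c} * (span {a} * idl I) := by
        rw [← span_singleton_mul_span_singleton]; ring
    _ = span {b} * (span {c} * idl J) := by rw [h]; ring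
    _ = span {b * d} * idl L := by
        rw [h', ← span_singleton_mul_span_singleton]; ring

/-- The ray congruence on ideals coprime to `m`. -/
def rayCon : Con (coprimeSubmonoid m) where
  r := RayRel m
  iseqv := ⟨rayRel_refl m, rayRel_symm m, rayRel_trans m⟩
  mul' := by
    rintro I I' J J' ⟨a, b, ha, hb, ha1, hb1, h⟩ ⟨c, d, hc, hd, hc1, hd1, h'⟩
    refine ⟨a * c, b * d, mul_ne_zero ha hc, mul_ne_zero hb hd, sub_one_mul ha1 hc1,
      sub_one_mul hb1 hd1, ?_⟩
    calc span {a * c} * idl (I * J) = (span {a} * idl I) * (span {c} * idl J) := by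
          rw [← span_singleton_mul_span_singleton, idl_mul]; ring
      _ = span {b * d} * idl (I' * J') := by
          rw [h, h', ← span_singleton_mul_span_singleton, idl_mul]; ring

/-- The ray class group modulo `m` (no condition at the infinite places). -/
def RayClassGroup : Type _ := (rayCon m).Quotient

instance : CommMonoid (RayClassGroup m) := inferInstanceAs (CommMonoid (rayCon m).Quotient)

/-- The class of an ideal coprime to `m`. -/
def mk : coprimeSubmonoid m →* RayClassGroup m := (rayCon m).mk'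

theorem mk_surjective : Function.Surjective (mk m) := Con.mk'_surjective

theorem mk_eq_mk_iff {I J : coprimeSubmonoid m} : mk m I = mk m J ↔ RayRel m I J :=
  (rayCon m).eq


/-! ### inverses: `Cl_m` is a group -/

/-- Every ideal coprime to `m` has a complement `J` coprime to `m` with `I * J = (a)`,
`a ≡ 1 mod m`. -/
theorem exists_mul_eq_span (I : coprimeSubmonoid m) :
    ∃ (J : coprimeSubmonoid m) (a : R), a ≠ 0 ∧ a - 1 ∈ m ∧ idl I * idl J = span {a} := by
  obtain ⟨a, haI, ha0, ha1⟩ : ∃ a ∈ idl I, a ≠ 0 ∧ a - 1 ∈ m := by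
    obtain ⟨i, hi, j, hj, hij⟩ := Ideal.isCoprime_iff_exists.1 (idl_coprime I)
    by_cases hi0 : i = 0
    · have h1 : (1 : R) ∈ m := by rw [← hij, hi0, zero_add]; exact hj
      have hm : m = ⊤ := (Ideal.eq_top_iff_one m).2 h1
      obtain ⟨a, haI, ha0⟩ := Submodule.exists_mem_ne_zero_of_ne_bot (idl_ne_zero I)
      exact ⟨a, haI, ha0, by rw [hm]; trivial⟩
    · refine ⟨i, hi, hi0, ?_⟩
      have : i - 1 = -j := by rw [← hij]; ring
      rw [this]; exact m.neg_mem hj
  have hle : span {a} ≤ idl I := (span_singleton_le_iff_mem _).2 haI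
  obtain ⟨J, hJ⟩ := Ideal.dvd_iff_le.2 hle
  have hJ0 : J ≠ 0 := by
    rintro rfl
    rw [mul_zero] at hJ
    exact ha0 (span_singleton_eq_bot.1 hJ)
  have hJc : IsCoprime J m := by
    have h1 : IsCoprime (span {a}) m := isCoprime_span_of_sub_one ha1
    rw [Ideal.isCoprime_iff_sup_eq] at h1 ⊢
    have hle' : span {a} ≤ J := by rw [hJ]; exact Ideal.mul_le_right (I := idl I) (J := J)
    exact top_le_iff.1 (h1 ▸ sup_le_sup_right hle' m)
  exact ⟨ofIdeal J hJ0 hJc, a, ha0, ha1, hJ.symm⟩

theorem exists_mul_eq_one (x : RayClassGroup m) : ∃ y : RayClassGroup m, y * x = 1 := by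
  obtain ⟨I, rfl⟩ := mk_surjective m x
  obtain ⟨J, a, ha0, ha1, h⟩ := exists_mul_eq_span m I
  refine ⟨mk m J, ?_⟩
  rw [← map_mul, ← map_one (mk m), mk_eq_mk_iff]
  refine ⟨1, a, one_ne_zero, ha0, by simp, ha1, ?_⟩
  rw [idl_mul, idl_one, mul_comm (idl J), h]
  simp

noncomputable instance : CommGroup (RayClassGroup m) :=
  { (inferInstance : CommMonoid (RayClassGroup m)) with
    inv := fun x => Classical.choose (exists_mul_eq_one m x)
    inv_mul_cancel := fun x => Classical.choose_spec (exists_mul_eq_one m x) }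

/-! ### the map to the class group -/

/-- The forgetful map `Cl_m → Cl`. -/
noncomputable def toClassGroup : RayClassGroup m →* ClassGroup R :=
  (rayCon m).lift ((ClassGroup.mk0 (R := R)).comp (coprimeSubmonoid m).subtype) (by
    intro I J h
    obtain ⟨a, b, ha, hb, -, -, h⟩ := h
    change ClassGroup.mk0 (I : (Ideal R)⁰) = ClassGroup.mk0 (J : (Ideal R)⁰)
    exact ClassGroup.mk0_eq_mk0_iff.2 ⟨a, b, ha, hb, h⟩)

@[simp] theorem toClassGroup_mk (I : coprimeSubmonoid m) :
    toClassGroup m (mk m I) = ClassGroup.mk0 (I : (Ideal R)⁰) := rfl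

/-- Every ideal class contains an integral ideal coprime to `m` (`m ≠ 0`). -/
theorem exists_coprime_mk0_eq (hm : m ≠ ⊥) (c : ClassGroup R) :
    ∃ J : coprimeSubmonoid m, ClassGroup.mk0 (J : (Ideal R)⁰) = c := by
  obtain ⟨I0, hI0⟩ := ClassGroup.mk0_surjective c⁻¹
  have hI0ne : (I0 : Ideal R) ≠ 0 := nonZeroDivisors.coe_ne_zero _
  by_cases hmt : m = ⊤
  · refine ⟨⟨(ClassGroup.mk0_surjective c).choose, ?_⟩, (ClassGroup.mk0_surjective c).choose_spec⟩
    change IsCoprime _ m
    rw [hmt, Ideal.isCoprime_iff_sup_eq]; simp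
  obtain ⟨a, ha⟩ := IsDedekindDomain.exists_sup_span_eq (I := (I0 : Ideal R) * m)
    (J := (I0 : Ideal R)) (Ideal.mul_le_left (I := (I0 : Ideal R)) (J := m)) (mul_ne_zero hI0ne hm)
  have haI : a ∈ (I0 : Ideal R) := by
    rw [← ha]; exact Ideal.mem_sup_right (mem_span_singleton_self a)
  have ha0 : a ≠ 0 := by
    rintro rfl
    have h1 : (I0 : Ideal R) * m = (I0 : Ideal R) * ⊤ := by
      rw [Ideal.mul_top]
      simpa using ha
    exact hmt (mul_left_cancel₀ hI0ne h1)
  obtain ⟨J, hJ⟩ := Ideal.dvd_iff_le.2 ((span_singleton_le_iff_mem _).2 haI)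
  have hJ0 : J ≠ 0 := by
    rintro rfl
    rw [mul_zero] at hJ
    exact ha0 (span_singleton_eq_bot.1 hJ)
  have hJc : IsCoprime J m := by
    rw [Ideal.isCoprime_iff_sup_eq]
    have h2 : (I0 : Ideal R) * (m ⊔ J) = (I0 : Ideal R) * ⊤ := by
      rw [Ideal.mul_top, Ideal.mul_sup, ← hJ]; exact ha
    rw [sup_comm]
    exact mul_left_cancel₀ hI0ne h2
  refine ⟨ofIdeal J hJ0 hJc, ?_⟩
  have h3 : ClassGroup.mk0 I0 * ClassGroup.mk0 (ofIdeal J hJ0 hJc : (Ideal R)⁰) = 1 := by
    rw [← map_mul, ClassGroup.mk0_eq_one_iff]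
    change ((I0 : Ideal R) * J).IsPrincipal
    rw [← hJ]
    exact ⟨⟨a, rfl⟩⟩
  rw [hI0] at h3
  exact (inv_mul_eq_one.1 h3).symm

theorem toClassGroup_surjective (hm : m ≠ ⊥) : Function.Surjective (toClassGroup m) := by
  intro c
  obtain ⟨J, hJ⟩ := exists_coprime_mk0_eq m hm c
  exact ⟨mk m J, by rw [toClassGroup_mk, hJ]⟩


/-! ### principal classes and the map from `(R ⧸ m)ˣ` -/

theorem isCoprime_span_iff {a : R} : IsCoprime (span {a}) m ↔ ∃ b : R, a * b - 1 ∈ m := by
  rw [Ideal.isCoprime_iff_exists]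
  constructor
  · rintro ⟨i, hi, j, hj, hij⟩
    obtain ⟨b, rfl⟩ := mem_span_singleton'.1 hi
    refine ⟨b, ?_⟩
    have : a * b - 1 = -j := by rw [← hij]; ring
    rw [this]; exact m.neg_mem hj
  · rintro ⟨b, hb⟩
    refine ⟨a * b, mem_span_singleton'.2 ⟨b, mul_comm _ _⟩, 1 - a * b, ?_, by ring⟩
    have : 1 - a * b = -(a * b - 1) := by ring
    rw [this]; exact m.neg_mem hb

/-- Nonzero elements of `R` that are invertible modulo `m`. -/
def coprimeElts : Submonoid R where
  carrier := {a | a ≠ 0 ∧ IsCoprime (span {a}) m}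
  one_mem' := by
    change (1 : R) ≠ 0 ∧ IsCoprime (span {(1 : R)}) m
    refine ⟨one_ne_zero, ?_⟩
    rw [Ideal.span_singleton_one, Ideal.isCoprime_iff_sup_eq]
    exact top_sup_eq _
  mul_mem' := fun {a b} ha hb => by
    change a * b ≠ 0 ∧ IsCoprime (span {a * b}) m
    refine ⟨mul_ne_zero ha.1 hb.1, ?_⟩
    rw [← span_singleton_mul_span_singleton]
    exact IsCoprime.mul_left ha.2 hb.2

/-- The principal ideal generated by an element coprime to `m`. -/
def spanElt (a : coprimeElts m) : coprimeSubmonoid m :=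
  ofIdeal (span {(a : R)}) (by
    have := a.2.1
    simpa [span_singleton_eq_bot] using this) a.2.2

@[simp] theorem idl_spanElt (a : coprimeElts m) : idl (spanElt m a) = span {(a : R)} := rfl

/-- The ray class of a principal ideal `(a)`, `a` coprime to `m`. -/
def principal : coprimeElts m →* RayClassGroup m where
  toFun a := mk m (spanElt m a)
  map_one' := by
    rw [← map_one (mk m)]
    congr 1
    apply idl_injective
    simp
  map_mul' a b := by
    rw [← map_mul]
    congr 1
    apply idl_injective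
    simp [span_singleton_mul_span_singleton]

theorem principal_apply (a : coprimeElts m) : principal m a = mk m (spanElt m a) := rfl

/-- Congruent elements define the same ray class. -/
theorem principal_eq_of_sub_mem {a a' : coprimeElts m} (h : (a : R) - a' ∈ m) :
    principal m a = principal m a' := by
  obtain ⟨b, hb0, hb⟩ : ∃ b : R, b ≠ 0 ∧ (a : R) * b - 1 ∈ m := by
    obtain ⟨b, hb⟩ := (isCoprime_span_iff m).1 a.2.2
    by_cases hb0 : b = 0
    · refine ⟨1, one_ne_zero, ?_⟩
      have h1 : (1 : R) ∈ m := by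
        have : (1 : R) = -((a : R) * b - 1) := by rw [hb0]; ring
        rw [this]; exact m.neg_mem hb
      have := m.mul_mem_left ((a : R) * 1 - 1) h1
      rwa [mul_one] at this
    · exact ⟨b, hb0, hb⟩
  have h1 : (a' : R) * b - 1 ∈ m := by
    have : (a' : R) * b - 1 = ((a : R) * b - 1) - ((a : R) - a') * b := by ring
    rw [this]
    exact m.sub_mem hb (m.mul_mem_right _ h)
  have h2 : span {(a' : R) * b} * idl (spanElt m a) = span {(a : R) * b} * idl (spanElt m a') := by
    rw [idl_spanElt, idl_spanElt, span_singleton_mul_span_singleton,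
      span_singleton_mul_span_singleton]
    have : (a' : R) * b * a = (a : R) * b * a' := by ring
    rw [this]
  exact (mk_eq_mk_iff m).2
    ⟨(a' : R) * b, (a : R) * b, mul_ne_zero a'.2.1 hb0, mul_ne_zero a.2.1 hb0, h1, hb, h2⟩

/-- The reduction of an element coprime to `m`, as a unit of `R ⧸ m`. -/
noncomputable def eltUnit : coprimeElts m →* (R ⧸ m)ˣ :=
  IsUnit.liftRight (((Ideal.Quotient.mk m : R →* R ⧸ m)).comp (coprimeElts m).subtype)
    (fun a => by
      obtain ⟨b, hb⟩ := (isCoprime_span_iff m).1 a.2.2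
      refine IsUnit.of_mul_eq_one (Ideal.Quotient.mk m b) ?_
      change Ideal.Quotient.mk m (a : R) * Ideal.Quotient.mk m b = 1
      rw [← map_mul, ← map_one (Ideal.Quotient.mk m), Ideal.Quotient.eq]
      exact hb)

@[simp] theorem coe_eltUnit (a : coprimeElts m) :
    ((eltUnit m a : (R ⧸ m)ˣ) : R ⧸ m) = Ideal.Quotient.mk m (a : R) :=
  IsUnit.coe_liftRight _ _ a

theorem eltUnit_surjective : Function.Surjective (eltUnit m) := by
  intro u
  obtain ⟨a0, ha0⟩ := Ideal.Quotient.mk_surjective (u : R ⧸ m)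
  obtain ⟨b0, hb0⟩ := Ideal.Quotient.mk_surjective ((u⁻¹ : (R ⧸ m)ˣ) : R ⧸ m)
  have hab : a0 * b0 - 1 ∈ m := by
    rw [← Ideal.Quotient.eq, map_mul, ha0, hb0, map_one]
    exact u.mul_inv
  by_cases h0 : a0 = 0
  · have h1 : (1 : R) ∈ m := by
      have : (1 : R) = -(a0 * b0 - 1) := by rw [h0]; ring
      rw [this]; exact m.neg_mem hab
    have hm : m = ⊤ := (Ideal.eq_top_iff_one m).2 h1
    have : Subsingleton (R ⧸ m) := Ideal.Quotient.subsingleton_iff.2 hm
    exact ⟨1, Units.ext (Subsingleton.elim _ _)⟩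
  · refine ⟨⟨a0, h0, (isCoprime_span_iff m).2 ⟨b0, hab⟩⟩, Units.ext ?_⟩
    rw [coe_eltUnit]
    exact ha0

theorem principal_eq_of_eltUnit_eq {a a' : coprimeElts m} (h : eltUnit m a = eltUnit m a') :
    principal m a = principal m a' := by
  apply principal_eq_of_sub_mem
  rw [← Ideal.Quotient.eq, ← coe_eltUnit, ← coe_eltUnit, h]

/-- The map `(R ⧸ m)ˣ → Cl_m`, `u ↦ [(a)]` for any lift `a` of `u`. -/
noncomputable def unitsHom : (R ⧸ m)ˣ →* RayClassGroup m where
  toFun u := principal m (Classical.choose (eltUnit_surjective m u))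
  map_one' := by
    rw [← map_one (principal m)]
    apply principal_eq_of_eltUnit_eq
    rw [Classical.choose_spec (eltUnit_surjective m 1), map_one]
  map_mul' u v := by
    rw [← map_mul]
    apply principal_eq_of_eltUnit_eq
    rw [map_mul, Classical.choose_spec (eltUnit_surjective m (u * v)),
      Classical.choose_spec (eltUnit_surjective m u),
      Classical.choose_spec (eltUnit_surjective m v)]

@[simp] theorem unitsHom_eltUnit (a : coprimeElts m) :
    unitsHom m (eltUnit m a) = principal m a := by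
  change principal m _ = principal m a
  apply principal_eq_of_eltUnit_eq
  exact Classical.choose_spec (eltUnit_surjective m (eltUnit m a))

theorem toClassGroup_principal (a : coprimeElts m) : toClassGroup m (principal m a) = 1 := by
  rw [principal_apply, toClassGroup_mk, ClassGroup.mk0_eq_one_iff]
  exact ⟨⟨(a : R), rfl⟩⟩

@[simp] theorem toClassGroup_unitsHom (u : (R ⧸ m)ˣ) : toClassGroup m (unitsHom m u) = 1 := by
  obtain ⟨a, rfl⟩ := eltUnit_surjective m u
  rw [unitsHom_eltUnit, toClassGroup_principal]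

/-- Exactness at `Cl_m`: the kernel of `Cl_m → Cl` is the image of `(R ⧸ m)ˣ`. -/
theorem exists_unitsHom_eq {x : RayClassGroup m} (hx : toClassGroup m x = 1) :
    ∃ u : (R ⧸ m)ˣ, unitsHom m u = x := by
  obtain ⟨I, rfl⟩ := mk_surjective m x
  rw [toClassGroup_mk, ClassGroup.mk0_eq_one_iff] at hx
  obtain ⟨g, hg⟩ := hx.principal
  have hg' : idl I = span {g} := hg
  have hg0 : g ≠ 0 := by
    rintro rfl
    exact idl_ne_zero I (by rw [hg']; simp)
  have hgc : IsCoprime (span {g}) m := by rw [← hg']; exact idl_coprime I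
  refine ⟨eltUnit m ⟨g, hg0, hgc⟩, ?_⟩
  rw [unitsHom_eltUnit, principal_apply]
  congr 1
  apply idl_injective
  rw [idl_spanElt, hg']

theorem ker_toClassGroup : (toClassGroup m).ker = (unitsHom m).range := by
  ext x
  rw [MonoidHom.mem_ker, MonoidHom.mem_range]
  constructor
  · exact exists_unitsHom_eq m
  · rintro ⟨u, rfl⟩
    exact toClassGroup_unitsHom m u

/-- A principal ray class is trivial iff its generator is congruent to a unit of `R`. -/
theorem principal_eq_one_iff (a : coprimeElts m) :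
    principal m a = 1 ↔ ∃ ε : Rˣ, (ε : R) - a ∈ m := by
  constructor
  · intro h
    rw [principal_apply, ← map_one (mk m), mk_eq_mk_iff] at h
    obtain ⟨c, d, hc0, hd0, hc, hd, h⟩ := h
    rw [idl_spanElt, idl_one, mul_one, span_singleton_mul_span_singleton,
      Ideal.span_singleton_eq_span_singleton] at h
    obtain ⟨ε, hε⟩ := h
    refine ⟨ε⁻¹, ?_⟩
    have h1 : (1 : R) - (a : R) * ε ∈ m := by
      have : (1 : R) - (a : R) * ε = (c - 1) * ((a : R) * ε) - (d - 1) := by
        rw [← hε]; ring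
      rw [this]
      exact m.sub_mem (m.mul_mem_right _ hc) hd
    have : ((ε⁻¹ : Rˣ) : R) - a = ((ε⁻¹ : Rˣ) : R) * (1 - (a : R) * ε) := by
      have hu : ((ε⁻¹ : Rˣ) : R) * (ε : R) = 1 := by
        rw [← Units.val_mul, inv_mul_cancel, Units.val_one]
      calc ((ε⁻¹ : Rˣ) : R) - a = ((ε⁻¹ : Rˣ) : R) - (a : R) * (((ε⁻¹ : Rˣ) : R) * (ε : R)) := by
            rw [hu, mul_one]
        _ = ((ε⁻¹ : Rˣ) : R) * (1 - (a : R) * ε) := by ring
    rw [this]
    exact m.mul_mem_left _ h1
  · rintro ⟨ε, hε⟩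
    have hεmem : (ε : R) ∈ coprimeElts m := by
      refine ⟨ε.ne_zero, ?_⟩
      rw [Ideal.span_singleton_eq_top.2 ε.isUnit, Ideal.isCoprime_iff_sup_eq]
      simp
    have h1 : principal m ⟨(ε : R), hεmem⟩ = principal m a := principal_eq_of_sub_mem m hε
    rw [← h1, principal_apply, ← map_one (mk m)]
    congr 1
    apply idl_injective
    rw [idl_spanElt, idl_one, Ideal.one_eq_top]
    exact Ideal.span_singleton_eq_top.2 ε.isUnit

/-- Exactness at `(R ⧸ m)ˣ`: the kernel of `(R ⧸ m)ˣ → Cl_m` is the image of `Rˣ`. -/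
theorem unitsHom_eq_one_iff (u : (R ⧸ m)ˣ) :
    unitsHom m u = 1 ↔ u ∈ (Units.map (Ideal.Quotient.mk m : R →* R ⧸ m)).range := by
  obtain ⟨a, rfl⟩ := eltUnit_surjective m u
  rw [unitsHom_eltUnit, principal_eq_one_iff, MonoidHom.mem_range]
  constructor
  · rintro ⟨ε, hε⟩
    refine ⟨ε, Units.ext ?_⟩
    rw [coe_eltUnit, Units.coe_map]
    exact Ideal.Quotient.eq.2 hε
  · rintro ⟨ε, hε⟩
    refine ⟨ε, ?_⟩
    have := congrArg (fun v : (R ⧸ m)ˣ => (v : R ⧸ m)) hε
    simp only [Units.coe_map, coe_eltUnit] at this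
    exact Ideal.Quotient.eq.1 this

theorem ker_unitsHom :
    (unitsHom m).ker = (Units.map (Ideal.Quotient.mk m : R →* R ⧸ m)).range := by
  ext u
  rw [MonoidHom.mem_ker]
  exact unitsHom_eq_one_iff m u


/-! ### finiteness and cardinality -/

theorem finite_of_finite [Finite (ClassGroup R)] [Finite (R ⧸ m)ˣ] :
    Finite (RayClassGroup m) := by
  classical
  let s : ClassGroup R → RayClassGroup m := fun c =>
    if h : ∃ x, toClassGroup m x = c then h.choose else 1
  let f : ClassGroup R × (R ⧸ m)ˣ → RayClassGroup m := fun p => s p.1 * unitsHom m p.2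
  apply Finite.of_surjective f
  intro x
  have hs : toClassGroup m (s (toClassGroup m x)) = toClassGroup m x := by
    have h : ∃ y, toClassGroup m y = toClassGroup m x := ⟨x, rfl⟩
    simp only [s, dif_pos h]
    exact h.choose_spec
  obtain ⟨u, hu⟩ := exists_unitsHom_eq m (x := (s (toClassGroup m x))⁻¹ * x) (by
    rw [map_mul, map_inv, hs, inv_mul_cancel])
  exact ⟨(toClassGroup m x, u), by simp only [f]; rw [hu, mul_inv_cancel_left]⟩

/-- `#Cl_m · #im(Rˣ → (R/m)ˣ) = #Cl · #(R/m)ˣ`. -/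
theorem card_mul_card_range (hm : m ≠ ⊥) :
    Nat.card (RayClassGroup m) *
        Nat.card (Units.map (Ideal.Quotient.mk m : R →* R ⧸ m)).range =
      Nat.card (ClassGroup R) * Nat.card (R ⧸ m)ˣ := by
  have h1 : Nat.card (RayClassGroup m) =
      Nat.card (ClassGroup R) * Nat.card (unitsHom m).range := by
    rw [Subgroup.card_eq_card_quotient_mul_card_subgroup (toClassGroup m).ker,
      Nat.card_congr (QuotientGroup.quotientKerEquivOfSurjective (toClassGroup m)
        (toClassGroup_surjective m hm)).toEquiv, ker_toClassGroup]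
  have h2 : Nat.card (R ⧸ m)ˣ = Nat.card (unitsHom m).range *
      Nat.card (Units.map (Ideal.Quotient.mk m : R →* R ⧸ m)).range := by
    rw [Subgroup.card_eq_card_quotient_mul_card_subgroup (unitsHom m).ker, ker_unitsHom,
      ← Nat.card_congr (QuotientGroup.quotientKerEquivRange (unitsHom m)).toEquiv, ker_unitsHom]
  rw [h1, h2, mul_assoc]

open NumberField in
/-- The ray class group of a number field modulo a nonzero ideal is finite. -/
theorem finite_of_ne_bot {K : Type*} [Field K] [NumberField K] (m : Ideal (𝓞 K)) (hm : m ≠ ⊥) :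
    Finite (RayClassGroup m) := by
  have : Finite (𝓞 K ⧸ m) := Ideal.finiteQuotientOfFreeOfNeBot m hm
  have : Finite (𝓞 K ⧸ m)ˣ := inferInstance
  exact finite_of_finite m

/-! ### ideals in a given ray class: generators congruent to `1` -/

/-- `[I][b] = 1` in `Cl_m` iff `I * b` is generated by some `g ≡ 1 mod m`. -/
theorem mk_mul_mk_eq_one_iff (I b : coprimeSubmonoid m) :
    mk m I * mk m b = 1 ↔ ∃ g : R, g - 1 ∈ m ∧ idl I * idl b = span {g} := by
  rw [← map_mul, ← map_one (mk m), mk_eq_mk_iff]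
  constructor
  · rintro ⟨a', b', ha0, hb0, ha1, hb1, h⟩
    rw [idl_one, mul_one, idl_mul] at h
    have hmem : b' ∈ span {a'} := by
      have h1 : b' ∈ span {a'} * (idl I * idl b) := by
        rw [h]; exact mem_span_singleton_self b'
      exact Ideal.mul_le_left (I := span {a'}) (J := idl I * idl b) h1
    obtain ⟨g, hg⟩ := mem_span_singleton'.1 hmem
    refine ⟨g, ?_, ?_⟩
    · have : g - 1 = (b' - 1) - g * (a' - 1) := by rw [← hg]; ring
      rw [this]
      exact m.sub_mem hb1 (m.mul_mem_left _ ha1)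
    · have ha'ne : (span {a'} : Ideal R) ≠ 0 := by
        rw [Ne, Ideal.zero_eq_bot, span_singleton_eq_bot]; exact ha0
      apply mul_left_cancel₀ ha'ne
      rw [h, span_singleton_mul_span_singleton, ← hg, mul_comm]
  · rintro ⟨g, hg1, hg⟩
    have hg0 : g ≠ 0 := by
      rintro rfl
      have : idl I * idl b = 0 := by rw [hg]; simp
      exact mul_ne_zero (idl_ne_zero I) (idl_ne_zero b) this
    refine ⟨1, g, one_ne_zero, hg0, by simp, hg1, ?_⟩
    rw [idl_one, mul_one, idl_mul, hg, Ideal.span_singleton_one, Ideal.top_mul]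

/-- Same, in terms of an arbitrary generator `g0` of `I * b`: some unit multiple is `≡ 1`. -/
theorem mk_mul_mk_eq_one_iff_of_span (I b : coprimeSubmonoid m) {g0 : R}
    (h : idl I * idl b = span {g0}) :
    mk m I * mk m b = 1 ↔ ∃ ε : Rˣ, (ε : R) * g0 - 1 ∈ m := by
  rw [mk_mul_mk_eq_one_iff]
  constructor
  · rintro ⟨g, hg1, hg⟩
    rw [h, Ideal.span_singleton_eq_span_singleton] at hg
    obtain ⟨ε, hε⟩ := hg
    exact ⟨ε, by rw [mul_comm, hε]; exact hg1⟩
  · rintro ⟨ε, hε⟩
    refine ⟨(ε : R) * g0, hε, ?_⟩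
    rw [h, Ideal.span_singleton_eq_span_singleton]
    exact ⟨ε, mul_comm _ _⟩

/-- `I ∈ c` iff `I * b = (g)` with `g ≡ 1 mod m`, for a fixed `b ∈ c⁻¹`. -/
theorem mk_eq_iff_exists_generator {c : RayClassGroup m} {b : coprimeSubmonoid m}
    (hb : mk m b = c⁻¹) (I : coprimeSubmonoid m) :
    mk m I = c ↔ ∃ g : R, g - 1 ∈ m ∧ idl I * idl b = span {g} := by
  rw [← mk_mul_mk_eq_one_iff, hb, mul_inv_eq_one]

/-- CRT: every residue class modulo `m` is represented in an ideal coprime to `m`. -/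
theorem exists_mem_sub_mem (b : coprimeSubmonoid m) (u : R) : ∃ g ∈ idl b, g - u ∈ m := by
  obtain ⟨i, hi, j, hj, hij⟩ := Ideal.isCoprime_iff_exists.1 (idl_coprime b)
  refine ⟨u * i, (idl b).mul_mem_left _ hi, ?_⟩
  have : u * i - u = -(u * j) := by
    have h1 : i = 1 - j := by rw [← hij]; ring
    rw [h1]; ring
  rw [this]
  exact m.neg_mem (m.mul_mem_left _ hj)

/-- The elements of `b` in a given residue class modulo `m` form a coset of `b * m`. -/
theorem mem_and_sub_mem_iff (b : coprimeSubmonoid m) {g g0 : R} (hg0 : g0 ∈ idl b) :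
    (g ∈ idl b ∧ g - g0 ∈ m) ↔ g - g0 ∈ idl b * m := by
  rw [Ideal.mul_eq_inf_of_isCoprime (idl_coprime b), Ideal.mem_inf]
  constructor
  · rintro ⟨h1, h2⟩
    exact ⟨(idl b).sub_mem h1 hg0, h2⟩
  · rintro ⟨h1, h2⟩
    refine ⟨?_, h2⟩
    have : g = (g - g0) + g0 := by ring
    rw [this]
    exact (idl b).add_mem h1 hg0

/-- Multiplication by a fixed `b` identifies the ideals `I` coprime to `m` with `[I][b] = 1` with
the ideals divisible by `b` that have a generator `≡ 1 mod m`. -/
noncomputable def classEquiv (b : coprimeSubmonoid m) :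
    {I : coprimeSubmonoid m // mk m I * mk m b = 1} ≃
      {J : (Ideal R)⁰ // idl b ∣ (J : Ideal R) ∧ ∃ g : R, g - 1 ∈ m ∧ (J : Ideal R) = span {g}} :=
  Equiv.ofBijective
    (fun I => ⟨((I.1 * b : coprimeSubmonoid m) : (Ideal R)⁰),
      ⟨idl I.1, mul_comm _ _⟩, (mk_mul_mk_eq_one_iff m I.1 b).1 I.2⟩)
    (by
      constructor
      · rintro ⟨I, hI⟩ ⟨I', hI'⟩ h
        have h1 : idl I * idl b = idl I' * idl b := congrArg (fun J => ((J.1 : (Ideal R)⁰) : Ideal R)) h
        exact Subtype.ext (idl_injective (mul_right_cancel₀ (idl_ne_zero b) h1))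
      · rintro ⟨J, ⟨I0, hI0⟩, g, hg1, hg⟩
        have hJ0 : (J : Ideal R) ≠ 0 := nonZeroDivisors.coe_ne_zero _
        have hI00 : I0 ≠ 0 := by
          rintro rfl
          rw [mul_zero] at hI0
          exact hJ0 hI0
        have hI0c : IsCoprime I0 m := by
          have h1 : IsCoprime (span {g}) m := isCoprime_span_of_sub_one hg1
          rw [Ideal.isCoprime_iff_sup_eq] at h1 ⊢
          have hle' : span {g} ≤ I0 := by
            rw [← hg, hI0]; exact Ideal.mul_le_left (I := I0) (J := idl b) |> fun h => by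
              rw [mul_comm]; exact h
          exact top_le_iff.1 (h1 ▸ sup_le_sup_right hle' m)
        have hmul : idl (ofIdeal I0 hI00 hI0c) * idl b = span {g} := by
          rw [idl_ofIdeal, mul_comm, ← hI0, hg]
        refine ⟨⟨ofIdeal I0 hI00 hI0c, (mk_mul_mk_eq_one_iff m _ b).2 ⟨g, hg1, hmul⟩⟩, ?_⟩
        apply Subtype.ext
        apply Subtype.ext
        change idl (ofIdeal I0 hI00 hI0c) * idl b = (J : Ideal R)
        rw [hmul, hg])

@[simp] theorem coe_classEquiv (b : coprimeSubmonoid m)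
    (I : {I : coprimeSubmonoid m // mk m I * mk m b = 1}) :
    (((classEquiv m b I : {J : (Ideal R)⁰ // idl b ∣ (J : Ideal R) ∧
      ∃ g : R, g - 1 ∈ m ∧ (J : Ideal R) = span {g}}) : (Ideal R)⁰) : Ideal R) =
      idl I.1 * idl b := rfl

end Fermat.Agent.GC.RaySI.RayClass

/-! ## API in the shapes requested by R3 (helper98, board 1540)

Everything above lives in `Fermat.Agent.GC.RaySI.RayClass`; the names below are at the level
`Fermat.Agent.GC.RaySI` and are reducible abbreviations of the objects above, so all lemmas of the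
sub-namespace apply to them verbatim. -/

namespace Fermat.Agent.GC.RaySI

variable {R : Type*} [CommRing R] [IsDedekindDomain R] (m : Ideal R)

/-- (a) The submonoid of nonzero ideals coprime to `m`. -/
abbrev coprimeSubmonoid : Submonoid (Ideal R)⁰ := RayClass.coprimeSubmonoid m

theorem mem_coprimeSubmonoid {I : (Ideal R)⁰} :
    I ∈ coprimeSubmonoid m ↔ (I : Ideal R) ⊔ m = ⊤ :=
  Ideal.isCoprime_iff_sup_eq

theorem mem_coprimeSubmonoid_iff_isCoprime {I : (Ideal R)⁰} :
    I ∈ coprimeSubmonoid m ↔ IsCoprime (I : Ideal R) m := Iff.rfl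

/-- (b) The ray class group modulo `m`. -/
abbrev RayClassGroup : Type _ := RayClass.RayClassGroup m

/-- (b) The class map. -/
noncomputable def rayMk : coprimeSubmonoid m →* RayClassGroup m := RayClass.mk m

theorem rayMk_eq_mk : rayMk m = RayClass.mk m := rfl

theorem rayMk_surjective : Function.Surjective (rayMk m) := RayClass.mk_surjective m

/-- (d) The defining relation. -/
theorem rayMk_eq_rayMk_iff {I J : coprimeSubmonoid m} :
    rayMk m I = rayMk m J ↔ ∃ a b : R, a ≠ 0 ∧ b ≠ 0 ∧ a - 1 ∈ m ∧ b - 1 ∈ m ∧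
      span {a} * ((I : (Ideal R)⁰) : Ideal R) = span {b} * ((J : (Ideal R)⁰) : Ideal R) :=
  RayClass.mk_eq_mk_iff m

/-- (d) A principal ideal with a generator `≡ 1 mod m` is trivial in `Cl_m` (any proofs of the
two membership conditions). -/
theorem rayMk_span_eq_one {g : R} (hg : g - 1 ∈ m) (h0 : span {g} ∈ (Ideal R)⁰)
    (hc : (⟨span {g}, h0⟩ : (Ideal R)⁰) ∈ coprimeSubmonoid m) :
    rayMk m ⟨⟨span {g}, h0⟩, hc⟩ = 1 := by
  have hg0 : g ≠ 0 := by
    rintro rfl
    have := mem_nonZeroDivisors_iff_ne_zero.1 h0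
    exact this (by simp)
  rw [← map_one (rayMk m), rayMk_eq_rayMk_iff]
  refine ⟨1, g, one_ne_zero, hg0, by simp, hg, ?_⟩
  change span {(1 : R)} * span {g} = span {g} * ((1 : (Ideal R)⁰) : Ideal R)
  rw [Submonoid.coe_one, Ideal.span_singleton_one, Ideal.top_mul, mul_one]

/-- The principal ideal `(g)`, `g ≠ 0`, `g ≡ 1 mod m`, as an element of `coprimeSubmonoid m`. -/
def spanOne {g : R} (hg0 : g ≠ 0) (hg : g - 1 ∈ m) : coprimeSubmonoid m :=
  RayClass.ofIdeal (span {g}) (by rwa [Ne, Ideal.zero_eq_bot, span_singleton_eq_bot])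
    (RayClass.isCoprime_span_of_sub_one hg)

@[simp] theorem coe_spanOne {g : R} (hg0 : g ≠ 0) (hg : g - 1 ∈ m) :
    ((spanOne m hg0 hg : (Ideal R)⁰) : Ideal R) = span {g} := rfl

theorem rayMk_spanOne {g : R} (hg0 : g ≠ 0) (hg : g - 1 ∈ m) : rayMk m (spanOne m hg0 hg) = 1 :=
  rayMk_span_eq_one m hg _ _

/-- (c) KEY: every ray class `c` has an integral representative `b` of `c⁻¹`, and then
`I ∈ c ↔ I * b = (g)` with `g ≡ 1 mod m`. -/
theorem exists_inv_rep (c : RayClassGroup m) :
    ∃ b : coprimeSubmonoid m, ∀ I : coprimeSubmonoid m, rayMk m I = c ↔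
      ∃ g : R, g - 1 ∈ m ∧
        ((I : (Ideal R)⁰) : Ideal R) * ((b : (Ideal R)⁰) : Ideal R) = Ideal.span {g} := by
  obtain ⟨b, hb⟩ := rayMk_surjective m c⁻¹
  exact ⟨b, fun I => RayClass.mk_eq_iff_exists_generator m hb I⟩

/-- (c'), for a given representative `b` of `c⁻¹`. -/
theorem rayMk_eq_iff_of_inv_rep {c : RayClassGroup m} {b : coprimeSubmonoid m}
    (hb : rayMk m b = c⁻¹) (I : coprimeSubmonoid m) :
    rayMk m I = c ↔ ∃ g : R, g - 1 ∈ m ∧
      ((I : (Ideal R)⁰) : Ideal R) * ((b : (Ideal R)⁰) : Ideal R) = Ideal.span {g} :=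
  RayClass.mk_eq_iff_exists_generator m hb I

theorem subsingleton_rayClassGroup_of_eq_bot (hm : m = ⊥) : Subsingleton (RayClassGroup m) := by
  refine ⟨fun x y => ?_⟩
  obtain ⟨I, rfl⟩ := rayMk_surjective m x
  obtain ⟨J, rfl⟩ := rayMk_surjective m y
  have h : ∀ I : coprimeSubmonoid m, I = 1 := by
    intro I
    apply RayClass.idl_injective
    have h1 := (mem_coprimeSubmonoid m).1 I.2
    have h2 : ((I : (Ideal R)⁰) : Ideal R) ⊔ m = ((I : (Ideal R)⁰) : Ideal R) := by
      rw [sup_eq_left]; exact hm.le.trans bot_le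
    rw [RayClass.idl_one, Ideal.one_eq_top, ← h1, h2]
  rw [h I, h J]

open NumberField in
/-- (b) Finiteness for number fields, `m` arbitrary (including `⊥` and `⊤`). -/
instance finite_rayClassGroup {K : Type*} [Field K] [NumberField K] (m : Ideal (𝓞 K)) :
    Finite (RayClassGroup m) := by
  by_cases hm : m = ⊥
  · have := subsingleton_rayClassGroup_of_eq_bot m hm
    exact Finite.of_subsingleton
  · exact RayClass.finite_of_ne_bot m hm

end Fermat.Agent.GC.RaySI
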