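/-
GATE-C / (G3-an) analytic hedge, piece R4 (helper77), part 1: characters of a finite quotient of
the ideals coprime to `m`, extended by zero, their Euler products and local factor sums.

`D : PhiData m G` is a function `phi : (Ideal (𝓞 K))⁰ → G` multiplicative on the ideals coprime to
`m`.  For an additive character `ψ` of `Additive G`, `fch D ψ s I = ψ (phi I) N I ^ (-s)` for `I`
coprime to `m` and `0` otherwise: a monoid hom, so the Euler product of SIan applies.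
-/
import Fermat.Agent.S14.SIan.CharBound

set_option autoImplicit false

open NumberField nonZeroDivisors IsDedekindDomain

namespace Fermat.Agent.GC.RaySI

open Fermat.Agent.S14.SIan

variable {K : Type*} [Field K] [NumberField K]

/-- The nonzero ideal `I` is coprime to `m`. -/
def Cop (m : Ideal (𝓞 K)) (I : (Ideal (𝓞 K))⁰) : Prop := IsCoprime (I : Ideal (𝓞 K)) m

theorem cop_one (m : Ideal (𝓞 K)) : Cop m 1 := by
  unfold Cop
  rw [Submonoid.coe_one]
  exact isCoprime_one_left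

theorem cop_mul_iff {m : Ideal (𝓞 K)} {I J : (Ideal (𝓞 K))⁰} :
    Cop m (I * J) ↔ Cop m I ∧ Cop m J := by
  unfold Cop
  rw [Submonoid.coe_mul]
  exact IsCoprime.mul_left_iff

theorem cop_mul {m : Ideal (𝓞 K)} {I J : (Ideal (𝓞 K))⁰} (hI : Cop m I) (hJ : Cop m J) :
    Cop m (I * J) := cop_mul_iff.mpr ⟨hI, hJ⟩

/-- A map from the nonzero ideals to a group `G` which is multiplicative on the ideals coprime
to `m` (its values at the other ideals are irrelevant). -/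
structure PhiData (m : Ideal (𝓞 K)) (G : Type*) [CommGroup G] where
  /-- the map -/
  phi : (Ideal (𝓞 K))⁰ → G
  phi_one : phi 1 = 1
  phi_mul : ∀ I J : (Ideal (𝓞 K))⁰, Cop m I → Cop m J → phi (I * J) = phi I * phi J

variable {m : Ideal (𝓞 K)} {G : Type*} [CommGroup G] [Fintype G] (D : PhiData m G)

/-- The completely multiplicative function `I ↦ ψ (phi I) N I ^ (-s)`, zero off the ideals
coprime to `m`. -/
noncomputable def fch (ψ : AddChar (Additive G) ℂ) (s : ℝ) : (Ideal (𝓞 K))⁰ →* ℂ where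
  toFun I := open Classical in
    if Cop m I then ψ (Additive.ofMul (D.phi I)) * (nrm K s I : ℂ) else 0
  map_one' := by
    rw [if_pos (cop_one m), D.phi_one, ofMul_one, AddChar.map_zero_eq_one, nrm_one]
    simp
  map_mul' I J := by
    by_cases hI : Cop m I
    · by_cases hJ : Cop m J
      · rw [if_pos (cop_mul hI hJ), if_pos hI, if_pos hJ, D.phi_mul I J hI hJ, ofMul_mul,
          AddChar.map_add_eq_mul, nrm_mul]
        push_cast
        ring
      · rw [if_neg (fun h => hJ (cop_mul_iff.mp h).2), if_neg hJ, mul_zero]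
    · rw [if_neg (fun h => hI (cop_mul_iff.mp h).1), if_neg hI, zero_mul]

theorem fch_of_cop (ψ : AddChar (Additive G) ℂ) (s : ℝ) {I : (Ideal (𝓞 K))⁰} (hI : Cop m I) :
    fch D ψ s I = ψ (Additive.ofMul (D.phi I)) * (nrm K s I : ℂ) := by
  classical
  show (if Cop m I then _ else _) = _
  rw [if_pos hI]

theorem fch_of_not_cop (ψ : AddChar (Additive G) ℂ) (s : ℝ) {I : (Ideal (𝓞 K))⁰}
    (hI : ¬ Cop m I) : fch D ψ s I = 0 := by
  classical
  show (if Cop m I then _ else _) = _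
  rw [if_neg hI]

theorem norm_fch_of_cop (ψ : AddChar (Additive G) ℂ) (s : ℝ) {I : (Ideal (𝓞 K))⁰}
    (hI : Cop m I) : ‖fch D ψ s I‖ = nrm K s I := by
  rw [fch_of_cop D ψ s hI, norm_mul, AddChar.norm_apply, one_mul, Complex.norm_real,
    Real.norm_eq_abs, abs_of_nonneg (nrm_nonneg K s I)]

theorem norm_fch_le (ψ : AddChar (Additive G) ℂ) (s : ℝ) (I : (Ideal (𝓞 K))⁰) :
    ‖fch D ψ s I‖ ≤ nrm K s I := by
  by_cases hI : Cop m I
  · exact (norm_fch_of_cop D ψ s hI).le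
  · rw [fch_of_not_cop D ψ s hI, norm_zero]
    exact nrm_nonneg K s I

theorem summable_norm_fch (ψ : AddChar (Additive G) ℂ) {s : ℝ} (hs : 1 < s) :
    Summable fun I => ‖fch D ψ s I‖ :=
  Summable.of_nonneg_of_le (fun _ => norm_nonneg _) (norm_fch_le D ψ s) (summable_nrm K hs)

theorem summable_fch (ψ : AddChar (Additive G) ℂ) {s : ℝ} (hs : 1 < s) :
    Summable (fch D ψ s) :=
  Summable.of_norm (summable_norm_fch D ψ hs)

/-- The local factor sum over all characters. -/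
noncomputable def locSum (s : ℝ) (𝔭 : HeightOneSpectrum (𝓞 K)) : ℝ :=
  ∑ ψ : AddChar (Additive G) ℂ, -Real.log ‖1 - fch D ψ s (primeIdeal0 K 𝔭)‖

theorem locSum_nonneg {s : ℝ} (hs : 0 < s) (𝔭 : HeightOneSpectrum (𝓞 K)) :
    0 ≤ locSum D s 𝔭 := by
  unfold locSum
  by_cases h𝔭 : Cop m (primeIdeal0 K 𝔭)
  · simp only [fch_of_cop D _ s h𝔭]
    exact charSum_nonneg _ (nrm_nonneg K s _) (nrm_prime_lt_one K hs 𝔭)
  · simp only [fch_of_not_cop D _ s h𝔭]
    simp

theorem le_locSum {s : ℝ} (hs : 0 < s) (𝔭 : HeightOneSpectrum (𝓞 K))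
    (h𝔭 : Cop m (primeIdeal0 K 𝔭)) (h1 : D.phi (primeIdeal0 K 𝔭) = 1) :
    (Fintype.card G : ℝ) * nrm K s (primeIdeal0 K 𝔭) ≤ locSum D s 𝔭 := by
  unfold locSum
  simp only [fch_of_cop D _ s h𝔭]
  rw [h1, ofMul_one]
  have h := card_mul_le_charSum_zero (G := Additive G) (nrm_nonneg K s (primeIdeal0 K 𝔭))
    (nrm_prime_lt_one K hs 𝔭)
  have hc : Fintype.card (Additive G) = Fintype.card G := Fintype.card_congr Additive.toMul
  rw [hc] at h
  exact h

theorem summable_locSum {s : ℝ} (hs : 1 < s) : Summable (locSum D s) := by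
  unfold locSum
  exact summable_sum fun ψ _ =>
    (norm_tsum_eq_exp K (fch D ψ s) (summable_norm_fch D ψ hs)).1

/-- The product over all characters of `‖L(s,ψ)‖` is the exponential of the sum of the local
sums. -/
theorem prod_norm_tsum_fch_eq {s : ℝ} (hs : 1 < s) :
    ∏ ψ : AddChar (Additive G) ℂ, ‖∑' I, fch D ψ s I‖ = Real.exp (∑' 𝔭, locSum D s 𝔭) := by
  unfold locSum
  rw [Summable.tsum_finsetSum (fun ψ _ =>
    (norm_tsum_eq_exp K (fch D ψ s) (summable_norm_fch D ψ hs)).1), Real.exp_sum]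
  exact Finset.prod_congr rfl fun ψ _ =>
    (norm_tsum_eq_exp K (fch D ψ s) (summable_norm_fch D ψ hs)).2

/-- A prime ideal of `𝓞 K` which is nonzero, coprime to `m` and killed by `phi`. -/
def IsGoodPrime (𝔭 : Ideal (𝓞 K)) : Prop :=
  ∃ h : 𝔭 ≠ ⊥, Cop m ⟨𝔭, mem_nonZeroDivisors_of_ne_zero h⟩ ∧
    D.phi ⟨𝔭, mem_nonZeroDivisors_of_ne_zero h⟩ = 1

theorem card_mul_sum_le_tsum_locSum {s : ℝ} (hs : 1 < s)
    (T : Finset (Ideal (𝓞 K))) (hT : ∀ 𝔭 ∈ T, 𝔭.IsPrime ∧ IsGoodPrime D 𝔭) :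
    (Fintype.card G : ℝ) * ∑ 𝔭 ∈ T, (Ideal.absNorm 𝔭 : ℝ) ^ (-s) ≤ ∑' 𝔭, locSum D s 𝔭 := by
  classical
  have hs0 : 0 < s := by linarith
  let e : {𝔭 // 𝔭 ∈ T} → HeightOneSpectrum (𝓞 K) := fun 𝔭 =>
    ⟨𝔭.1, (hT 𝔭.1 𝔭.2).1, (hT 𝔭.1 𝔭.2).2.choose⟩
  have he : Function.Injective e := fun a b hab =>
    Subtype.ext (congrArg HeightOneSpectrum.asIdeal hab)
  have h1 : (Fintype.card G : ℝ) * ∑ 𝔭 ∈ T, (Ideal.absNorm 𝔭 : ℝ) ^ (-s) =
      ∑ a ∈ T.attach, (Fintype.card G : ℝ) * nrm K s (primeIdeal0 K (e a)) := by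
    rw [Finset.mul_sum, ← Finset.sum_attach]
    rfl
  have h2 : ∑ a ∈ T.attach, (Fintype.card G : ℝ) * nrm K s (primeIdeal0 K (e a)) ≤
      ∑ a ∈ T.attach, locSum D s (e a) := by
    refine Finset.sum_le_sum fun a _ => le_locSum D hs0 (e a) ?_ ?_
    · exact (hT a.1 a.2).2.choose_spec.1
    · exact (hT a.1 a.2).2.choose_spec.2
  have h3 : ∑ a ∈ T.attach, locSum D s (e a) =
      ∑ 𝔮 ∈ T.attach.map ⟨e, he⟩, locSum D s 𝔮 := by
    rw [Finset.sum_map]
    rfl
  rw [h1]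
  refine h2.trans (h3.le.trans ?_)
  exact (summable_locSum D hs).sum_le_tsum _ fun 𝔮 _ => locSum_nonneg D hs0 𝔮

end Fermat.Agent.GC.RaySI
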