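/-
GATE-C / (G3-an) analytic hedge, piece R4 (helper77), part 2: partial zeta functions of the fibres
of `phi` on the ideals coprime to `m`, from a counting hypothesis, and the character bound
`exp (|G| ∑_{𝔭 ∈ T} N𝔭^(-s)) ≤ B ζ_K(s)`.
-/
import Fermat.Agent.GC.RaySI.RayChar

set_option autoImplicit false

open NumberField nonZeroDivisors IsDedekindDomain

namespace Fermat.Agent.GC.RaySI

open Fermat.Agent.S14.SIan Fermat.Agent.S14_helper57

variable {K : Type*} [Field K] [NumberField K]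
variable {m : Ideal (𝓞 K)} {G : Type*} [CommGroup G] (D : PhiData m G)

/-- The class of an ideal: `some (phi I)` if `I` is coprime to `m`, `none` otherwise. -/
noncomputable def cl (I : (Ideal (𝓞 K))⁰) : Option G :=
  open Classical in if Cop m I then some (D.phi I) else none

theorem cl_eq_some_iff {I : (Ideal (𝓞 K))⁰} {g : G} :
    cl D I = some g ↔ Cop m I ∧ D.phi I = g := by
  classical
  unfold cl
  by_cases h : Cop m I
  · rw [if_pos h]
    simp [h]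
  · rw [if_neg h]
    simp [h]

theorem cl_eq_none_iff {I : (Ideal (𝓞 K))⁰} : cl D I = none ↔ ¬ Cop m I := by
  classical
  unfold cl
  by_cases h : Cop m I
  · rw [if_pos h]
    simp [h]
  · rw [if_neg h]
    simp [h]

/-- The nonzero ideals coprime to `m` with `phi I = g`. -/
abbrev Fib (g : G) : Type _ := {I : (Ideal (𝓞 K))⁰ // cl D I = some g}

/-- The absolute norm on a fibre. -/
noncomputable def fnrm (g : G) : Fib D g → ℕ := fun I => Ideal.absNorm (I.1 : Ideal (𝓞 K))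

theorem fnrm_ne_zero (g : G) (I : Fib D g) : fnrm D g I ≠ 0 := by
  unfold fnrm
  rw [Ne, Ideal.absNorm_eq_zero_iff]
  exact mem_nonZeroDivisors_iff_ne_zero.mp I.1.2

theorem finite_fnrm_eq (g : G) (n : ℕ) :
    ({I : Fib D g | fnrm D g I = n} : Set (Fib D g)).Finite := by
  have h := Ideal.finite_setOfPred_absNorm_eq (S := 𝓞 K) n
  exact Set.Finite.preimage (f := fun I : Fib D g => (I.1 : Ideal (𝓞 K)))
    (fun I _ J _ hIJ => Subtype.ext (Subtype.ext hIJ)) h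

theorem ncard_fnrm_le (g : G) (n : ℕ) :
    ((({I : Fib D g | fnrm D g I ≤ n} : Set (Fib D g)).ncard : ℕ) : ℝ) =
      (Nat.card {I : (Ideal (𝓞 K))⁰ // Cop m I ∧ D.phi I = g ∧
        Ideal.absNorm (I : Ideal (𝓞 K)) ≤ n} : ℝ) := by
  rw [← Nat.card_coe_set_eq]
  congr 1
  refine Nat.card_congr
    { toFun := fun I => ⟨I.1.1, by
        have h := I.2
        simp only [Set.mem_ofPred_eq, fnrm] at h
        have h2 := (cl_eq_some_iff D).mp I.1.2
        exact ⟨h2.1, h2.2, h⟩⟩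
      invFun := fun I => ⟨⟨I.1, (cl_eq_some_iff D).mpr ⟨I.2.1, I.2.2.1⟩⟩, by
        simp only [Set.mem_ofPred_eq, fnrm]
        exact I.2.2.2⟩
      left_inv := fun I => rfl
      right_inv := fun I => rfl }

/-- **The counting hypothesis** (output of the ray class counting R3): every fibre of `phi` on
the ideals coprime to `m` has `κ n + O(n^(1-ε))` members of norm at most `n`, with the same `κ`. -/
def CountHyp : Prop :=
  ∃ κ C ε : ℝ, 0 < κ ∧ 0 < ε ∧ ∀ (g : G) (n : ℕ), 1 ≤ n →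
    |(Nat.card {I : (Ideal (𝓞 K))⁰ // Cop m I ∧ D.phi I = g ∧
      Ideal.absNorm (I : Ideal (𝓞 K)) ≤ n} : ℝ) - κ * n| ≤ C * (n : ℝ) ^ (1 - ε)

/-- The partial zeta function of the fibre over `g`. -/
noncomputable def fibZeta (g : G) (s : ℝ) : ℝ := ∑' I : Fib D g, (fnrm D g I : ℝ) ^ (-s)

theorem fibZeta_nonneg (g : G) (s : ℝ) : 0 ≤ fibZeta D g s :=
  tsum_nonneg fun _ => Real.rpow_nonneg (Nat.cast_nonneg _) _

variable [Fintype G]

/-- The comparison of the partial zeta function of a fibre with `κ ∑ (n+1)^(-s)`. -/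
theorem exists_fibZeta_bound (h : CountHyp D) :
    ∃ κ B : ℝ, 0 < κ ∧ 0 ≤ B ∧ ∀ (g : G) (s : ℝ), 1 < s → s ≤ 2 →
      Summable (fun I : Fib D g => (fnrm D g I : ℝ) ^ (-s)) ∧
      |fibZeta D g s - κ * ∑' n : ℕ, ((n : ℝ) + 1) ^ (-s)| ≤ B := by
  obtain ⟨κ, C, ε, hκ, hε, hC⟩ := h
  set δ : ℝ := min ε 1 with hδ
  have hδ0 : 0 < δ := lt_min hε one_pos
  have hδ1 : δ ≤ 1 := min_le_right _ _
  have hδε : δ ≤ ε := min_le_left _ _
  have hab : ∀ (g : G) (n : ℕ),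
      |∑ k ∈ Finset.range n, cnt (fnrm D g) (k + 1) - κ * n| ≤ |C| * (n : ℝ) ^ (1 - δ) := by
    intro g n
    rw [sum_range_cnt (fnrm D g) (finite_fnrm_eq D g) (fnrm_ne_zero D g) n, ncard_fnrm_le]
    rcases Nat.eq_zero_or_pos n with hn | hn
    · subst hn
      have hempty : IsEmpty {I : (Ideal (𝓞 K))⁰ // Cop m I ∧ D.phi I = g ∧
          Ideal.absNorm (I : Ideal (𝓞 K)) ≤ 0} := by
        refine ⟨fun I => ?_⟩
        have h1 : Ideal.absNorm (I.1 : Ideal (𝓞 K)) = 0 := Nat.le_zero.mp I.2.2.2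
        rw [Ideal.absNorm_eq_zero_iff] at h1
        exact mem_nonZeroDivisors_iff_ne_zero.mp I.1.2 h1
      rw [Nat.card_of_isEmpty]
      simp only [Nat.cast_zero, mul_zero, sub_self, abs_zero]
      exact mul_nonneg (abs_nonneg _) (Real.rpow_nonneg le_rfl _)
    · have hn1 : (1 : ℝ) ≤ n := by exact_mod_cast hn
      refine (hC g n hn).trans ?_
      have h1 : (n : ℝ) ^ (1 - ε) ≤ (n : ℝ) ^ (1 - δ) :=
        Real.rpow_le_rpow_of_exponent_le hn1 (by linarith)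
      have h2 : 0 ≤ (n : ℝ) ^ (1 - ε) := Real.rpow_nonneg (by linarith) _
      calc C * (n : ℝ) ^ (1 - ε) ≤ |C| * (n : ℝ) ^ (1 - ε) :=
            mul_le_mul_of_nonneg_right (le_abs_self C) h2
        _ ≤ |C| * (n : ℝ) ^ (1 - δ) := mul_le_mul_of_nonneg_left h1 (abs_nonneg C)
  have hex : ∀ g : G, ∃ B : ℝ, ∀ s : ℝ, 1 < s → s ≤ 2 →
      Summable (fun n : ℕ => cnt (fnrm D g) (n + 1) * ((n : ℝ) + 1) ^ (-s)) ∧
      |∑' n : ℕ, cnt (fnrm D g) (n + 1) * ((n : ℝ) + 1) ^ (-s) -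
        κ * ∑' n : ℕ, ((n : ℝ) + 1) ^ (-s)| ≤ B :=
    fun g => abel_bound (cnt (fnrm D g)) (cnt_nonneg _) κ |C| δ hδ0 hδ1
      (abs_nonneg C) (hab g)
  choose Bc hBc using hex
  refine ⟨κ, ∑ g, |Bc g|, hκ, Finset.sum_nonneg fun g _ => abs_nonneg _, fun g s hs hs2 => ?_⟩
  obtain ⟨h1, h2⟩ := hBc g s hs hs2
  refine ⟨(summable_iff (fnrm D g) s (finite_fnrm_eq D g)).mpr h1, ?_⟩
  unfold fibZeta
  rw [tsum_eq (fnrm D g) s (finite_fnrm_eq D g) (fnrm_ne_zero D g)]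
  refine h2.trans ((le_abs_self _).trans ?_)
  exact Finset.single_le_sum (f := fun g => |Bc g|) (fun g _ => abs_nonneg _) (Finset.mem_univ g)

theorem fibZeta_sub_le (h : CountHyp D) :
    ∃ B : ℝ, ∀ s : ℝ, 1 < s → s ≤ 2 → ∀ g g' : G, |fibZeta D g s - fibZeta D g' s| ≤ B := by
  obtain ⟨κ, B, _, _, h⟩ := exists_fibZeta_bound D h
  refine ⟨2 * B, fun s hs hs2 g g' => ?_⟩
  have h1 := (h g s hs hs2).2
  have h2 := (h g' s hs hs2).2
  rw [abs_le] at h1 h2 ⊢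
  constructor <;> linarith [h1.1, h1.2, h2.1, h2.2]

/-- `L(s,ψ) = ∑_g ψ(g) ζ_g(s)`. -/
theorem tsum_fch_eq (ψ : AddChar (Additive G) ℂ) {s : ℝ} (hs : 1 < s) :
    ∑' I, fch D ψ s I = ∑ g : G, ψ (Additive.ofMul g) * (fibZeta D g s : ℂ) := by
  have h := ((summable_fch D ψ hs).hasSum.tsum_fiberwise (cl D)).tsum_eq
  rw [← h, tsum_fintype, Fintype.sum_option]
  have h0 : ∑' I : (cl D ⁻¹' {none}), fch D ψ s I.1 = 0 := by
    have : ∀ I : (cl D ⁻¹' {none}), fch D ψ s I.1 = 0 := fun I =>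
      fch_of_not_cop D ψ s ((cl_eq_none_iff D).mp I.2)
    simp only [this, tsum_zero]
  rw [h0, zero_add]
  refine Finset.sum_congr rfl fun g _ => ?_
  unfold fibZeta
  rw [Complex.ofReal_tsum, ← tsum_mul_left]
  refine tsum_congr fun I => ?_
  have hI := (cl_eq_some_iff D).mp I.2
  rw [fch_of_cop D ψ s hI.1, hI.2]
  rfl

theorem sum_char_ofMul_eq_zero {ψ : AddChar (Additive G) ℂ} (hψ : ψ ≠ 0) :
    ∑ g : G, ψ (Additive.ofMul g) = 0 := by
  classical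
  have h := AddChar.sum_eq_zero_iff_ne_zero.mpr hψ
  rw [← h]
  exact Fintype.sum_equiv Additive.ofMul _ _ fun c => rfl

theorem norm_tsum_fch_le {ψ : AddChar (Additive G) ℂ} (hψ : ψ ≠ 0) {s : ℝ} (hs : 1 < s)
    {B : ℝ} (hB : ∀ g g' : G, |fibZeta D g s - fibZeta D g' s| ≤ B) :
    ‖∑' I, fch D ψ s I‖ ≤ (Fintype.card G : ℝ) * B := by
  have h1 : ∑ g : G, ψ (Additive.ofMul g) * (fibZeta D g s : ℂ) =
      ∑ g : G, ψ (Additive.ofMul g) * ((fibZeta D g s - fibZeta D 1 s : ℝ) : ℂ) := by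
    have h0 := sum_char_ofMul_eq_zero hψ
    have : ∑ g : G, ψ (Additive.ofMul g) * ((fibZeta D g s - fibZeta D 1 s : ℝ) : ℂ) =
        ∑ g : G, ψ (Additive.ofMul g) * (fibZeta D g s : ℂ) -
          (∑ g : G, ψ (Additive.ofMul g)) * (fibZeta D 1 s : ℂ) := by
      rw [Finset.sum_mul, ← Finset.sum_sub_distrib]
      refine Finset.sum_congr rfl fun c _ => ?_
      push_cast
      ring
    rw [this, h0, zero_mul, sub_zero]
  rw [tsum_fch_eq D ψ hs, h1]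
  refine (norm_sum_le _ _).trans ?_
  have : ∀ g ∈ (Finset.univ : Finset G),
      ‖ψ (Additive.ofMul g) * ((fibZeta D g s - fibZeta D 1 s : ℝ) : ℂ)‖ ≤ B := by
    intro g _
    rw [norm_mul, AddChar.norm_apply, one_mul, Complex.norm_real, Real.norm_eq_abs]
    exact hB g 1
  refine (Finset.sum_le_sum this).trans ?_
  rw [Finset.sum_const, Finset.card_univ, nsmul_eq_mul]

theorem norm_tsum_fch_zero_le {s : ℝ} (hs : 1 < s) :
    ‖∑' I, fch D (0 : AddChar (Additive G) ℂ) s I‖ ≤ ∑' I, nrm K s I := by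
  refine (norm_tsum_le_tsum_norm (summable_norm_fch D 0 hs)).trans ?_
  exact (summable_norm_fch D 0 hs).tsum_le_tsum (norm_fch_le D 0 s) (summable_nrm K hs)

/-- **The character bound** for the fibres of `phi`. -/
theorem exp_card_mul_sum_le (h : CountHyp D) :
    ∃ B : ℝ, 0 < B ∧ ∀ s : ℝ, 1 < s → s ≤ 2 → ∀ T : Finset (Ideal (𝓞 K)),
      (∀ 𝔭 ∈ T, 𝔭.IsPrime ∧ IsGoodPrime D 𝔭) →
      Real.exp ((Fintype.card G : ℝ) * ∑ 𝔭 ∈ T, (Ideal.absNorm 𝔭 : ℝ) ^ (-s)) ≤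
        B * ∑' I : (Ideal (𝓞 K))⁰, (Ideal.absNorm (I : Ideal (𝓞 K)) : ℝ) ^ (-s) := by
  classical
  obtain ⟨B₀, hB₀⟩ := fibZeta_sub_le D h
  set M : ℝ := max 1 ((Fintype.card G : ℝ) * B₀) with hM
  have hM1 : 1 ≤ M := le_max_left _ _
  set E : Finset (AddChar (Additive G) ℂ) := Finset.univ.erase 0 with hE
  refine ⟨M ^ E.card, by positivity, fun s hs hs2 T hT => ?_⟩
  have h1 := card_mul_sum_le_tsum_locSum D hs T hT
  have h2 := prod_norm_tsum_fch_eq D hs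
  have h3 : ∏ ψ : AddChar (Additive G) ℂ, ‖∑' I, fch D ψ s I‖ =
      ‖∑' I, fch D 0 s I‖ * ∏ ψ ∈ E, ‖∑' I, fch D ψ s I‖ := by
    exact (Finset.mul_prod_erase Finset.univ (fun ψ : AddChar (Additive G) ℂ =>
      ‖∑' I, fch D ψ s I‖) (Finset.mem_univ 0)).symm
  have hZ0 : 0 ≤ ∑' I, nrm K s I := tsum_nonneg fun I => nrm_nonneg K s I
  have h4 := norm_tsum_fch_zero_le D hs
  have h5 : ∏ ψ ∈ E, ‖∑' I, fch D ψ s I‖ ≤ M ^ E.card := by
    rw [← Finset.prod_const]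
    refine Finset.prod_le_prod (fun ψ _ => norm_nonneg _) fun ψ hψ => ?_
    have hψ0 : ψ ≠ 0 := (Finset.mem_erase.mp hψ).1
    exact (norm_tsum_fch_le D hψ0 hs (hB₀ s hs hs2)).trans (le_max_right _ _)
  have h6 : 0 ≤ ∏ ψ ∈ E, ‖∑' I, fch D ψ s I‖ := Finset.prod_nonneg fun ψ _ => norm_nonneg _
  calc Real.exp ((Fintype.card G : ℝ) * ∑ 𝔭 ∈ T, (Ideal.absNorm 𝔭 : ℝ) ^ (-s))
      ≤ Real.exp (∑' 𝔭, locSum D s 𝔭) := Real.exp_le_exp.mpr h1
    _ = ‖∑' I, fch D 0 s I‖ * ∏ ψ ∈ E, ‖∑' I, fch D ψ s I‖ := by rw [← h2, h3]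
    _ ≤ (∑' I, nrm K s I) * M ^ E.card := mul_le_mul h4 h5 h6 hZ0
    _ = M ^ E.card * ∑' I : (Ideal (𝓞 K))⁰, (Ideal.absNorm (I : Ideal (𝓞 K)) : ℝ) ^ (-s) := by
        rw [mul_comm]
        rfl

end Fermat.Agent.GC.RaySI
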