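/-
GATE-C / (G3-an) analytic hedge, piece R4 (helper77), part 3: the final squeeze.

`D : PhiData m G` with the counting hypothesis `CountHyp D` and `phi` trivial on the primes of `K`
below the degree one primes of `L` (coprime to `m`).  Then `|G| ≤ [L:K]`.

Math.  `h := |G|`, `n := [L:K]`.  For every `X` and `s ∈ (1,2]`, with `T_X` the degree one primes of
`K` of norm `≤ X` which are coprime to `m` and killed by `phi`, and `c` the number of ideals of norm
at most `N m`:  `primeSum L X s ≤ n (∑_{𝔭 ∈ T_X} N𝔭^(-s) + c)`, and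
`exp (h ∑_{𝔭 ∈ T_X} N𝔭^(-s)) ≤ B ζ_K(s)`.  Hence
`(∑_{k ≤ X} a_L(k) k^(-s))^h ≤ (B ζ_K(s))^n exp (h (n c + c_L))`; let `X → ∞`, multiply by `(s-1)^h`
and let `s → 1⁺`: if `h > n` the right side tends to `0` while the left side tends to `ρ_L^h > 0`.
-/
import Fermat.Agent.GC.RaySI.RayZeta
import Fermat.Agent.S14.SIan.MainAux

set_option autoImplicit false

open NumberField nonZeroDivisors Filter Topology

namespace Fermat.Agent.GC.RaySI

open Fermat.Agent.S14.SIan Fermat.Agent.S14.NonSplit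

section

variable (K L : Type*) [Field K] [NumberField K] [Field L] [NumberField L] [Algebra K L]
variable {m : Ideal (𝓞 K)} {G : Type*} [CommGroup G] (D : PhiData m G)

/-- **The norm hypothesis**: `phi` kills the prime of `K` below every degree one prime of `L`
(when it is coprime to `m`). -/
def NormHyp : Prop :=
  ∀ P : Ideal (𝓞 L), P.IsPrime → (Ideal.absNorm P).Prime → ∀ h : P.under (𝓞 K) ≠ ⊥,
    Cop m ⟨P.under (𝓞 K), mem_nonZeroDivisors_of_ne_zero h⟩ →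
    D.phi ⟨P.under (𝓞 K), mem_nonZeroDivisors_of_ne_zero h⟩ = 1

/-- The degree one primes of `K` of norm at most `X`, coprime to `m` and killed by `phi`. -/
noncomputable def goodPrimes (X : ℕ) : Finset (Ideal (𝓞 K)) :=
  open Classical in (degOnePrimes K X).filter (IsGoodPrime D)

theorem mem_goodPrimes {X : ℕ} {𝔭 : Ideal (𝓞 K)} :
    𝔭 ∈ goodPrimes K D X ↔ 𝔭.IsPrime ∧ (Ideal.absNorm 𝔭).Prime ∧ Ideal.absNorm 𝔭 ≤ X ∧
      IsGoodPrime D 𝔭 := by
  classical
  rw [goodPrimes, Finset.mem_filter, mem_degOnePrimes]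
  tauto

variable (m) in
/-- All ideals of norm at most `N m`: contains every prime which is not coprime to `m`. -/
noncomputable def badIdeals : Finset (Ideal (𝓞 K)) := idealsLE K (Ideal.absNorm m)

variable {K} in
theorem mem_badIdeals_of_not_cop (hm : m ≠ ⊥) {𝔭 : Ideal (𝓞 K)} [h𝔭 : 𝔭.IsPrime] (h0 : 𝔭 ≠ ⊥)
    (h : ¬ Cop m ⟨𝔭, mem_nonZeroDivisors_of_ne_zero h0⟩) : 𝔭 ∈ badIdeals K m := by
  rw [badIdeals, mem_idealsLE]
  have hmax : 𝔭.IsMaximal := Ring.DimensionLEOne.maximalOfPrime h0 h𝔭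
  have hle : m ≤ 𝔭 := by
    by_contra hle
    apply h
    unfold Cop
    rw [Ideal.isCoprime_iff_sup_eq]
    by_contra hne
    have h1 : 𝔭 = 𝔭 ⊔ m := hmax.eq_of_le hne le_sup_left
    exact hle (h1 ▸ le_sup_right)
  have hdvd : 𝔭 ∣ m := Ideal.dvd_iff_le.mpr hle
  have h1 : Ideal.absNorm 𝔭 ∣ Ideal.absNorm m := map_dvd Ideal.absNorm hdvd
  have h2 : Ideal.absNorm m ≠ 0 := by
    rw [Ne, Ideal.absNorm_eq_zero_iff]
    exact hm
  exact Nat.le_of_dvd (Nat.pos_of_ne_zero h2) h1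

theorem natCast_rpow_neg_le_one (n : ℕ) {s : ℝ} (hs : 0 ≤ s) : (n : ℝ) ^ (-s) ≤ 1 := by
  rcases Nat.eq_zero_or_pos n with hn | hn
  · subst hn
    rw [Nat.cast_zero]
    exact Real.zero_rpow_le_one _
  · exact Real.rpow_le_one_of_one_le_of_nonpos (by exact_mod_cast hn) (by linarith)

/-- The sum over the degree one primes of `L` is at most `[L:K]` times the sum over the good
primes of `K`, up to a bounded error. -/
theorem primeSum_le_finrank_mul_good (hm : m ≠ ⊥) (hN : NormHyp K L D) (X : ℕ) {s : ℝ}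
    (hs : 0 ≤ s) :
    primeSum L X s ≤ (Module.finrank K L : ℝ) *
      (∑ 𝔭 ∈ goodPrimes K D X, (Ideal.absNorm 𝔭 : ℝ) ^ (-s) + ((badIdeals K m).card : ℝ)) := by
  classical
  set t : Finset (Ideal (𝓞 K)) := goodPrimes K D X ∪ badIdeals K m with ht
  have hmaps : ∀ P ∈ degOnePrimes L X, P.under (𝓞 K) ∈ t := by
    intro P hP
    obtain ⟨hPp, hPn, hPX⟩ := mem_degOnePrimes.mp hP
    have h := relNorm_eq_under_of_prime_absNorm K P hPn
    have hp : (P.under (𝓞 K)).IsPrime := Ideal.IsPrime.under (𝓞 K) P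
    have hne : P.under (𝓞 K) ≠ ⊥ := by
      intro h0
      rw [h0, Ideal.absNorm_bot] at h
      exact Nat.not_prime_zero (h.2 ▸ hPn)
    rw [ht, Finset.mem_union]
    by_cases hc : Cop m ⟨P.under (𝓞 K), mem_nonZeroDivisors_of_ne_zero hne⟩
    · left
      rw [mem_goodPrimes]
      exact ⟨hp, h.2 ▸ hPn, h.2 ▸ hPX, hne, hc, hN P hPp hPn hne hc⟩
    · right
      exact mem_badIdeals_of_not_cop hm hne hc
  rw [primeSum, ← Finset.sum_fiberwise_of_maps_to (s := degOnePrimes L X)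
    (t := t) (g := fun P => P.under (𝓞 K)) hmaps]
  have h1 : ∑ 𝔭 ∈ t, ∑ P ∈ (degOnePrimes L X).filter (fun P => P.under (𝓞 K) = 𝔭),
      (Ideal.absNorm P : ℝ) ^ (-s) ≤
      ∑ 𝔭 ∈ t, (Module.finrank K L : ℝ) * (Ideal.absNorm 𝔭 : ℝ) ^ (-s) := by
    refine Finset.sum_le_sum fun 𝔭 _ => ?_
    have hterm : ∀ P ∈ (degOnePrimes L X).filter (fun P => P.under (𝓞 K) = 𝔭),
        (Ideal.absNorm P : ℝ) ^ (-s) = (Ideal.absNorm 𝔭 : ℝ) ^ (-s) := by
      intro P hP
      rw [Finset.mem_filter] at hP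
      obtain ⟨hPp, hPn, -⟩ := mem_degOnePrimes.mp hP.1
      rw [← hP.2, (relNorm_eq_under_of_prime_absNorm K P hPn).2]
    rw [Finset.sum_congr rfl hterm, Finset.sum_const, nsmul_eq_mul]
    refine mul_le_mul_of_nonneg_right ?_ (Real.rpow_nonneg (Nat.cast_nonneg _) _)
    rcases Finset.eq_empty_or_nonempty
      ((degOnePrimes L X).filter (fun P => P.under (𝓞 K) = 𝔭)) with he | ⟨P₀, hP₀⟩
    · rw [he, Finset.card_empty, Nat.cast_zero]
      exact Nat.cast_nonneg _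
    · rw [Finset.mem_filter] at hP₀
      have hP₀p : P₀.IsPrime := (mem_degOnePrimes.mp hP₀.1).1
      have h𝔭p : 𝔭.IsPrime := hP₀.2 ▸ Ideal.IsPrime.under (𝓞 K) P₀
      have hsub : (((degOnePrimes L X).filter (fun P => P.under (𝓞 K) = 𝔭) : Finset _) : Set _) ⊆
          𝔭.primesOver (𝓞 L) := by
        intro P hP
        rw [Finset.mem_coe, Finset.mem_filter] at hP
        exact ⟨(mem_degOnePrimes.mp hP.1).1, ⟨hP.2.symm⟩⟩
      have hfin : (𝔭.primesOver (𝓞 L)).Finite := Algebra.QuasiFinite.finite_primesOver 𝔭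
      have hle := Set.ncard_le_ncard hsub hfin
      rw [Set.ncard_coe_finset] at hle
      exact_mod_cast hle.trans (ncard_primesOver_le_finrank K 𝔭)
  refine h1.trans ?_
  rw [← Finset.mul_sum]
  refine mul_le_mul_of_nonneg_left ?_ (Nat.cast_nonneg _)
  have hnn : ∀ 𝔭 : Ideal (𝓞 K), 0 ≤ (Ideal.absNorm 𝔭 : ℝ) ^ (-s) := fun 𝔭 =>
    Real.rpow_nonneg (Nat.cast_nonneg _) _
  have h2 := Finset.sum_union_inter (s₁ := goodPrimes K D X) (s₂ := badIdeals K m)
    (f := fun 𝔭 : Ideal (𝓞 K) => (Ideal.absNorm 𝔭 : ℝ) ^ (-s))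
  have h3 : 0 ≤ ∑ 𝔭 ∈ goodPrimes K D X ∩ badIdeals K m, (Ideal.absNorm 𝔭 : ℝ) ^ (-s) :=
    Finset.sum_nonneg fun 𝔭 _ => hnn 𝔭
  have h4 : ∑ 𝔭 ∈ badIdeals K m, (Ideal.absNorm 𝔭 : ℝ) ^ (-s) ≤ ((badIdeals K m).card : ℝ) := by
    have := Finset.sum_le_sum (s := badIdeals K m)
      (f := fun 𝔭 : Ideal (𝓞 K) => (Ideal.absNorm 𝔭 : ℝ) ^ (-s)) (g := fun _ => (1 : ℝ))
      fun 𝔭 _ => natCast_rpow_neg_le_one _ hs
    simpa using this
  rw [ht]
  linarith

variable [Fintype G]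

/-- The key inequality between the two zeta functions. -/
lemma zetaR_pow_card_le (hm : m ≠ ⊥) (hN : NormHyp K L D) {B : ℝ} (hB0 : 0 < B)
    (hB : ∀ s : ℝ, 1 < s → s ≤ 2 → ∀ T : Finset (Ideal (𝓞 K)),
      (∀ 𝔭 ∈ T, 𝔭.IsPrime ∧ IsGoodPrime D 𝔭) →
      Real.exp ((Fintype.card G : ℝ) * ∑ 𝔭 ∈ T, (Ideal.absNorm 𝔭 : ℝ) ^ (-s)) ≤
        B * ∑' I : (Ideal (𝓞 K))⁰, (Ideal.absNorm (I : Ideal (𝓞 K)) : ℝ) ^ (-s))
    {s : ℝ} (hs : 1 < s) (hs2 : s ≤ 2) :
    zetaR L s ^ Fintype.card G ≤ (B * zetaR K s) ^ Module.finrank K L *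
      Real.exp ((Fintype.card G : ℝ) *
        ((Module.finrank K L : ℝ) * ((badIdeals K m).card : ℝ) + lowerConst L)) := by
  set h := Fintype.card G with hh
  set n := Module.finrank K L with hn
  set c : ℝ := ((badIdeals K m).card : ℝ) with hc
  have hX : ∀ X : ℕ, (∑ k ∈ Finset.range (X + 1), (idealCount L k : ℝ) * (k : ℝ) ^ (-s)) ^ h ≤
      (B * zetaR K s) ^ n * Real.exp ((h : ℝ) * ((n : ℝ) * c + lowerConst L)) := by
    intro X
    have h1 := sum_range_le_exp_primeSum L hs.le X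
    have h0 : 0 ≤ ∑ k ∈ Finset.range (X + 1), (idealCount L k : ℝ) * (k : ℝ) ^ (-s) :=
      Finset.sum_nonneg fun k _ => zetaTerm_nonneg L s k
    have h2 := pow_le_pow_left₀ h0 h1 h
    rw [← Real.exp_nat_mul] at h2
    have h3 := primeSum_le_finrank_mul_good K L D hm hN X (s := s) (by linarith)
    have h4 := hB s hs hs2 (goodPrimes K D X) fun 𝔭 h𝔭 =>
      ⟨((mem_goodPrimes K D).mp h𝔭).1, ((mem_goodPrimes K D).mp h𝔭).2.2.2⟩
    have h5 : B * ∑' I : (Ideal (𝓞 K))⁰, (Ideal.absNorm (I : Ideal (𝓞 K)) : ℝ) ^ (-s) ≤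
        B * zetaR K s := mul_le_mul_of_nonneg_left (tsum_nonZeroDivisors_le_zetaR K hs) hB0.le
    have hh0 : (0 : ℝ) ≤ (h : ℝ) := Nat.cast_nonneg h
    set S : ℝ := ∑ 𝔭 ∈ goodPrimes K D X, (Ideal.absNorm 𝔭 : ℝ) ^ (-s) with hS
    have h6 : (h : ℝ) * (primeSum L X s + lowerConst L) ≤
        (n : ℝ) * ((h : ℝ) * S) + (h : ℝ) * ((n : ℝ) * c + lowerConst L) := by
      have := mul_le_mul_of_nonneg_left h3 hh0
      nlinarith
    have h7 : Real.exp ((n : ℝ) * ((h : ℝ) * S)) ≤ (B * zetaR K s) ^ n := by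
      rw [Real.exp_nat_mul]
      exact pow_le_pow_left₀ (Real.exp_pos _).le (h4.trans h5) n
    calc (∑ k ∈ Finset.range (X + 1), (idealCount L k : ℝ) * (k : ℝ) ^ (-s)) ^ h
        ≤ Real.exp ((h : ℝ) * (primeSum L X s + lowerConst L)) := h2
      _ ≤ Real.exp ((n : ℝ) * ((h : ℝ) * S) + (h : ℝ) * ((n : ℝ) * c + lowerConst L)) :=
          Real.exp_le_exp.mpr h6
      _ = Real.exp ((n : ℝ) * ((h : ℝ) * S)) *
            Real.exp ((h : ℝ) * ((n : ℝ) * c + lowerConst L)) := Real.exp_add _ _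
      _ ≤ (B * zetaR K s) ^ n * Real.exp ((h : ℝ) * ((n : ℝ) * c + lowerConst L)) :=
          mul_le_mul_of_nonneg_right h7 (Real.exp_pos _).le
  have hlim : Tendsto (fun X : ℕ =>
      (∑ k ∈ Finset.range (X + 1), (idealCount L k : ℝ) * (k : ℝ) ^ (-s)) ^ h) atTop
      (𝓝 (zetaR L s ^ h)) := by
    have := (summable_zetaTerm L hs).hasSum.tendsto_sum_nat
    exact ((this.comp (tendsto_add_atTop_nat 1)).pow h)
  exact le_of_tendsto' hlim hX

/-- **R4**: the counting hypothesis and the norm hypothesis give `|G| ≤ [L:K]`. -/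
theorem card_le_finrank_of_countHyp (hm : m ≠ ⊥) (hC : CountHyp D) (hN : NormHyp K L D) :
    Fintype.card G ≤ Module.finrank K L := by
  obtain ⟨B, hB0, hB⟩ := exp_card_mul_sum_le D hC
  by_contra hlt
  rw [not_le] at hlt
  set h := Fintype.card G with hh
  set n := Module.finrank K L with hn
  set M : ℝ := Real.exp ((h : ℝ) *
    ((n : ℝ) * ((badIdeals K m).card : ℝ) + lowerConst L)) with hM
  have hK := tendsto_sub_one_mul_zetaR K
  have hL := tendsto_sub_one_mul_zetaR L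
  have hf : Tendsto (fun s : ℝ => ((s - 1) * zetaR L s) ^ h) (𝓝[>] 1)
      (𝓝 (dedekindZeta_residue L ^ h)) := hL.pow h
  have hpow : Tendsto (fun s : ℝ => (s - 1) ^ (h - n)) (𝓝[>] 1) (𝓝 0) := by
    have h1 : Tendsto (fun s : ℝ => (s - 1) ^ (h - n)) (𝓝 1) (𝓝 ((1 - 1) ^ (h - n))) :=
      ((continuous_id.sub continuous_const).pow (h - n)).tendsto 1
    rw [sub_self, zero_pow (by omega)] at h1
    exact tendsto_nhdsWithin_of_tendsto_nhds h1
  have hg : Tendsto (fun s : ℝ => (s - 1) ^ (h - n) * (B * ((s - 1) * zetaR K s)) ^ n * M)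
      (𝓝[>] 1) (𝓝 (0 * (B * dedekindZeta_residue K) ^ n * M)) :=
    (hpow.mul ((hK.const_mul B).pow n)).mul_const M
  have hle : ∀ᶠ s in 𝓝[>] (1 : ℝ), ((s - 1) * zetaR L s) ^ h ≤
      (s - 1) ^ (h - n) * (B * ((s - 1) * zetaR K s)) ^ n * M := by
    filter_upwards [Ioc_mem_nhdsGT (show (1 : ℝ) < 2 by norm_num)] with s hs
    have h1 := zetaR_pow_card_le K L D hm hN hB0 hB hs.1 hs.2
    have hpos : 0 ≤ (s - 1) ^ h := pow_nonneg (by linarith [hs.1]) h
    calc ((s - 1) * zetaR L s) ^ h = (s - 1) ^ h * zetaR L s ^ h := mul_pow _ _ _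
      _ ≤ (s - 1) ^ h * ((B * zetaR K s) ^ n * M) := mul_le_mul_of_nonneg_left h1 hpos
      _ = (s - 1) ^ (h - n) * (B * ((s - 1) * zetaR K s)) ^ n * M := by
          have : h = (h - n) + n := by omega
          conv_lhs => rw [this, pow_add]
          rw [mul_pow B, mul_pow B, mul_pow (s - 1)]
          ring
  have := le_of_tendsto_of_tendsto hf hg hle
  rw [zero_mul, zero_mul] at this
  have hpos : 0 < dedekindZeta_residue L ^ h := pow_pos (dedekindZeta_residue_pos L) h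
  linarith

end

/-- **R4, consumer form** (no structures): a map `phi` from the nonzero ideals of `𝓞 K` to a finite
commutative group `G`, multiplicative on the ideals coprime to `m`, such that every fibre over `G`
among the ideals coprime to `m` has `κ n + O(n^(1-ε))` members of norm at most `n`, and which kills
the primes of `K` below the degree one primes of `L`, satisfies `|G| ≤ [L:K]`. -/
theorem card_le_finrank_of_count (K L : Type*) [Field K] [NumberField K] [Field L]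
    [NumberField L] [Algebra K L] (m : Ideal (𝓞 K)) (hm : m ≠ ⊥) {G : Type*} [CommGroup G]
    [Finite G] (phi : (Ideal (𝓞 K))⁰ → G) (hone : phi 1 = 1)
    (hmul : ∀ I J : (Ideal (𝓞 K))⁰, IsCoprime (I : Ideal (𝓞 K)) m →
      IsCoprime (J : Ideal (𝓞 K)) m → phi (I * J) = phi I * phi J)
    (hcount : ∃ κ C ε : ℝ, 0 < κ ∧ 0 < ε ∧ ∀ (g : G) (n : ℕ), 1 ≤ n →
      |(Nat.card {I : (Ideal (𝓞 K))⁰ // IsCoprime (I : Ideal (𝓞 K)) m ∧ phi I = g ∧
        Ideal.absNorm (I : Ideal (𝓞 K)) ≤ n} : ℝ) - κ * n| ≤ C * (n : ℝ) ^ (1 - ε))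
    (hnorm : ∀ P : Ideal (𝓞 L), P.IsPrime → (Ideal.absNorm P).Prime →
      ∀ h : P.under (𝓞 K) ≠ ⊥, IsCoprime (P.under (𝓞 K)) m →
        phi ⟨P.under (𝓞 K), mem_nonZeroDivisors_of_ne_zero h⟩ = 1) :
    Nat.card G ≤ Module.finrank K L := by
  classical
  have : Fintype G := Fintype.ofFinite G
  rw [Nat.card_eq_fintype_card]
  exact card_le_finrank_of_countHyp K L (D := ⟨phi, hone, hmul⟩) hm hcount hnorm

end Fermat.Agent.GC.RaySI
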