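/-
GATE-C / (G3-an) analytic hedge, piece R5a (helper77): from the ray class counting statement (R3)
to the universal norm index inequality for the ray class group:
every subgroup `H` of `Cl_m(K)` which contains the classes of the primes of `K` below the degree one
primes of `L` (coprime to `m`) has index at most `[L:K]`.
-/
import Fermat.Agent.GC.RaySI.RayMain
import Fermat.Agent.GC.RaySI.RayClass

set_option autoImplicit false

open NumberField nonZeroDivisors

namespace Fermat.Agent.GC.RaySI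

open RayClass

section

variable (K : Type*) [Field K] [NumberField K] (m : Ideal (𝓞 K))

/-- **The ray class counting statement** (export of R3): every ray class modulo `m` contains
`κ x + O(x^(1-1/d))` integral ideals of norm at most `x`, with the same `κ`. -/
def RayCountStmt : Prop :=
  ∃ κ C : ℝ, 0 < κ ∧ ∀ (c : RayClassGroup m) (x : ℝ), 1 ≤ x →
    |(Nat.card {I : coprimeSubmonoid m // (Ideal.absNorm (idl I) : ℝ) ≤ x ∧ mk m I = c} : ℝ) -
      κ * x| ≤ C * x ^ (1 - 1 / (Module.finrank ℚ K : ℝ))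

variable {K m}

/-- The class of a nonzero ideal in `Cl_m ⧸ H` (`1` if the ideal is not coprime to `m`). -/
noncomputable def phiH (H : Subgroup (RayClassGroup m)) (I : (Ideal (𝓞 K))⁰) :
    RayClassGroup m ⧸ H :=
  open Classical in
  if h : IsCoprime (I : Ideal (𝓞 K)) m then QuotientGroup.mk (mk m ⟨I, h⟩) else 1

theorem phiH_of_coprime (H : Subgroup (RayClassGroup m)) {I : (Ideal (𝓞 K))⁰}
    (h : IsCoprime (I : Ideal (𝓞 K)) m) :
    phiH H I = QuotientGroup.mk (mk m ⟨I, h⟩) := by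
  classical
  unfold phiH
  rw [dif_pos h]

theorem phiH_one (H : Subgroup (RayClassGroup m)) : phiH H (1 : (Ideal (𝓞 K))⁰) = 1 := by
  have h : IsCoprime (((1 : (Ideal (𝓞 K))⁰) : Ideal (𝓞 K))) m := by
    rw [Submonoid.coe_one]
    exact isCoprime_one_left
  rw [phiH_of_coprime H h]
  have : (⟨1, h⟩ : coprimeSubmonoid m) = 1 := rfl
  rw [this, map_one, QuotientGroup.mk_one]

theorem phiH_mul (H : Subgroup (RayClassGroup m)) (I J : (Ideal (𝓞 K))⁰)
    (hI : IsCoprime (I : Ideal (𝓞 K)) m) (hJ : IsCoprime (J : Ideal (𝓞 K)) m) :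
    phiH H (I * J) = phiH H I * phiH H J := by
  have hIJ : IsCoprime ((I * J : (Ideal (𝓞 K))⁰) : Ideal (𝓞 K)) m := by
    rw [Submonoid.coe_mul]
    exact IsCoprime.mul_left hI hJ
  rw [phiH_of_coprime H hIJ, phiH_of_coprime H hI, phiH_of_coprime H hJ, ← QuotientGroup.mk_mul,
    ← map_mul]
  rfl

/-- The ideals in a ray class of norm at most `n` form a finite set. -/
theorem finite_rayClass_le (c : RayClassGroup m) (x : ℝ) :
    Finite {I : coprimeSubmonoid m // (Ideal.absNorm (idl I) : ℝ) ≤ x ∧ mk m I = c} := by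
  have hfin := Ideal.finite_setOfPred_absNorm_le (S := 𝓞 K) ⌊x⌋₊
  have : Finite {J : Ideal (𝓞 K) // Ideal.absNorm J ≤ ⌊x⌋₊} := hfin.to_subtype
  refine Finite.of_injective
    (fun I : {I : coprimeSubmonoid m // (Ideal.absNorm (idl I) : ℝ) ≤ x ∧ mk m I = c} =>
      (⟨idl I.1, Nat.le_floor I.2.1⟩ : {J : Ideal (𝓞 K) // Ideal.absNorm J ≤ ⌊x⌋₊})) ?_
  intro I J h
  have h' := Subtype.ext_iff.mp h
  exact Subtype.ext (idl_injective h')

/-- The fibre of `Cl_m → Cl_m ⧸ H` over any point is in bijection with `H`. -/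
noncomputable def fibreEquiv (H : Subgroup (RayClassGroup m)) (c₀ : RayClassGroup m) :
    {c : RayClassGroup m // (QuotientGroup.mk c : RayClassGroup m ⧸ H) = QuotientGroup.mk c₀} ≃
      H where
  toFun c := ⟨c₀⁻¹ * c.1, QuotientGroup.eq.mp c.2.symm⟩
  invFun h := ⟨c₀ * h.1, by
    rw [QuotientGroup.mk_mul, (QuotientGroup.eq_one_iff (h : RayClassGroup m)).mpr h.2, mul_one]⟩
  left_inv c := by
    apply Subtype.ext
    simp
  right_inv h := by
    apply Subtype.ext
    simp

/-- The sigma decomposition of a fibre of `phiH` into ray classes. -/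
noncomputable def fibSigmaEquiv (H : Subgroup (RayClassGroup m)) (g : RayClassGroup m ⧸ H)
    (n : ℕ) :
    {I : (Ideal (𝓞 K))⁰ // IsCoprime (I : Ideal (𝓞 K)) m ∧ phiH H I = g ∧
        Ideal.absNorm (I : Ideal (𝓞 K)) ≤ n} ≃
      Σ c : {c : RayClassGroup m // (QuotientGroup.mk c : RayClassGroup m ⧸ H) = g},
        {I : coprimeSubmonoid m // (Ideal.absNorm (idl I) : ℝ) ≤ (n : ℝ) ∧ mk m I = c.1} where
  toFun I := ⟨⟨mk m ⟨I.1, I.2.1⟩, by
      have h := I.2.2.1
      rw [phiH_of_coprime H I.2.1] at h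
      exact h⟩, ⟨⟨I.1, I.2.1⟩, by exact_mod_cast I.2.2.2, rfl⟩⟩
  invFun x := ⟨x.2.1.1, x.2.1.2, by
      rw [phiH_of_coprime H x.2.1.2]
      have h1 : (⟨x.2.1.1, x.2.1.2⟩ : coprimeSubmonoid m) = x.2.1 := rfl
      rw [h1, x.2.2.2]
      exact x.1.2, by exact_mod_cast x.2.2.1⟩
  left_inv I := rfl
  right_inv x := by
    obtain ⟨⟨c, hc⟩, ⟨I, h1, h2⟩⟩ := x
    dsimp only at h2
    subst h2
    rfl

theorem countHyp_phiH (hm : m ≠ ⊥) (hR : RayCountStmt K m) (H : Subgroup (RayClassGroup m)) :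
    ∃ κ C ε : ℝ, 0 < κ ∧ 0 < ε ∧ ∀ (g : RayClassGroup m ⧸ H) (n : ℕ), 1 ≤ n →
      |(Nat.card {I : (Ideal (𝓞 K))⁰ // IsCoprime (I : Ideal (𝓞 K)) m ∧ phiH H I = g ∧
        Ideal.absNorm (I : Ideal (𝓞 K)) ≤ n} : ℝ) - κ * n| ≤ C * (n : ℝ) ^ (1 - ε) := by
  classical
  obtain ⟨κ, C, hκ, hC⟩ := hR
  have hfinG : Finite (RayClassGroup m) := finite_of_ne_bot m hm
  have hd : 0 < Module.finrank ℚ K := Module.finrank_pos
  set h : ℝ := (Nat.card H : ℝ) with hh
  have hh0 : 0 < h := by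
    rw [hh]
    exact_mod_cast Nat.card_pos
  refine ⟨h * κ, h * |C|, 1 / (Module.finrank ℚ K : ℝ), by positivity, by positivity,
    fun g n hn => ?_⟩
  obtain ⟨c₀, rfl⟩ := QuotientGroup.mk_surjective g
  have : Fintype {c : RayClassGroup m //
      (QuotientGroup.mk c : RayClassGroup m ⧸ H) = QuotientGroup.mk c₀} := Fintype.ofFinite _
  have : ∀ c : {c : RayClassGroup m //
      (QuotientGroup.mk c : RayClassGroup m ⧸ H) = QuotientGroup.mk c₀},
      Finite {I : coprimeSubmonoid m // (Ideal.absNorm (idl I) : ℝ) ≤ (n : ℝ) ∧ mk m I = c.1} :=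
    fun c => finite_rayClass_le c.1 n
  rw [Nat.card_congr (fibSigmaEquiv H (QuotientGroup.mk c₀) n), Nat.card_sigma, Nat.cast_sum]
  have hcard : (Fintype.card {c : RayClassGroup m //
      (QuotientGroup.mk c : RayClassGroup m ⧸ H) = QuotientGroup.mk c₀} : ℝ) = h := by
    rw [hh, ← Nat.card_eq_fintype_card, Nat.card_congr (fibreEquiv H c₀)]
  have hn1 : (1 : ℝ) ≤ n := by exact_mod_cast hn
  have h1 : h * κ * n = ∑ _c : {c : RayClassGroup m //
      (QuotientGroup.mk c : RayClassGroup m ⧸ H) = QuotientGroup.mk c₀}, κ * n := by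
    rw [Finset.sum_const, Finset.card_univ, nsmul_eq_mul, hcard]
    ring
  rw [h1, ← Finset.sum_sub_distrib]
  refine (Finset.abs_sum_le_sum_abs _ _).trans ?_
  have h2 : ∀ c ∈ (Finset.univ : Finset {c : RayClassGroup m //
      (QuotientGroup.mk c : RayClassGroup m ⧸ H) = QuotientGroup.mk c₀}),
      |(Nat.card {I : coprimeSubmonoid m //
        (Ideal.absNorm (idl I) : ℝ) ≤ (n : ℝ) ∧ mk m I = c.1} : ℝ) - κ * n| ≤
        |C| * (n : ℝ) ^ (1 - 1 / (Module.finrank ℚ K : ℝ)) := by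
    intro c _
    refine (hC c.1 n hn1).trans ?_
    exact mul_le_mul_of_nonneg_right (le_abs_self C) (Real.rpow_nonneg (by linarith) _)
  refine (Finset.sum_le_sum h2).trans ?_
  rw [Finset.sum_const, Finset.card_univ, nsmul_eq_mul, hcard]
  ring_nf
  exact le_rfl

end

section main

variable (K L : Type*) [Field K] [NumberField K] [Field L] [NumberField L] [Algebra K L]
variable {m : Ideal (𝓞 K)}

/-- **R5a**: the universal norm index inequality for subgroups of the ray class group. -/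
theorem index_le_finrank_of_rayCount (hm : m ≠ ⊥) (hR : RayCountStmt K m)
    (H : Subgroup (RayClassGroup m))
    (hH : ∀ P : Ideal (𝓞 L), P.IsPrime → (Ideal.absNorm P).Prime →
      ∀ (h0 : P.under (𝓞 K) ≠ ⊥) (hc : IsCoprime (P.under (𝓞 K)) m),
        mk m (ofIdeal (P.under (𝓞 K)) h0 hc) ∈ H) :
    H.index ≤ Module.finrank K L ∧ H.index ≠ 0 := by
  have hfinG : Finite (RayClassGroup m) := finite_of_ne_bot m hm
  refine ⟨?_, Subgroup.index_ne_zero_of_finite⟩
  rw [Subgroup.index_eq_card]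
  refine card_le_finrank_of_count K L m hm (phiH H) (phiH_one H) (phiH_mul H)
    (countHyp_phiH hm hR H) ?_
  intro P hP hPn h0 hc
  have h1 : IsCoprime ((⟨P.under (𝓞 K), mem_nonZeroDivisors_of_ne_zero h0⟩ :
      (Ideal (𝓞 K))⁰) : Ideal (𝓞 K)) m := hc
  rw [phiH_of_coprime H h1, QuotientGroup.eq_one_iff]
  exact hH P hP hPn h0 hc

/-- The subgroup of `Cl_m(K)` generated by the classes of the relative norms of the ideals of `L`
(with norm coprime to `m`). -/
noncomputable def normSubgroup (m : Ideal (𝓞 K)) : Subgroup (RayClassGroup m) :=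
  Subgroup.closure {c | ∃ (A : Ideal (𝓞 L)) (h0 : Ideal.relNorm (𝓞 K) A ≠ 0)
    (hc : IsCoprime (Ideal.relNorm (𝓞 K) A) m), c = mk m (ofIdeal (Ideal.relNorm (𝓞 K) A) h0 hc)}

/-- **R5a, norm subgroup form**: `[Cl_m(K) : N Cl_m(L)] ≤ [L:K]`. -/
theorem index_normSubgroup_le (hm : m ≠ ⊥) (hR : RayCountStmt K m) :
    (normSubgroup K L m).index ≤ Module.finrank K L ∧ (normSubgroup K L m).index ≠ 0 := by
  refine index_le_finrank_of_rayCount K L hm hR _ fun P hP hPn h0 hc => ?_
  have h := Fermat.Agent.S14.SIan.relNorm_eq_under_of_prime_absNorm K P hPn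
  apply Subgroup.subset_closure
  have h0' : Ideal.relNorm (𝓞 K) P ≠ 0 := by rw [h.1]; exact h0
  have hc' : IsCoprime (Ideal.relNorm (𝓞 K) P) m := by rw [h.1]; exact hc
  refine ⟨P, h0', hc', ?_⟩
  congr 1
  apply idl_injective
  exact h.1.symm

end main

end Fermat.Agent.GC.RaySI
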