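/-
GATE-C / (G3-an) analytic hedge, piece R5b (helper77): the `Kˣ`-form of the universal norm index
inequality.  `S ⊇ supp m` a set of primes of `K`, `SL` a set of primes of `L` above `S` whose classes
generate `Cl(L)`.  Then
`[Kˣ : N_{L/K}(Lˣ) · K_{m,1} · U_S] ≤ [L:K]`, where `K_{m,1}` is generated by the integers `≡ 1 mod m`
and `U_S` are the `S`-units.

Proof: an injection `Kˣ ⧸ (…) ↪ Cl_m ⧸ normSubgroup`, `x = x₁/x₂ ↦ [c₁][c₂]⁻¹` where `(xᵢ) = cᵢ dᵢ` with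
`cᵢ` coprime to `m` and `dᵢ` supported in `S`.
-/
import Fermat.Agent.GC.RaySI.RayGlue

set_option autoImplicit false

open NumberField nonZeroDivisors IsDedekindDomain

namespace Fermat.Agent.GC.RaySI

open RayClass

section ssup

variable {R : Type*} [CommRing R] [IsDedekindDomain R]

/-- A nonzero ideal all of whose prime factors lie in `S`. -/
def SSup (S : Set (HeightOneSpectrum R)) (𝔡 : Ideal R) : Prop :=
  𝔡 ≠ ⊥ ∧ ∀ v : HeightOneSpectrum R, 𝔡 ≤ v.asIdeal → v ∈ S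

theorem ssup_one (S : Set (HeightOneSpectrum R)) : SSup S (1 : Ideal R) := by
  refine ⟨by simp, fun v hv => ?_⟩
  exact absurd (top_le_iff.mp (Ideal.one_eq_top (R := R) ▸ hv)) v.isPrime.ne_top

theorem SSup.mul {S : Set (HeightOneSpectrum R)} {𝔡 𝔡' : Ideal R} (h : SSup S 𝔡)
    (h' : SSup S 𝔡') : SSup S (𝔡 * 𝔡') := by
  refine ⟨mul_ne_zero h.1 h'.1, fun v hv => ?_⟩
  rcases (Ideal.IsPrime.mul_le v.isPrime).mp hv with h1 | h1
  · exact h.2 v h1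
  · exact h'.2 v h1

theorem ssup_prime {S : Set (HeightOneSpectrum R)} {v : HeightOneSpectrum R} (hv : v ∈ S) :
    SSup S v.asIdeal := by
  refine ⟨v.ne_bot, fun w hw => ?_⟩
  have : v.asIdeal = w.asIdeal := v.isMaximal.eq_of_le w.isPrime.ne_top hw
  rwa [← HeightOneSpectrum.ext this]

theorem SSup.pow {S : Set (HeightOneSpectrum R)} {𝔡 : Ideal R} (h : SSup S 𝔡) (n : ℕ) :
    SSup S (𝔡 ^ n) := by
  induction n with
  | zero => rw [pow_zero]; exact ssup_one S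
  | succ n ih => rw [pow_succ]; exact ih.mul h

/-- A prime outside `S` does not divide an `S`-supported ideal. -/
theorem SSup.not_dvd {S : Set (HeightOneSpectrum R)} {𝔡 : Ideal R} (h : SSup S 𝔡)
    {v : HeightOneSpectrum R} (hv : v ∉ S) : ¬ v.asIdeal ∣ 𝔡 := fun hd =>
  hv (h.2 v (Ideal.dvd_iff_le.mp hd))

/-- A prime not containing `m` is coprime to `m`. -/
theorem isCoprime_of_not_le {m : Ideal R} (v : HeightOneSpectrum R) (h : ¬ m ≤ v.asIdeal) :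
    IsCoprime v.asIdeal m := by
  rw [Ideal.isCoprime_iff_sup_eq]
  by_contra hne
  have h1 : v.asIdeal = v.asIdeal ⊔ m := v.isMaximal.eq_of_le hne le_sup_left
  exact h (h1 ▸ le_sup_right)

/-- Every nonzero ideal is the product of an ideal coprime to `m` and an `S`-supported ideal, if
`S` contains the primes dividing `m`. -/
theorem exists_cop_mul_ssup {m : Ideal R} {S : Set (HeightOneSpectrum R)}
    (hmS : ∀ v : HeightOneSpectrum R, m ≤ v.asIdeal → v ∈ S) (I : Ideal R) (hI : I ≠ ⊥) :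
    ∃ (𝔠 : coprimeSubmonoid m) (𝔡 : Ideal R), SSup S 𝔡 ∧ I = idl 𝔠 * 𝔡 := by
  classical
  induction I using UniqueFactorizationMonoid.induction_on_prime with
  | h₁ => exact absurd rfl hI
  | h₂ x hx =>
    refine ⟨1, 1, ssup_one S, ?_⟩
    rw [Ideal.isUnit_iff] at hx
    rw [hx, idl_one, mul_one, Ideal.one_eq_top]
  | h₃ a p ha hp ih =>
    obtain ⟨𝔠, 𝔡, h𝔡, rfl⟩ := ih ha
    have hpp : p.IsPrime := Ideal.isPrime_of_prime hp
    have hp0 : p ≠ ⊥ := hp.ne_zero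
    set v : HeightOneSpectrum R := ⟨p, hpp, hp0⟩ with hv
    by_cases hvS : v ∈ S
    · refine ⟨𝔠, p * 𝔡, (ssup_prime hvS).mul h𝔡, ?_⟩
      ring
    · have hcop : IsCoprime p m := isCoprime_of_not_le v fun hle => hvS (hmS v hle)
      refine ⟨ofIdeal p hp0 hcop * 𝔠, 𝔡, h𝔡, ?_⟩
      rw [idl_mul, idl_ofIdeal]
      ring

end ssup

section sunit

variable {R : Type*} [CommRing R] [IsDedekindDomain R]

theorem multiplicity_span_mul_ssup {S : Set (HeightOneSpectrum R)} {v : HeightOneSpectrum R}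
    (hv : v ∉ S) {y : R} (hy : y ≠ 0) {𝔇 : Ideal R} (h𝔇 : SSup S 𝔇) :
    multiplicity v.asIdeal (Ideal.span {y} * 𝔇) = multiplicity v.asIdeal (Ideal.span {y}) := by
  have hsy : (Ideal.span {y} : Ideal R) ≠ 0 := by
    rw [Ne, Ideal.zero_eq_bot, Ideal.span_singleton_eq_bot]
    exact hy
  have hne : Ideal.span {y} * 𝔇 ≠ 0 := mul_ne_zero hsy h𝔇.1
  rw [multiplicity_mul v.prime (FiniteMultiplicity.of_prime_left v.prime hne),
    multiplicity_eq_zero.mpr (h𝔇.not_dvd hv), add_zero]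

/-- Two integers generating the same ideal up to `S`-supported factors have the same valuation at
every prime outside `S`. -/
theorem intValuation_eq_of_span_mul_eq {S : Set (HeightOneSpectrum R)} {v : HeightOneSpectrum R}
    (hv : v ∉ S) {y₁ y₂ : R} (h1 : y₁ ≠ 0) (h2 : y₂ ≠ 0) {𝔇 𝔇' : Ideal R} (h𝔇 : SSup S 𝔇)
    (h𝔇' : SSup S 𝔇') (h : Ideal.span {y₁} * 𝔇 = Ideal.span {y₂} * 𝔇') :
    v.intValuation y₁ = v.intValuation y₂ := by
  rw [v.intValuation_eq_exp_neg_multiplicity h1, v.intValuation_eq_exp_neg_multiplicity h2,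
    ← multiplicity_span_mul_ssup hv h1 h𝔇, ← multiplicity_span_mul_ssup hv h2 h𝔇', h]

variable (K : Type*) [Field K] [Algebra R K] [IsFractionRing R K]

/-- **`S`-unit criterion.** -/
theorem mem_unit_of_span_mul_eq {S : Set (HeightOneSpectrum R)} {y₁ y₂ : R} (h1 : y₁ ≠ 0)
    (h2 : y₂ ≠ 0) {𝔇 𝔇' : Ideal R} (h𝔇 : SSup S 𝔇) (h𝔇' : SSup S 𝔇')
    (h : Ideal.span {y₁} * 𝔇 = Ideal.span {y₂} * 𝔇') (x : Kˣ)
    (hx : (x : K) * algebraMap R K y₂ = algebraMap R K y₁) : x ∈ S.unit K := by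
  intro v hv
  have hval := intValuation_eq_of_span_mul_eq hv h1 h2 h𝔇 h𝔇' h
  have h3 := congrArg (v.valuation K) hx
  rw [map_mul, v.valuation_of_algebraMap, v.valuation_of_algebraMap, hval] at h3
  have h4 : v.intValuation y₂ ≠ 0 := v.intValuation_ne_zero y₂ h2
  exact mul_right_cancel₀ h4 (h3.trans (one_mul _).symm)

end sunit

section classL

variable {L : Type*} [Field L] [NumberField L]

/-- The ideals of `𝓞 L` which are products of primes in `SL`. -/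
def SLprod (SL : Set (HeightOneSpectrum (𝓞 L))) : Submonoid (Ideal (𝓞 L)) :=
  Submonoid.closure {I | ∃ w ∈ SL, I = w.asIdeal}

theorem SLprod_ne_bot {SL : Set (HeightOneSpectrum (𝓞 L))} {𝔅 : Ideal (𝓞 L)}
    (h : 𝔅 ∈ SLprod SL) : 𝔅 ≠ ⊥ := by
  unfold SLprod at h
  induction h using Submonoid.closure_induction with
  | mem x hx =>
    obtain ⟨w, _, rfl⟩ := hx
    exact w.ne_bot
  | one => simp
  | mul x y _ _ hx hy => exact mul_ne_zero hx hy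

/-- If the classes of the primes in `SL` generate the class group, every nonzero ideal is equivalent
to a product of primes in `SL`. -/
theorem exists_span_mul_eq_of_closure {SL : Set (HeightOneSpectrum (𝓞 L))}
    (hSL : Subgroup.closure (Set.range fun w : SL =>
      ClassGroup.mk0 ⟨w.1.asIdeal, mem_nonZeroDivisors_of_ne_zero w.1.ne_bot⟩) = ⊤)
    (A : Ideal (𝓞 L)) (hA : A ≠ ⊥) :
    ∃ (β₁ β₂ : 𝓞 L) (𝔅 : Ideal (𝓞 L)), β₁ ≠ 0 ∧ β₂ ≠ 0 ∧ 𝔅 ∈ SLprod SL ∧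
      Ideal.span {β₂} * A = Ideal.span {β₁} * 𝔅 := by
  have hmem : ClassGroup.mk0 ⟨A, mem_nonZeroDivisors_of_ne_zero hA⟩ ∈
      (Subgroup.closure (Set.range fun w : SL =>
        ClassGroup.mk0 ⟨w.1.asIdeal, mem_nonZeroDivisors_of_ne_zero w.1.ne_bot⟩)).toSubmonoid := by
    rw [hSL]
    trivial
  rw [Subgroup.closure_toSubmonoid_of_finite] at hmem
  have key : ∀ c ∈ Submonoid.closure (Set.range fun w : SL =>
      ClassGroup.mk0 ⟨w.1.asIdeal, mem_nonZeroDivisors_of_ne_zero w.1.ne_bot⟩),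
      ∃ 𝔅 : (Ideal (𝓞 L))⁰, (𝔅 : Ideal (𝓞 L)) ∈ SLprod SL ∧ c = ClassGroup.mk0 𝔅 := by
    intro c hc
    induction hc using Submonoid.closure_induction with
    | mem x hx =>
      obtain ⟨w, rfl⟩ := hx
      exact ⟨_, Submonoid.subset_closure ⟨w.1, w.2, rfl⟩, rfl⟩
    | one => exact ⟨1, by rw [Submonoid.coe_one]; exact Submonoid.one_mem _, (map_one _).symm⟩
    | mul x y _ _ hx hy =>
      obtain ⟨𝔅₁, h1, rfl⟩ := hx
      obtain ⟨𝔅₂, h2, rfl⟩ := hy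
      exact ⟨𝔅₁ * 𝔅₂, by rw [Submonoid.coe_mul]; exact Submonoid.mul_mem _ h1 h2,
        (map_mul _ _ _).symm⟩
  obtain ⟨𝔅, h𝔅, heq⟩ := key _ hmem
  obtain ⟨x, y, hx, hy, hxy⟩ := ClassGroup.mk0_eq_mk0_iff.mp heq
  exact ⟨y, x, 𝔅, hy, hx, h𝔅, hxy⟩

variable (K : Type*) [Field K] [NumberField K] [Algebra K L]

/-- The relative norm of a product of primes above `S` is `S`-supported. -/
theorem ssup_relNorm_of_mem_SLprod {S : Set (HeightOneSpectrum (𝓞 K))}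
    {SL : Set (HeightOneSpectrum (𝓞 L))}
    (hSL : ∀ w ∈ SL, ∃ v ∈ S, w.asIdeal.under (𝓞 K) = v.asIdeal) {𝔅 : Ideal (𝓞 L)}
    (h : 𝔅 ∈ SLprod SL) : SSup S (Ideal.relNorm (𝓞 K) 𝔅) := by
  unfold SLprod at h
  induction h using Submonoid.closure_induction with
  | mem x hx =>
    obtain ⟨w, hw, rfl⟩ := hx
    obtain ⟨v, hv, hwv⟩ := hSL w hw
    have : w.asIdeal.LiesOver v.asIdeal := ⟨hwv.symm⟩
    obtain ⟨s, hs⟩ := Ideal.exists_relNorm_eq_pow_of_isPrime w.asIdeal v.asIdeal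
    rw [hs]
    exact (ssup_prime hv).pow s
  | one => rw [map_one]; exact ssup_one S
  | mul x y _ _ hx hy => rw [map_mul]; exact hx.mul hy

end classL

section main

variable (K L : Type*) [Field K] [NumberField K] [Field L] [NumberField L] [Algebra K L]
variable (m : Ideal (𝓞 K))

/-- The subgroup of `Kˣ` generated by the integers `≡ 1 mod m`. -/
def Km1 : Subgroup Kˣ :=
  Subgroup.closure {x | ∃ a : 𝓞 K, a - 1 ∈ m ∧ (x : K) = algebraMap (𝓞 K) K a}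

/-- The norms from `Lˣ`. -/
noncomputable def normUnits : Subgroup Kˣ := (Units.map (Algebra.norm K : L →* K)).range

/-- A nonzero integer as a unit of the field. -/
noncomputable def intUnit {F : Type*} [Field F] [NumberField F] (a : 𝓞 F) (ha : a ≠ 0) : Fˣ :=
  Units.mk0 (algebraMap (𝓞 F) F a)
    ((map_ne_zero_iff (algebraMap (𝓞 F) F) (FaithfulSMul.algebraMap_injective (𝓞 F) F)).mpr ha)

@[simp] theorem coe_intUnit {F : Type*} [Field F] [NumberField F] (a : 𝓞 F) (ha : a ≠ 0) :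
    ((intUnit a ha : Fˣ) : F) = algebraMap (𝓞 F) F a := rfl

variable {K m} in
theorem intUnit_mem_Km1 {a : 𝓞 K} (ha : a ≠ 0) (ha1 : a - 1 ∈ m) : intUnit a ha ∈ Km1 K m :=
  Subgroup.subset_closure ⟨a, ha1, rfl⟩

variable {L} in
theorem norm_intUnit_mem (β : 𝓞 L) (hβ : β ≠ 0) :
    Units.map (Algebra.norm K : L →* K) (intUnit β hβ) ∈ normUnits K L := ⟨_, rfl⟩

variable {L} in
theorem coe_norm_intUnit (β : 𝓞 L) (hβ : β ≠ 0) :
    ((Units.map (Algebra.norm K : L →* K) (intUnit β hβ) : Kˣ) : K) =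
      algebraMap (𝓞 K) K (Algebra.intNorm (𝓞 K) (𝓞 L) β) := by
  rw [Algebra.algebraMap_intNorm (K := K) (L := L)]
  rfl

variable {m}

/-- The elements of the norm subgroup are classes of relative norms. -/
theorem exists_relNorm_of_mem_normSubgroup (hm : m ≠ ⊥) {c : RayClassGroup m}
    (hc : c ∈ normSubgroup K L m) :
    ∃ (A : Ideal (𝓞 L)) (h0 : Ideal.relNorm (𝓞 K) A ≠ 0)
      (hcop : IsCoprime (Ideal.relNorm (𝓞 K) A) m),
      c = mk m (ofIdeal (Ideal.relNorm (𝓞 K) A) h0 hcop) := by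
  have hfin : Finite (RayClassGroup m) := finite_of_ne_bot m hm
  unfold normSubgroup at hc
  rw [← Subgroup.mem_toSubmonoid, Subgroup.closure_toSubmonoid_of_finite] at hc
  induction hc using Submonoid.closure_induction with
  | mem x hx => exact hx
  | one =>
    have h1 : Ideal.relNorm (𝓞 K) (⊤ : Ideal (𝓞 L)) = 1 := by
      rw [Ideal.relNorm_top, Ideal.one_eq_top]
    refine ⟨⊤, by rw [h1]; exact one_ne_zero, by rw [h1]; exact isCoprime_one_left, ?_⟩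
    rw [← map_one (mk m)]
    congr 1
    apply idl_injective
    rw [idl_ofIdeal, h1, idl_one]
  | mul x y _ _ hx hy =>
    obtain ⟨A, h0, hcop, rfl⟩ := hx
    obtain ⟨A', h0', hcop', rfl⟩ := hy
    have h1 : Ideal.relNorm (𝓞 K) (A * A') =
        Ideal.relNorm (𝓞 K) A * Ideal.relNorm (𝓞 K) A' := map_mul _ _ _
    refine ⟨A * A', by rw [h1]; exact mul_ne_zero h0 h0', by
      rw [h1]; exact IsCoprime.mul_left hcop hcop', ?_⟩
    rw [← map_mul (mk m)]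
    congr 1
    apply idl_injective
    rw [idl_mul, idl_ofIdeal, idl_ofIdeal, idl_ofIdeal, h1]

/-- Two ideals coprime to `m` with the same class modulo the norm subgroup differ by principal ideals
`≡ 1`, norms and an `S`-supported ideal. -/
theorem exists_of_mk_eq (hm : m ≠ ⊥) {S : Set (HeightOneSpectrum (𝓞 K))}
    {SL : Set (HeightOneSpectrum (𝓞 L))}
    (hSL₁ : ∀ w ∈ SL, ∃ v ∈ S, w.asIdeal.under (𝓞 K) = v.asIdeal)
    (hSL₂ : Subgroup.closure (Set.range fun w : SL =>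
      ClassGroup.mk0 ⟨w.1.asIdeal, mem_nonZeroDivisors_of_ne_zero w.1.ne_bot⟩) = ⊤)
    (P Q : coprimeSubmonoid m)
    (h : (QuotientGroup.mk (mk m P) : RayClassGroup m ⧸ normSubgroup K L m) =
      QuotientGroup.mk (mk m Q)) :
    ∃ (a b : 𝓞 K) (β₁ β₂ : 𝓞 L) (𝔢 : Ideal (𝓞 K)), a ≠ 0 ∧ b ≠ 0 ∧ a - 1 ∈ m ∧ b - 1 ∈ m ∧
      β₁ ≠ 0 ∧ β₂ ≠ 0 ∧ SSup S 𝔢 ∧
      Ideal.span {a * Algebra.intNorm (𝓞 K) (𝓞 L) β₂} * idl Q =
        Ideal.span {b * Algebra.intNorm (𝓞 K) (𝓞 L) β₁} * idl P * 𝔢 := by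
  rw [QuotientGroup.eq] at h
  obtain ⟨A, h0, hcop, hA⟩ := exists_relNorm_of_mem_normSubgroup K L hm h
  have hQ : mk m Q = mk m (P * ofIdeal (Ideal.relNorm (𝓞 K) A) h0 hcop) := by
    rw [map_mul, ← hA, mul_inv_cancel_left]
  obtain ⟨a, b, ha, hb, ha1, hb1, hab⟩ := (mk_eq_mk_iff m).mp hQ
  rw [idl_mul, idl_ofIdeal] at hab
  have hA0 : A ≠ ⊥ := by
    rintro rfl
    exact h0 (by simp)
  obtain ⟨β₁, β₂, 𝔅, hβ₁, hβ₂, h𝔅, hβ⟩ := exists_span_mul_eq_of_closure hSL₂ A hA0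
  have hN := congrArg (Ideal.relNorm (𝓞 K)) hβ
  rw [map_mul, map_mul, Ideal.relNorm_singleton, Ideal.relNorm_singleton] at hN
  refine ⟨a, b, β₁, β₂, Ideal.relNorm (𝓞 K) 𝔅, ha, hb, ha1, hb1, hβ₁, hβ₂,
    ssup_relNorm_of_mem_SLprod K hSL₁ h𝔅, ?_⟩
  calc Ideal.span {a * Algebra.intNorm (𝓞 K) (𝓞 L) β₂} * idl Q
      = Ideal.span {Algebra.intNorm (𝓞 K) (𝓞 L) β₂} * (Ideal.span {a} * idl Q) := by
        rw [← Ideal.span_singleton_mul_span_singleton]; ring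
    _ = Ideal.span {b} * idl P *
          (Ideal.span {Algebra.intNorm (𝓞 K) (𝓞 L) β₂} * Ideal.relNorm (𝓞 K) A) := by
        rw [hab]; ring
    _ = Ideal.span {b * Algebra.intNorm (𝓞 K) (𝓞 L) β₁} * idl P * Ideal.relNorm (𝓞 K) 𝔅 := by
        rw [hN, ← Ideal.span_singleton_mul_span_singleton]; ring

theorem field_identity {F : Type*} [Field F] {X X' A₁ A₂ A₁' A₂' a b N₁ N₂ : F} (hX : X ≠ 0)
    (hb : b ≠ 0) (hN₁ : N₁ ≠ 0) (h : X * A₂ = A₁) (h' : X' * A₂' = A₁') :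
    X⁻¹ * X' * (a * b⁻¹ * (N₂ * N₁⁻¹)) * (b * N₁ * (A₁ * A₂')) = a * N₂ * (A₁' * A₂) := by
  rw [← h, ← h']
  field_simp

variable (m) in
/-- `c` is a class attached to `x ∈ Kˣ` through a decomposition `x = x₁/x₂`, `(xᵢ) = cᵢ dᵢ`. -/
def DecompRel (S : Set (HeightOneSpectrum (𝓞 K))) (x : Kˣ)
    (c : RayClassGroup m ⧸ normSubgroup K L m) : Prop :=
  ∃ (x₁ x₂ : 𝓞 K) (𝔠₁ 𝔠₂ : coprimeSubmonoid m) (𝔡₁ 𝔡₂ : Ideal (𝓞 K)), x₁ ≠ 0 ∧ x₂ ≠ 0 ∧
    (x : K) * algebraMap (𝓞 K) K x₂ = algebraMap (𝓞 K) K x₁ ∧ SSup S 𝔡₁ ∧ SSup S 𝔡₂ ∧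
    Ideal.span {x₁} = idl 𝔠₁ * 𝔡₁ ∧ Ideal.span {x₂} = idl 𝔠₂ * 𝔡₂ ∧
    c = QuotientGroup.mk (mk m 𝔠₁ * (mk m 𝔠₂)⁻¹)

theorem exists_decompRel {S : Set (HeightOneSpectrum (𝓞 K))}
    (hmS : ∀ v : HeightOneSpectrum (𝓞 K), m ≤ v.asIdeal → v ∈ S) (x : Kˣ) :
    ∃ c, DecompRel K L m S x c := by
  obtain ⟨x₁, x₂, hx₂, hx⟩ := IsFractionRing.div_surjective (A := 𝓞 K) (x : K)
  have hx₂0 : x₂ ≠ 0 := nonZeroDivisors.ne_zero hx₂
  have hx₂K : algebraMap (𝓞 K) K x₂ ≠ 0 :=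
    (map_ne_zero_iff _ (FaithfulSMul.algebraMap_injective (𝓞 K) K)).mpr hx₂0
  have hx₁0 : x₁ ≠ 0 := by
    rintro rfl
    rw [map_zero, zero_div] at hx
    exact x.ne_zero hx.symm
  have hs₁ : (Ideal.span {x₁} : Ideal (𝓞 K)) ≠ ⊥ := by
    rwa [Ne, Ideal.span_singleton_eq_bot]
  have hs₂ : (Ideal.span {x₂} : Ideal (𝓞 K)) ≠ ⊥ := by
    rwa [Ne, Ideal.span_singleton_eq_bot]
  obtain ⟨𝔠₁, 𝔡₁, h𝔡₁, h1⟩ := exists_cop_mul_ssup hmS _ hs₁
  obtain ⟨𝔠₂, 𝔡₂, h𝔡₂, h2⟩ := exists_cop_mul_ssup hmS _ hs₂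
  refine ⟨_, x₁, x₂, 𝔠₁, 𝔠₂, 𝔡₁, 𝔡₂, hx₁0, hx₂0, ?_, h𝔡₁, h𝔡₂, h1, h2, rfl⟩
  rw [← hx, div_mul_cancel₀ _ hx₂K]

theorem mem_of_decompRel (hm : m ≠ ⊥) {S : Set (HeightOneSpectrum (𝓞 K))}
    {SL : Set (HeightOneSpectrum (𝓞 L))}
    (hSL₁ : ∀ w ∈ SL, ∃ v ∈ S, w.asIdeal.under (𝓞 K) = v.asIdeal)
    (hSL₂ : Subgroup.closure (Set.range fun w : SL =>
      ClassGroup.mk0 ⟨w.1.asIdeal, mem_nonZeroDivisors_of_ne_zero w.1.ne_bot⟩) = ⊤)
    {x x' : Kˣ} {c : RayClassGroup m ⧸ normSubgroup K L m}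
    (h : DecompRel K L m S x c) (h' : DecompRel K L m S x' c) :
    x⁻¹ * x' ∈ normUnits K L ⊔ Km1 K m ⊔ S.unit K := by
  obtain ⟨x₁, x₂, 𝔠₁, 𝔠₂, 𝔡₁, 𝔡₂, hx₁, hx₂, hx, h𝔡₁, h𝔡₂, hs₁, hs₂, hc⟩ := h
  obtain ⟨x₁', x₂', 𝔠₁', 𝔠₂', 𝔡₁', 𝔡₂', hx₁', hx₂', hx', h𝔡₁', h𝔡₂', hs₁', hs₂', hc'⟩ := h'
  -- the classes of `P = c₁ c₂'` and `Q = c₁' c₂` agree modulo the norm subgroup
  have hPQ : (QuotientGroup.mk (mk m (𝔠₁ * 𝔠₂')) : RayClassGroup m ⧸ normSubgroup K L m) =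
      QuotientGroup.mk (mk m (𝔠₁' * 𝔠₂)) := by
    have h1 := hc.symm.trans hc'
    rw [QuotientGroup.eq] at h1 ⊢
    rw [map_mul, map_mul]
    convert h1 using 1
    rw [mul_inv_rev, mul_inv_rev, inv_inv]
    ac_rfl
  obtain ⟨a, b, β₁, β₂, 𝔢, ha, hb, ha1, hb1, hβ₁, hβ₂, h𝔢, hid⟩ :=
    exists_of_mk_eq K L hm hSL₁ hSL₂ _ _ hPQ
  rw [idl_mul, idl_mul] at hid
  set N₁ := Algebra.intNorm (𝓞 K) (𝓞 L) β₁ with hN₁
  set N₂ := Algebra.intNorm (𝓞 K) (𝓞 L) β₂ with hN₂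
  have hN₁0 : N₁ ≠ 0 := Algebra.intNorm_ne_zero.mpr hβ₁
  have hN₂0 : N₂ ≠ 0 := Algebra.intNorm_ne_zero.mpr hβ₂
  -- the two integers and the `S`-supported ideals
  set y₁ : 𝓞 K := a * N₂ * (x₁' * x₂) with hy₁
  set y₂ : 𝓞 K := b * N₁ * (x₁ * x₂') with hy₂
  have hy₁0 : y₁ ≠ 0 := mul_ne_zero (mul_ne_zero ha hN₂0) (mul_ne_zero hx₁' hx₂)
  have hy₂0 : y₂ ≠ 0 := mul_ne_zero (mul_ne_zero hb hN₁0) (mul_ne_zero hx₁ hx₂')
  have hideal : Ideal.span {y₁} * (𝔡₁ * 𝔡₂') = Ideal.span {y₂} * (𝔢 * (𝔡₁' * 𝔡₂)) := by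
    rw [hy₁, hy₂, ← Ideal.span_singleton_mul_span_singleton,
      ← Ideal.span_singleton_mul_span_singleton (b * N₁),
      ← Ideal.span_singleton_mul_span_singleton x₁', ← Ideal.span_singleton_mul_span_singleton x₁,
      hs₁, hs₂, hs₁', hs₂']
    calc Ideal.span {a * N₂} * (idl 𝔠₁' * 𝔡₁' * (idl 𝔠₂ * 𝔡₂)) * (𝔡₁ * 𝔡₂')
        = Ideal.span {a * N₂} * (idl 𝔠₁' * idl 𝔠₂) * (𝔡₁' * 𝔡₂ * (𝔡₁ * 𝔡₂')) := by ring
      _ = Ideal.span {b * N₁} * (idl 𝔠₁ * idl 𝔠₂') * 𝔢 * (𝔡₁' * 𝔡₂ * (𝔡₁ * 𝔡₂')) := by rw [hid]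
      _ = Ideal.span {b * N₁} * (idl 𝔠₁ * 𝔡₁ * (idl 𝔠₂' * 𝔡₂')) * (𝔢 * (𝔡₁' * 𝔡₂)) := by ring
  -- the units
  set ua : Kˣ := intUnit a ha with hua
  set ub : Kˣ := intUnit b hb with hub
  set n₁ : Kˣ := Units.map (Algebra.norm K : L →* K) (intUnit β₁ hβ₁) with hn₁
  set n₂ : Kˣ := Units.map (Algebra.norm K : L →* K) (intUnit β₂ hβ₂) with hn₂
  set w : Kˣ := ua * ub⁻¹ * (n₂ * n₁⁻¹) with hw
  set u : Kˣ := x⁻¹ * x' * w with hu
  have huS : u ∈ S.unit K := by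
    refine mem_unit_of_span_mul_eq K hy₁0 hy₂0 (h𝔡₁.mul h𝔡₂') (h𝔢.mul (h𝔡₁'.mul h𝔡₂)) hideal u ?_
    have hbK : algebraMap (𝓞 K) K b ≠ 0 :=
      (map_ne_zero_iff _ (FaithfulSMul.algebraMap_injective (𝓞 K) K)).mpr hb
    have hN₁K : algebraMap (𝓞 K) K N₁ ≠ 0 :=
      (map_ne_zero_iff _ (FaithfulSMul.algebraMap_injective (𝓞 K) K)).mpr hN₁0
    have := field_identity (a := algebraMap (𝓞 K) K a) (N₂ := algebraMap (𝓞 K) K N₂)
      x.ne_zero hbK hN₁K hx hx'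
    rw [hy₁, hy₂, hu, hw]
    simp only [map_mul, Units.val_mul, Units.val_inv_eq_inv_val, hua, hub, hn₁, hn₂, coe_intUnit,
      coe_norm_intUnit]
    exact this
  have hwmem : w ∈ normUnits K L ⊔ Km1 K m := by
    rw [hw]
    refine Subgroup.mul_mem _ (Subgroup.mem_sup_right ?_) (Subgroup.mem_sup_left ?_)
    · exact Subgroup.mul_mem _ (intUnit_mem_Km1 ha ha1)
        (Subgroup.inv_mem _ (intUnit_mem_Km1 hb hb1))
    · exact Subgroup.mul_mem _ (norm_intUnit_mem K β₂ hβ₂)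
        (Subgroup.inv_mem _ (norm_intUnit_mem K β₁ hβ₁))
  have hfinal : x⁻¹ * x' = u * w⁻¹ := by rw [hu, mul_inv_cancel_right]
  rw [hfinal]
  exact Subgroup.mul_mem _ (Subgroup.mem_sup_right huS)
    (Subgroup.mem_sup_left (Subgroup.inv_mem _ hwmem))

/-- **R5b**: the `Kˣ`-form of the universal norm index inequality. -/
theorem index_units_le (hm : m ≠ ⊥) (hR : RayCountStmt K m)
    (S : Set (HeightOneSpectrum (𝓞 K)))
    (hmS : ∀ v : HeightOneSpectrum (𝓞 K), m ≤ v.asIdeal → v ∈ S)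
    (SL : Set (HeightOneSpectrum (𝓞 L)))
    (hSL₁ : ∀ w ∈ SL, ∃ v ∈ S, w.asIdeal.under (𝓞 K) = v.asIdeal)
    (hSL₂ : Subgroup.closure (Set.range fun w : SL =>
      ClassGroup.mk0 ⟨w.1.asIdeal, mem_nonZeroDivisors_of_ne_zero w.1.ne_bot⟩) = ⊤) :
    (normUnits K L ⊔ Km1 K m ⊔ S.unit K).index ≤ Module.finrank K L ∧
      (normUnits K L ⊔ Km1 K m ⊔ S.unit K).index ≠ 0 := by
  classical
  set 𝒰 : Subgroup Kˣ := normUnits K L ⊔ Km1 K m ⊔ S.unit K with h𝒰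
  have hfinG : Finite (RayClassGroup m) := finite_of_ne_bot m hm
  obtain ⟨hle, -⟩ := index_normSubgroup_le K L hm hR
  choose f hf using fun x : Kˣ => exists_decompRel K L hmS x
  let F : Kˣ ⧸ 𝒰 → RayClassGroup m ⧸ normSubgroup K L m := fun q => f q.out
  have hF : Function.Injective F := by
    intro q q' hqq'
    have h1 := hf q.out
    have h2 := hf q'.out
    have h3 : f q.out = f q'.out := hqq'
    rw [h3] at h1
    have h4 := mem_of_decompRel K L hm hSL₁ hSL₂ h1 h2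
    have h5 : (QuotientGroup.mk q.out : Kˣ ⧸ 𝒰) = QuotientGroup.mk q'.out :=
      QuotientGroup.eq.mpr h4
    rwa [QuotientGroup.out_eq', QuotientGroup.out_eq'] at h5
  have hfinQ : Finite (Kˣ ⧸ 𝒰) := Finite.of_injective F hF
  have hcard : Nat.card (Kˣ ⧸ 𝒰) ≤ Nat.card (RayClassGroup m ⧸ normSubgroup K L m) :=
    Nat.card_le_card_of_injective F hF
  rw [Subgroup.index_eq_card] at hle ⊢
  exact ⟨hcard.trans hle, Nat.card_pos.ne'⟩

end main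

end Fermat.Agent.GC.RaySI
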