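/-
GATE-C / (G3-an) analytic hedge, piece R5c (helper77): the model-free ENGINE form of the universal
norm index inequality, for the adapter of C4-COH (mirrors `GC.Kummer` `index_dvd_of_model`).

`d : Kˣ →* A` any homomorphism into a commutative group (in use: the diagonal map into the invariants
of the `T`-idele group), `𝒩 ≤ A` a subgroup (in use: the norms) such that
(h2) `d (N_{L/K} z) ∈ 𝒩`, (h3) `A = d(Kˣ) · 𝒩` (weak approximation + openness of `𝒩`),
(h4) `d x ∈ 𝒩` for the integers `x ≡ 1 mod m`.  Then `[A : 𝒩 · d(U_S)] ≤ [L:K]`.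
-/
import Fermat.Agent.GC.RaySI.RayUnits

set_option autoImplicit false

open NumberField nonZeroDivisors IsDedekindDomain

namespace Fermat.Agent.GC.RaySI

section abstract

/-- If `d : G →* A` hits every coset of `𝒩`, the index of `𝒩 ⊔ d(U)` in `A` is at most the index
of any subgroup `V ≤ G` with `d(V) ≤ 𝒩 ⊔ d(U)`. -/
theorem index_sup_map_le {G A : Type*} [CommGroup G] [CommGroup A] (d : G →* A)
    (𝒩 : Subgroup A) (h3 : ∀ y : A, ∃ x : G, ∃ z ∈ 𝒩, y = d x * z) (U V : Subgroup G)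
    (hV : V.map d ≤ 𝒩 ⊔ U.map d) (hV0 : V.index ≠ 0) :
    (𝒩 ⊔ U.map d).index ≤ V.index ∧ (𝒩 ⊔ U.map d).index ≠ 0 := by
  set W : Subgroup A := 𝒩 ⊔ U.map d with hW
  have hfi : V.FiniteIndex := ⟨hV0⟩
  have hfin : Finite (G ⧸ V) := Subgroup.finite_quotient_of_finiteIndex
  -- the induced surjection `G ⧸ V → A ⧸ W`
  have hle : V ≤ W.comap d := fun x hx => hV ⟨x, hx, rfl⟩
  let φ : G ⧸ V →* A ⧸ W := QuotientGroup.map V W d hle
  have hφ : Function.Surjective φ := by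
    intro q
    obtain ⟨y, rfl⟩ := QuotientGroup.mk_surjective q
    obtain ⟨x, z, hz, rfl⟩ := h3 y
    refine ⟨QuotientGroup.mk x, ?_⟩
    show (QuotientGroup.mk (d x) : A ⧸ W) = QuotientGroup.mk (d x * z)
    rw [QuotientGroup.eq, inv_mul_cancel_left]
    exact Subgroup.mem_sup_left hz
  have hfin' : Finite (A ⧸ W) := Finite.of_surjective φ hφ
  rw [Subgroup.index_eq_card, Subgroup.index_eq_card]
  exact ⟨Nat.card_le_card_of_surjective φ hφ, Nat.card_pos.ne'⟩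

end abstract

variable (K L : Type*) [Field K] [NumberField K] [Field L] [NumberField L] [Algebra K L]
variable {m : Ideal (𝓞 K)}

/-- **R5c, engine form** of the analytic universal norm index inequality. -/
theorem index_le_of_model (hm : m ≠ ⊥) (hR : RayCountStmt K m)
    (S : Set (HeightOneSpectrum (𝓞 K)))
    (hmS : ∀ v : HeightOneSpectrum (𝓞 K), m ≤ v.asIdeal → v ∈ S)
    (SL : Set (HeightOneSpectrum (𝓞 L)))
    (hSL₁ : ∀ w ∈ SL, ∃ v ∈ S, w.asIdeal.under (𝓞 K) = v.asIdeal)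
    (hSL₂ : Subgroup.closure (Set.range fun w : SL =>
      ClassGroup.mk0 ⟨w.1.asIdeal, mem_nonZeroDivisors_of_ne_zero w.1.ne_bot⟩) = ⊤)
    {A : Type*} [CommGroup A] (d : Kˣ →* A) (𝒩 : Subgroup A)
    (h2 : ∀ z : Lˣ, d (Units.map (Algebra.norm K : L →* K) z) ∈ 𝒩)
    (h3 : ∀ y : A, ∃ x : Kˣ, ∃ z ∈ 𝒩, y = d x * z)
    (h4 : ∀ a : 𝓞 K, ∀ ha : a ≠ 0, a - 1 ∈ m → d (intUnit a ha) ∈ 𝒩) :
    (𝒩 ⊔ (S.unit K).map d).index ≤ Module.finrank K L ∧
      (𝒩 ⊔ (S.unit K).map d).index ≠ 0 := by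
  obtain ⟨hle, hne⟩ := index_units_le K L hm hR S hmS SL hSL₁ hSL₂
  have hV : (normUnits K L ⊔ Km1 K m ⊔ S.unit K).map d ≤ 𝒩 ⊔ (S.unit K).map d := by
    rw [Subgroup.map_sup, Subgroup.map_sup]
    refine sup_le (sup_le ?_ ?_) le_sup_right
    · refine le_trans ?_ le_sup_left
      rintro _ ⟨_, ⟨z, rfl⟩, rfl⟩
      exact h2 z
    · refine le_trans ?_ le_sup_left
      rw [Subgroup.map_le_iff_le_comap]
      unfold Km1
      rw [Subgroup.closure_le]
      rintro x ⟨a, ha1, hxa⟩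
      have ha0 : a ≠ 0 := by
        rintro rfl
        rw [map_zero] at hxa
        exact x.ne_zero hxa
      have hx : x = intUnit a ha0 := Units.ext hxa
      rw [hx]
      exact h4 a ha0 ha1
  obtain ⟨h1, h1'⟩ := index_sup_map_le d 𝒩 h3 (S.unit K) _ hV hne
  exact ⟨h1.trans hle, h1'⟩

end Fermat.Agent.GC.RaySI
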