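/-
GATE-C / C4 (G3-an) analytic second inequality for ray classes (helper98).
(R1) Lattice point counting in cone sets for TRANSLATED lattices `a + L`, with a power-saving error
term whose constants do not depend on the translation `a`.  Built on helper90's
`S14/SIan/LatticeCount.lean` (imported, not edited).
-/
import Fermat.Agent.S14.SIan.LatticeCount

set_option autoImplicit false

open Module Bornology MeasureTheory

namespace Fermat.Agent.GC.RaySI

open Fermat.Agent.S14.SIan Fermat.Agent.S14.SIan.LatticeCount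

open Submodule
open scoped Pointwise

section boundary

variable {E : Type*} [NormedAddCommGroup E] [NormedSpace ℝ E]
  {ι : Type*} [Fintype ι] (b : Basis ι ℝ E)

/-- the translate `{y | y + a ∈ A}` of a set -/
def shiftSet (a : E) (A : Set E) : Set E := {y | y + a ∈ A}

lemma shiftSet_eq_preimage (a : E) (A : Set E) :
    shiftSet a A = (Homeomorph.addRight a) ⁻¹' A := rfl

lemma frontier_shiftSet (a : E) (A : Set E) :
    frontier (shiftSet a A) = shiftSet a (frontier A) := by
  rw [shiftSet_eq_preimage, shiftSet_eq_preimage, Homeomorph.preimage_frontier]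

lemma isBounded_shiftSet (a : E) {A : Set E} (hA : IsBounded A) : IsBounded (shiftSet a A) := by
  obtain ⟨R, hR⟩ := hA.subset_closedBall (0 : E)
  refine (Metric.isBounded_closedBall (x := (0 : E)) (r := R + ‖a‖)).subset ?_
  intro y hy
  have h1 : ‖y + a‖ ≤ R := by simpa using hR hy
  rw [Metric.mem_closedBall, dist_zero_right]
  calc ‖y‖ = ‖(y + a) - a‖ := by rw [add_sub_cancel_right]
    _ ≤ ‖y + a‖ + ‖a‖ := norm_sub_le _ _
    _ ≤ R + ‖a‖ := by linarith

variable [FiniteDimensional ℝ E]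

/-- Covering count for translated dilates: if `frontier D` is covered by `T.card` balls of radius
`1/N` and `t ≤ N`, then the boundary cells of `t • D - a` are few, uniformly in `a`. -/
lemma ncard_bdSet_shift_smul_le (a : E) {D : Set E} {t : ℝ} (ht : 0 < t) {N : ℕ} (hN : 0 < N)
    (htN : t ≤ N)
    (T : Finset E) (hT : frontier D ⊆ ⋃ x ∈ T, Metric.closedBall x (1 / (N : ℝ))) :
    (bdSet b (shiftSet a (t • D))).ncard ≤ T.card *
      ((span ℤ (Set.range b) : Set E) ∩
        Metric.closedBall (0 : E) (2 * (1 + ∑ i, ‖b i‖))).ncard := by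
  classical
  set δ : ℝ := ∑ i, ‖b i‖ with hδ
  set M : ℕ := ((span ℤ (Set.range b) : Set E) ∩
        Metric.closedBall (0 : E) (2 * (1 + δ))).ncard with hM
  have hsub : bdSet b (shiftSet a (t • D)) ⊆
      ⋃ x ∈ T, ((span ℤ (Set.range b) : Set E) ∩ Metric.closedBall (t • x - a) (1 + δ)) := by
    rintro v ⟨hvL, y, hyc, hyf⟩
    rw [frontier_shiftSet, frontier_smul_set ht.ne' D] at hyf
    obtain ⟨z, hzf, hzy⟩ := hyf
    have hzy' : t • z = y + a := hzy
    have hz := hT hzf
    simp only [Set.mem_iUnion, exists_prop] at hz ⊢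
    obtain ⟨x, hxT, hzx⟩ := hz
    refine ⟨x, hxT, hvL, ?_⟩
    rw [Metric.mem_closedBall, dist_eq_norm] at hzx ⊢
    have h1 : ‖y - v‖ ≤ δ := norm_sub_le_of_mem_cell b hvL hyc
    have hNpos : (0 : ℝ) < N := by exact_mod_cast hN
    have h2 : ‖t • z - t • x‖ ≤ 1 := by
      rw [← smul_sub, norm_smul, Real.norm_of_nonneg ht.le]
      calc t * ‖z - x‖ ≤ (N : ℝ) * (1 / (N : ℝ)) :=
            mul_le_mul htN hzx (norm_nonneg _) hNpos.le
        _ = 1 := by field_simp
    have hy : y = t • z - a := by rw [hzy', add_sub_cancel_right]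
    calc ‖v - (t • x - a)‖ = ‖(t • z - t • x) - (y - v)‖ := by
          rw [hy]; congr 1; abel
      _ ≤ ‖t • z - t • x‖ + ‖y - v‖ := norm_sub_le _ _
      _ ≤ 1 + δ := add_le_add h2 h1
  calc (bdSet b (shiftSet a (t • D))).ncard
      ≤ (⋃ x ∈ T, ((span ℤ (Set.range b) : Set E) ∩
          Metric.closedBall (t • x - a) (1 + δ))).ncard := by
        refine Set.ncard_le_ncard hsub ?_
        exact Set.Finite.biUnion T.finite_toSet fun x _ => finite_lattice_ball b _ _
    _ ≤ ∑ x ∈ T, ((span ℤ (Set.range b) : Set E) ∩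
          Metric.closedBall (t • x - a) (1 + δ)).ncard :=
        Finset.set_ncard_biUnion_le _ _
    _ ≤ ∑ _x ∈ T, M := Finset.sum_le_sum fun x _ => ncard_lattice_ball_le b _ _
    _ = T.card * M := by rw [Finset.sum_const, smul_eq_mul]

end boundary

section assembly

variable {E : Type*} [NormedAddCommGroup E] [NormedSpace ℝ E]
variable [FiniteDimensional ℝ E] [MeasurableSpace E] [BorelSpace E]
  {ι : Type*} [Fintype ι] (b : Basis ι ℝ E)

/-- the points of `A` congruent to `a` modulo the lattice correspond to the lattice points of the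
translate of `A` -/
lemma card_shift_eq (a : E) (A : Set E) (L : Set E) :
    Nat.card (A ∩ {x | x - a ∈ L} : Set E) = Nat.card (shiftSet a A ∩ L : Set E) := by
  refine Nat.card_congr ⟨fun x => ⟨x.1 - a, ?_, x.2.2⟩, fun y => ⟨y.1 + a, y.2.1, ?_⟩, ?_, ?_⟩
  · show x.1 - a + a ∈ A
    rw [sub_add_cancel]; exact x.2.1
  · show y.1 + a - a ∈ L
    rw [add_sub_cancel_right]; exact y.2.2
  · intro x; ext; simp
  · intro y; ext; simp

/-- The main estimate for translates of the lattice spanned by a basis; the constants are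
`κ = μ(D) / μ(P)` and `C`, both independent of the translation. -/
lemma card_cone_basis_translate_le {X : Set E} {F : E → ℝ}
    (hX : ∀ ⦃x⦄ ⦃r : ℝ⦄, x ∈ X → 0 < r → r • x ∈ X)
    (h₁ : ∀ x ⦃r : ℝ⦄, 0 ≤ r → F (r • x) = r ^ finrank ℝ E * F x)
    (h₂ : IsBounded {x ∈ X | F x ≤ 1})
    (h₄ : CoverDim (frontier {x ∈ X | F x ≤ 1}) (finrank ℝ E - 1))
    (hd : 0 < finrank ℝ E) :
    ∃ κ C : ℝ, ∀ a : E, ∀ c : ℝ, 1 ≤ c →
      |(Nat.card ({x ∈ X | F x ≤ c} ∩ {x | x - a ∈ span ℤ (Set.range b)} : Set E) : ℝ) - κ * c| ≤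
        C * c ^ (1 - 1 / (finrank ℝ E : ℝ)) := by
  classical
  set d := finrank ℝ E with hdd
  set D : Set E := {x ∈ X | F x ≤ 1} with hD
  let μ : Measure E := Measure.addHaar
  set P := ZSpan.fundamentalDomain b with hP
  have hPpos : 0 < μ.real P := by
    have h1 : μ P ≠ 0 := ZSpan.measure_fundamentalDomain_ne_zero b
    have h2 : μ P ≠ ⊤ := (ZSpan.fundamentalDomain_isBounded b).measure_lt_top.ne
    exact ENNReal.toReal_pos h1 h2
  obtain ⟨A0, hA0⟩ := h₄
  set M : ℕ := ((span ℤ (Set.range b) : Set E) ∩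
        Metric.closedBall (0 : E) (2 * (1 + ∑ i, ‖b i‖))).ncard with hM
  refine ⟨μ.real D / μ.real P, max A0 0 * 2 ^ (d - 1) * M, fun a c hc => ?_⟩
  have hc0 : 0 < c := lt_of_lt_of_le one_pos hc
  have hdne : d ≠ 0 := hd.ne'
  set t : ℝ := c ^ ((d : ℝ)⁻¹) with ht
  have ht1 : 1 ≤ t := Real.one_le_rpow hc (by positivity)
  have ht0 : 0 < t := lt_of_lt_of_le one_pos ht1
  have htd : t ^ d = c := Real.rpow_inv_natCast_pow hc0.le hdne
  have htd1 : t ^ (d - 1) = c ^ (1 - 1 / (d : ℝ)) := by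
    rw [ht, ← Real.rpow_natCast, ← Real.rpow_mul hc0.le]
    congr 1
    have hdR : (d : ℝ) ≠ 0 := by exact_mod_cast hdne
    rw [Nat.cast_sub hd, Nat.cast_one]
    field_simp
  have hset : {x ∈ X | F x ≤ c} = t • D := by
    rw [hD, smul_cone_eq hX h₁ ht0, htd]
  have hbdd : IsBounded (shiftSet a (t • D)) := isBounded_shiftSet a (h₂.smul₀ t)
  have hmeas : μ.real (shiftSet a (t • D)) = c * μ.real D := by
    have h0 : μ (shiftSet a (t • D)) = μ (t • D) := by
      rw [shiftSet_eq_preimage]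
      exact measure_preimage_add_right μ a (t • D)
    rw [Measure.real, h0, Measure.addHaar_smul_of_nonneg μ ht0.le, ENNReal.toReal_mul,
      ENNReal.toReal_ofReal (pow_nonneg ht0.le _), htd]
    rfl
  -- the covering
  set N : ℕ := ⌈t⌉₊ with hN
  have hNpos : 0 < N := Nat.ceil_pos.mpr ht0
  have htN : t ≤ N := Nat.le_ceil t
  have hN2 : (N : ℝ) ≤ 2 * t := by
    have := Nat.ceil_lt_add_one ht0.le
    linarith
  obtain ⟨T, hTcard, hTcov⟩ := hA0 N hNpos
  have hbd := ncard_bdSet_shift_smul_le b a ht0 hNpos htN T hTcov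
  have hbdR : ((bdSet b (shiftSet a (t • D))).ncard : ℝ) ≤
      max A0 0 * 2 ^ (d - 1) * M * c ^ (1 - 1 / (d : ℝ)) := by
    have h1 : ((bdSet b (shiftSet a (t • D))).ncard : ℝ) ≤ (T.card : ℝ) * M := by
      exact_mod_cast hbd
    have h2 : (T.card : ℝ) ≤ max A0 0 * 2 ^ (d - 1) * t ^ (d - 1) := by
      calc (T.card : ℝ) ≤ A0 * (N : ℝ) ^ (d - 1) := hTcard
        _ ≤ max A0 0 * (N : ℝ) ^ (d - 1) :=
            mul_le_mul_of_nonneg_right (le_max_left _ _) (by positivity)
        _ ≤ max A0 0 * (2 * t) ^ (d - 1) :=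
            mul_le_mul_of_nonneg_left (pow_le_pow_left₀ (by positivity) hN2 _) (le_max_right _ _)
        _ = max A0 0 * 2 ^ (d - 1) * t ^ (d - 1) := by rw [mul_pow, mul_assoc]
    calc ((bdSet b (shiftSet a (t • D))).ncard : ℝ) ≤ (T.card : ℝ) * M := h1
      _ ≤ (max A0 0 * 2 ^ (d - 1) * t ^ (d - 1)) * M :=
          mul_le_mul_of_nonneg_right h2 (Nat.cast_nonneg _)
      _ = max A0 0 * 2 ^ (d - 1) * M * c ^ (1 - 1 / (d : ℝ)) := by rw [htd1]; ring
  have hsand := abs_card_mul_sub_le b μ hbdd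
  rw [hmeas] at hsand
  have hcs : Nat.card (t • D ∩ {x | x - a ∈ span ℤ (Set.range b)} : Set E) =
      Nat.card (shiftSet a (t • D) ∩ (span ℤ (Set.range b) : Set E) : Set E) :=
    card_shift_eq a (t • D) (span ℤ (Set.range b) : Set E)
  rw [hset, hcs]
  set n : ℝ := (Nat.card (shiftSet a (t • D) ∩ (span ℤ (Set.range b) : Set E) : Set E) : ℝ)
    with hn
  have key : |n - μ.real D / μ.real P * c| * μ.real P ≤
      ((bdSet b (shiftSet a (t • D))).ncard : ℝ) * μ.real P := by
    have : (n - μ.real D / μ.real P * c) * μ.real P = n * μ.real P - c * μ.real D := by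
      field_simp
    calc |n - μ.real D / μ.real P * c| * μ.real P
        = |n - μ.real D / μ.real P * c| * |μ.real P| := by rw [abs_of_pos hPpos]
      _ = |n * μ.real P - c * μ.real D| := by rw [← abs_mul, this]
      _ ≤ _ := hsand
  exact (le_of_mul_le_mul_right key hPpos).trans hbdR

end assembly

/-- **Translated lattice point count in cones.**  Same hypotheses as helper90's
`card_cone_le_sub_le`; the constants `κ, C` work for every translate `a + L` of the lattice. -/
theorem card_cone_translate_le_sub_le {E : Type*} [NormedAddCommGroup E] [NormedSpace ℝ E]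
    [FiniteDimensional ℝ E] [MeasurableSpace E] [BorelSpace E]
    (L : Submodule ℤ E) [DiscreteTopology L] [IsZLattice ℝ L]
    {X : Set E} {F : E → ℝ} (hX : ∀ ⦃x⦄ ⦃r : ℝ⦄, x ∈ X → 0 < r → r • x ∈ X)
    (h₁ : ∀ x ⦃r : ℝ⦄, 0 ≤ r → F (r • x) = r ^ finrank ℝ E * F x)
    (h₂ : IsBounded {x ∈ X | F x ≤ 1})
    (h₄ : CoverDim (frontier {x ∈ X | F x ≤ 1}) (finrank ℝ E - 1)) :
    ∃ κ C : ℝ, ∀ a : E, ∀ c : ℝ, 1 ≤ c →
      |(Nat.card ({x ∈ X | F x ≤ c} ∩ {x | x - a ∈ L} : Set E) : ℝ) - κ * c| ≤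
        C * c ^ (1 - 1 / (finrank ℝ E : ℝ)) := by
  classical
  rcases Nat.eq_zero_or_pos (finrank ℝ E) with hd0 | hdpos
  · -- degenerate case: `E` is trivial
    have : Subsingleton E := Module.finrank_zero_iff.mp hd0
    refine ⟨0, 1, fun a c hc => ?_⟩
    have hcard : Nat.card ({x ∈ X | F x ≤ c} ∩ {x | x - a ∈ L} : Set E) ≤ 1 :=
      Finite.card_le_one_iff_subsingleton.mpr inferInstance
    have hcardR : (Nat.card ({x ∈ X | F x ≤ c} ∩ {x | x - a ∈ L} : Set E) : ℝ) ≤ 1 := by
      exact_mod_cast hcard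
    have hnn : (0 : ℝ) ≤ (Nat.card ({x ∈ X | F x ≤ c} ∩ {x | x - a ∈ L} : Set E) : ℝ) :=
      Nat.cast_nonneg _
    rw [hd0, Nat.cast_zero, div_zero, sub_zero, Real.rpow_one, zero_mul, sub_zero, one_mul,
      abs_of_nonneg hnn]
    exact hcardR.trans hc
  · have hfree : Module.Free ℤ L := ZLattice.module_free ℝ L
    let b0 := Module.Free.chooseBasis ℤ L
    let b := b0.ofZLatticeBasis ℝ L
    have hspan : Submodule.span ℤ (Set.range b) = L := b0.ofZLatticeBasis_span ℝ L
    have := card_cone_basis_translate_le b hX h₁ h₂ h₄ hdpos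
    rwa [hspan] at this

end Fermat.Agent.GC.RaySI
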