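/-
GATE-C / C4 (G3-an) analytic second inequality for ray classes (helper98).
(R3a) The number of points of a TRANSLATED ideal lattice `g + J` in the norm-`≤ y` part of the
fundamental cone is `(w · idealKappa K / N J) y + O(y^(1-1/d))`, uniformly in the translation.
The constant is identified at translation `0` through helper26's `kappa_eq_of_bound`.
-/
import Fermat.Agent.GC.RaySI.TranslateCount
import Fermat.Agent.S14.SIan.IdealCount

set_option autoImplicit false

noncomputable section

open NumberField nonZeroDivisors Ideal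
open scoped Real
open Filter InfinitePlace mixedEmbedding euclidean fundamentalCone Submodule Topology
open NumberField.Units

namespace Fermat.Agent.GC.RaySI

open Fermat.Agent.S14.SIan

variable (K : Type*) [Field K] [NumberField K]

open scoped Classical in
/-- the number of points `z` of the norm-`≤ y` part of the fundamental cone (pulled back to the
euclidean mixed space) with `z - a` in the lattice of the ideal `J` -/
def latCount (J : (Ideal (𝓞 K))⁰) (a : euclidean.mixedSpace K) (y : ℝ) : ℕ :=
  Nat.card ↑({z | z ∈ (toMixed K) ⁻¹' fundamentalCone K ∧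
      mixedEmbedding.norm ((toMixed K) z) ≤ y} ∩
    {z | z - a ∈ ZLattice.comap ℝ (idealLattice K ((FractionalIdeal.mk0 K) J))
      (toMixed K).toLinearMap})

open scoped Classical in
theorem latCount_zero (J : (Ideal (𝓞 K))⁰) (y : ℝ) :
    latCount K J 0 y = Nat.card ↑({z | z ∈ (toMixed K) ⁻¹' fundamentalCone K ∧
      mixedEmbedding.norm ((toMixed K) z) ≤ y} ∩
      (ZLattice.comap ℝ (idealLattice K ((FractionalIdeal.mk0 K) J))
        (toMixed K).toLinearMap : Set (euclidean.mixedSpace K))) := by
  unfold latCount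
  simp only [sub_zero]
  rfl

/-- **Translated ideal lattice count**, with the constant identified. -/
theorem exists_latCount_sub_le (J : (Ideal (𝓞 K))⁰) :
    ∃ C : ℝ, ∀ (a : euclidean.mixedSpace K) (y : ℝ), 1 ≤ y →
      |(latCount K J a y : ℝ) -
          ((torsionOrder K : ℝ) * idealKappa K / (absNorm (J : Ideal (𝓞 K)) : ℝ)) * y| ≤
        C * y ^ (1 - 1 / (Module.finrank ℚ K : ℝ)) := by
  classical
  obtain ⟨κ', C', h⟩ := card_cone_translate_le_sub_le
    (ZLattice.comap ℝ (mixedEmbedding.idealLattice K (FractionalIdeal.mk0 K J))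
      (toMixed K).toLinearMap)
    (F := fun x ↦ mixedEmbedding.norm (toMixed K x)) (X := (toMixed K) ⁻¹' (fundamentalCone K))
    (fun _ _ _ h ↦ by rwa [Set.mem_preimage, map_smul, smul_mem_iff_mem h.ne'])
    (fun _ _ h ↦ by rw [map_smul, mixedEmbedding.norm_smul, euclidean.finrank, abs_of_nonneg h])
    ((toMixed K).antilipschitz.isBounded_preimage (isBounded_normLeOne K))
    (coverDim_frontier_preimage K)
  rw [euclidean.finrank] at h
  set w : ℝ := (torsionOrder K : ℝ) with hw
  have hw0 : 0 < w := by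
    rw [hw]; exact_mod_cast Nat.pos_of_ne_zero (torsionOrder_ne_zero K)
  set nJ : ℝ := (absNorm (J : Ideal (𝓞 K)) : ℝ) with hnJ
  have hnJ1 : 1 ≤ nJ := by
    rw [hnJ]; exact_mod_cast absNorm_pos_of_nonZeroDivisors J
  have hnJ0 : 0 < nJ := by linarith
  set e : ℝ := 1 - 1 / (Module.finrank ℚ K : ℝ) with he
  -- identify `κ'` with the class count at translation `0`
  have hκ : κ' * nJ / w = idealKappa K := by
    refine kappa_eq_of_bound K (ClassGroup.mk0 J)⁻¹ (κ' * nJ / w) (C' * nJ ^ e / w) fun x hx => ?_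
    have hy : 1 ≤ x * nJ := by nlinarith
    have hcount : (Nat.card {I : (Ideal (𝓞 K))⁰ // absNorm (I : Ideal (𝓞 K)) ≤ x ∧
            ClassGroup.mk0 I = (ClassGroup.mk0 J)⁻¹} : ℝ) * w =
        (latCount K J 0 (x * nJ) : ℝ) := by
      rw [latCount_zero, idealCount_aux₁ K (C := (ClassGroup.mk0 J)⁻¹) (J := J) (inv_inv _).symm,
        Nat.card_congr (idealCount_aux₂ K), ← card_isPrincipal_dvd_norm_le, Nat.cast_mul]
    have h' := h 0 (x * nJ) hy
    have h'' : |(latCount K J 0 (x * nJ) : ℝ) - κ' * (x * nJ)| ≤ C' * (x * nJ) ^ e := h'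
    rw [← hcount] at h''
    have hx0 : 0 ≤ x := by linarith
    rw [Real.mul_rpow hx0 hnJ0.le] at h''
    set N : ℝ := (Nat.card {I : (Ideal (𝓞 K))⁰ // absNorm (I : Ideal (𝓞 K)) ≤ x ∧
            ClassGroup.mk0 I = (ClassGroup.mk0 J)⁻¹} : ℝ) with hN
    have key : N - κ' * nJ / w * x = (N * w - κ' * (x * nJ)) / w := by
      field_simp
    rw [key, abs_div, abs_of_pos hw0, div_le_iff₀ hw0]
    calc |N * w - κ' * (x * nJ)| ≤ C' * (x ^ e * nJ ^ e) := h''
      _ = C' * nJ ^ e / w * x ^ e * w := by field_simp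
  have hκ' : κ' = w * idealKappa K / nJ := by
    rw [← hκ]; field_simp
  refine ⟨C', fun a y hy => ?_⟩
  rw [← hκ']
  exact h a y hy

end Fermat.Agent.GC.RaySI
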