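/-
GATE-C / C4 (G3-an) analytic second inequality for ray classes (helper98).
(R3b) Counting principal ideals `(g)` divisible by `b` which have a generator `≡ 1 mod m`:
  `#{J = (g) : b ∣ J, g ≡ 1 (m), N J ≤ x N b} = (#U · idealKappa K / N m) x + O(x^(1-1/d))`,
`U` = image of the units in `𝓞 K ⧸ m`.  No fundamental domain for `E_{m,1}` is needed: through
Mathlib's `integerSetEquiv`, `w ·` (the count) is a sum over `r ∈ U` of translated lattice counts.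
-/
import Fermat.Agent.GC.RaySI.LatCount

set_option autoImplicit false

noncomputable section

open NumberField nonZeroDivisors Ideal
open scoped Real
open Filter InfinitePlace mixedEmbedding euclidean fundamentalCone Submodule Topology
open NumberField.Units

namespace Fermat.Agent.GC.RaySI

open Fermat.Agent.S14.SIan

variable (K : Type*) [Field K] [NumberField K]

/-! ### points of the integer set with a condition on the preimage -/

/-- the number of elements of `integerSet K` of norm `≤ y` whose integer satisfies `P` -/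
def intCount (P : 𝓞 K → Prop) (y : ℝ) : ℕ :=
  Nat.card {a : integerSet K // P (preimageOfMemIntegerSet a : 𝓞 K) ∧
    mixedEmbedding.norm (a : mixedSpace K) ≤ y}

theorem intCount_congr {P P' : 𝓞 K → Prop} (h : ∀ x : 𝓞 K, x ≠ 0 → (P x ↔ P' x)) (y : ℝ) :
    intCount K P y = intCount K P' y := by
  unfold intCount
  refine Nat.card_congr (Equiv.subtypeEquivRight fun a => ?_)
  rw [h _ (nonZeroDivisors.coe_ne_zero _)]

theorem absNorm_span_preimage (a : integerSet K) :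
    ((absNorm (span {(preimageOfMemIntegerSet a : 𝓞 K)}) : ℕ) : ℝ) =
      mixedEmbedding.norm (a : mixedSpace K) := by
  rw [absNorm_span_singleton, ← intNorm_coe]
  rfl

/-- the elements of the integer set of bounded norm are finitely many -/
theorem finite_integerSet_norm_le (y : ℝ) :
    Finite {a : integerSet K // mixedEmbedding.norm (a : mixedSpace K) ≤ y} := by
  classical
  have hfin : Finite {I : (Ideal (𝓞 K))⁰ // absNorm (I : Ideal (𝓞 K)) ≤ ⌊y⌋₊} :=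
    Ideal.finite_setOfPred_absNorm_le₀ ⌊y⌋₊
  have : Finite (torsion K) := inferInstance
  let f : {a : integerSet K // mixedEmbedding.norm (a : mixedSpace K) ≤ y} →
      {I : (Ideal (𝓞 K))⁰ // absNorm (I : Ideal (𝓞 K)) ≤ ⌊y⌋₊} × torsion K := fun a =>
    ⟨⟨(integerSetEquiv K a.1).1.1, by
      have h1 : (((integerSetEquiv K a.1).1.1 : (Ideal (𝓞 K))⁰) : Ideal (𝓞 K)) =
          span {(preimageOfMemIntegerSet a.1 : 𝓞 K)} := integerSetEquiv_apply_fst a.1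
      rw [h1]
      have h2 := absNorm_span_preimage K a.1
      have h3 : ((absNorm (span {(preimageOfMemIntegerSet a.1 : 𝓞 K)}) : ℕ) : ℝ) ≤ y := by
        rw [h2]; exact a.2
      exact Nat.le_floor h3⟩, (integerSetEquiv K a.1).2⟩
  refine Finite.of_injective f fun a b hab => ?_
  have h1 : (integerSetEquiv K a.1).1.1 = (integerSetEquiv K b.1).1.1 :=
    congrArg (fun p => p.1.1) hab
  have h2 : (integerSetEquiv K a.1).2 = (integerSetEquiv K b.1).2 := congrArg (fun p => p.2) hab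
  have h3 : integerSetEquiv K a.1 = integerSetEquiv K b.1 :=
    Prod.ext (Subtype.ext h1) h2
  exact Subtype.ext ((integerSetEquiv K).injective h3)

/-- **Elements versus principal ideals**: for a predicate `Q` on ideals, the number of elements
`a` of the integer set of norm `≤ y` with `Q (a)` is `w` times the number of principal ideals of
norm `≤ y` satisfying `Q`. -/
theorem intCount_span_eq (Q : Ideal (𝓞 K) → Prop) (y : ℝ) :
    intCount K (fun x => Q (span {x})) y =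
      Nat.card {I : (Ideal (𝓞 K))⁰ // IsPrincipal (I : Ideal (𝓞 K)) ∧ Q (I : Ideal (𝓞 K)) ∧
        (absNorm (I : Ideal (𝓞 K)) : ℝ) ≤ y} * torsionOrder K := by
  unfold intCount
  rw [torsionOrder, ← Nat.card_prod]
  refine Nat.card_congr ?_
  let R : {I : (Ideal (𝓞 K))⁰ // IsPrincipal (I : Ideal (𝓞 K))} → Prop := fun I =>
    Q (I.1 : Ideal (𝓞 K)) ∧ (absNorm (I.1 : Ideal (𝓞 K)) : ℝ) ≤ y
  have e1 : {a : integerSet K // Q (span {(preimageOfMemIntegerSet a : 𝓞 K)}) ∧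
      mixedEmbedding.norm (a : mixedSpace K) ≤ y} ≃
      {p : {I : (Ideal (𝓞 K))⁰ // IsPrincipal (I : Ideal (𝓞 K))} × torsion K // R p.1} := by
    refine (integerSetEquiv K).subtypeEquiv fun a => ?_
    have h1 : (((integerSetEquiv K a).1.1 : (Ideal (𝓞 K))⁰) : Ideal (𝓞 K)) =
        span {(preimageOfMemIntegerSet a : 𝓞 K)} := integerSetEquiv_apply_fst a
    show _ ↔ Q _ ∧ _
    rw [h1, absNorm_span_preimage]
  have e2 : {p : {I : (Ideal (𝓞 K))⁰ // IsPrincipal (I : Ideal (𝓞 K))} × torsion K // R p.1} ≃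
      {I : {I : (Ideal (𝓞 K))⁰ // IsPrincipal (I : Ideal (𝓞 K))} // R I} × torsion K :=
    Equiv.prodSubtypeFstEquivSubtypeProd
  have e3 : {I : {I : (Ideal (𝓞 K))⁰ // IsPrincipal (I : Ideal (𝓞 K))} // R I} ≃
      {I : (Ideal (𝓞 K))⁰ // IsPrincipal (I : Ideal (𝓞 K)) ∧ Q (I : Ideal (𝓞 K)) ∧
        (absNorm (I : Ideal (𝓞 K)) : ℝ) ≤ y} :=
    Equiv.subtypeSubtypeEquivSubtypeInter
      (fun I : (Ideal (𝓞 K))⁰ => IsPrincipal (I : Ideal (𝓞 K)))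
      (fun I => Q (I : Ideal (𝓞 K)) ∧ (absNorm (I : Ideal (𝓞 K)) : ℝ) ≤ y)
  exact e1.trans (e2.trans (Equiv.prodCongrLeft fun _ => e3))

/-! ### translated lattice counts as integer set counts -/

open scoped Classical in
theorem latCount_eq_intCount (J : (Ideal (𝓞 K))⁰) (g : 𝓞 K) (y : ℝ) :
    latCount K J ((toMixed K).symm (mixedEmbedding K (g : K))) y =
      intCount K (fun x => x - g ∈ (J : Ideal (𝓞 K))) y := by
  unfold latCount intCount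
  refine Nat.card_congr ?_
  refine Equiv.trans ?_ (Equiv.subtypeSubtypeEquivSubtypeExists _ _).symm
  refine (toMixed K).toEquiv.subtypeEquiv fun z => ?_
  change (((toMixed K) z ∈ fundamentalCone K ∧ mixedEmbedding.norm ((toMixed K) z) ≤ y) ∧
      (toMixed K) (z - (toMixed K).symm (mixedEmbedding K (g : K))) ∈
        idealLattice K ((FractionalIdeal.mk0 K) J)) ↔
    ∃ h : (toMixed K) z ∈ integerSet K,
      (preimageOfMemIntegerSet ⟨(toMixed K) z, h⟩ : 𝓞 K) - g ∈ (J : Ideal (𝓞 K)) ∧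
        mixedEmbedding.norm ((toMixed K) z) ≤ y
  constructor
  · rintro ⟨⟨hz1, hz2⟩, hz3⟩
    have hz3' : (toMixed K) (z - (toMixed K).symm (mixedEmbedding K (g : K))) ∈
        idealLattice K ((FractionalIdeal.mk0 K) J) := hz3
    rw [map_sub, ContinuousLinearEquiv.apply_symm_apply, mem_idealLattice] at hz3'
    obtain ⟨k, hk, hkz⟩ := hz3'
    rw [FractionalIdeal.coe_mk0] at hk
    obtain ⟨j, hj, rfl⟩ := (FractionalIdeal.mem_coeIdeal _).mp hk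
    have hzeq : (toMixed K) z = mixedEmbedding K ((j + g : 𝓞 K) : K) := by
      have : (toMixed K) z = mixedEmbedding K (algebraMap (𝓞 K) K j) + mixedEmbedding K (g : K) := by
        rw [hkz]; abel
      rw [this, ← map_add]
      rfl
    have hmem : (toMixed K) z ∈ integerSet K :=
      mem_integerSet.mpr ⟨hz1, j + g, hzeq.symm⟩
    refine ⟨hmem, ?_, hz2⟩
    have hpre : (preimageOfMemIntegerSet ⟨(toMixed K) z, hmem⟩ : 𝓞 K) = j + g := by
      have h1 := mixedEmbedding_preimageOfMemIntegerSet ⟨(toMixed K) z, hmem⟩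
      have h2 : mixedEmbedding K ((preimageOfMemIntegerSet ⟨(toMixed K) z, hmem⟩ : 𝓞 K) : K) =
          mixedEmbedding K ((j + g : 𝓞 K) : K) := by rw [h1]; exact hzeq
      exact RingOfIntegers.ext ((mixedEmbedding_injective K) h2)
    rw [hpre, add_sub_cancel_right]
    exact hj
  · rintro ⟨hmem, hJ, hz2⟩
    refine ⟨⟨hmem.1, hz2⟩, ?_⟩
    show (toMixed K) (z - (toMixed K).symm (mixedEmbedding K (g : K))) ∈
        idealLattice K ((FractionalIdeal.mk0 K) J)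
    rw [map_sub, ContinuousLinearEquiv.apply_symm_apply, mem_idealLattice]
    refine ⟨algebraMap (𝓞 K) K ((preimageOfMemIntegerSet ⟨(toMixed K) z, hmem⟩ : 𝓞 K) - g),
      ?_, ?_⟩
    · rw [FractionalIdeal.coe_mk0]
      exact (FractionalIdeal.mem_coeIdeal _).mpr ⟨_, hJ, rfl⟩
    · have h1 := mixedEmbedding_preimageOfMemIntegerSet ⟨(toMixed K) z, hmem⟩
      rw [map_sub, map_sub]
      exact congrArg (· - mixedEmbedding K (g : K)) h1

/-! ### decomposition over residues -/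

theorem finite_intCount_subtype (P : 𝓞 K → Prop) (y : ℝ) :
    Finite {a : integerSet K // P (preimageOfMemIntegerSet a : 𝓞 K) ∧
      mixedEmbedding.norm (a : mixedSpace K) ≤ y} := by
  have := finite_integerSet_norm_le K y
  exact Finite.of_injective
    (fun a => (⟨a.1, a.2.2⟩ : {a : integerSet K // mixedEmbedding.norm (a : mixedSpace K) ≤ y}))
    fun a b hab => Subtype.ext (congrArg (fun t => t.1) hab)

/-- splitting a count according to the value of a function with values in a finite set -/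
theorem intCount_eq_sum {α : Type*} (f : 𝓞 K → α) (U : Set α) [Fintype U] (P : 𝓞 K → Prop)
    (y : ℝ) :
    intCount K (fun x => P x ∧ f x ∈ U) y =
      ∑ r : U, intCount K (fun x => P x ∧ f x = (r : α)) y := by
  unfold intCount
  have hfin : ∀ r : U, Finite {a : integerSet K //
      (P (preimageOfMemIntegerSet a : 𝓞 K) ∧ f (preimageOfMemIntegerSet a : 𝓞 K) = (r : α)) ∧
      mixedEmbedding.norm (a : mixedSpace K) ≤ y} := fun r =>
    finite_intCount_subtype K (fun x => P x ∧ f x = (r : α)) y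
  rw [← Nat.card_sigma]
  refine Nat.card_congr
    { toFun := fun a => ⟨⟨f (preimageOfMemIntegerSet a.1 : 𝓞 K), a.2.1.2⟩,
        ⟨a.1, ⟨a.2.1.1, rfl⟩, a.2.2⟩⟩
      invFun := fun p => ⟨p.2.1, ⟨p.2.2.1.1, by rw [p.2.2.1.2]; exact p.1.2⟩, p.2.2.2⟩
      left_inv := fun a => rfl
      right_inv := ?_ }
  intro p
  obtain ⟨⟨r, hr⟩, ⟨a, hPf, hy⟩⟩ := p
  have hfa : f (preimageOfMemIntegerSet a : 𝓞 K) = r := hPf.2
  subst hfa
  rfl

variable (𝔪 : Ideal (𝓞 K))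

/-- the residues mod `m` of the units of `𝓞 K` -/
def unitResidues : Set (𝓞 K ⧸ 𝔪) :=
  Set.range fun u : (𝓞 K)ˣ => Ideal.Quotient.mk 𝔪 (u : 𝓞 K)

theorem one_mem_unitResidues : (1 : 𝓞 K ⧸ 𝔪) ∈ unitResidues K 𝔪 :=
  ⟨1, by simp⟩

/-- an element has an associate `≡ 1 mod m` iff its residue is the residue of a unit -/
theorem exists_unit_mul_sub_one_mem_iff (x : 𝓞 K) :
    (∃ u : (𝓞 K)ˣ, (u : 𝓞 K) * x - 1 ∈ 𝔪) ↔ Ideal.Quotient.mk 𝔪 x ∈ unitResidues K 𝔪 := by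
  constructor
  · rintro ⟨u, hu⟩
    refine ⟨u⁻¹, ?_⟩
    have h1 : Ideal.Quotient.mk 𝔪 ((u : 𝓞 K) * x) = 1 := by
      rw [← map_one (Ideal.Quotient.mk 𝔪)]
      exact Ideal.Quotient.eq.mpr hu
    show Ideal.Quotient.mk 𝔪 ((u⁻¹ : (𝓞 K)ˣ) : 𝓞 K) = Ideal.Quotient.mk 𝔪 x
    calc Ideal.Quotient.mk 𝔪 ((u⁻¹ : (𝓞 K)ˣ) : 𝓞 K)
        = Ideal.Quotient.mk 𝔪 ((u⁻¹ : (𝓞 K)ˣ) : 𝓞 K) * Ideal.Quotient.mk 𝔪 ((u : 𝓞 K) * x) := by
          rw [h1, mul_one]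
      _ = Ideal.Quotient.mk 𝔪 x := by
          rw [← map_mul, ← mul_assoc, Units.inv_mul, one_mul]
  · rintro ⟨v, hv⟩
    refine ⟨v⁻¹, ?_⟩
    have hv' : Ideal.Quotient.mk 𝔪 (v : 𝓞 K) = Ideal.Quotient.mk 𝔪 x := hv
    apply Ideal.Quotient.eq.mp
    rw [map_mul, ← hv', ← map_mul, Units.inv_mul]

/-- the ideal-level condition: divisible by `b` and generated by an element `≡ 1 mod m` -/
def RayPrincipal (𝔟 : Ideal (𝓞 K)) (I : Ideal (𝓞 K)) : Prop :=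
  𝔟 ∣ I ∧ ∃ γ : 𝓞 K, γ - 1 ∈ 𝔪 ∧ I = span {γ}

theorem rayPrincipal_span_iff (𝔟 : Ideal (𝓞 K)) (x : 𝓞 K) :
    RayPrincipal K 𝔪 𝔟 (span {x}) ↔
      x ∈ 𝔟 ∧ Ideal.Quotient.mk 𝔪 x ∈ unitResidues K 𝔪 := by
  unfold RayPrincipal
  rw [Ideal.dvd_iff_le, Ideal.span_singleton_le_iff_mem, ← exists_unit_mul_sub_one_mem_iff]
  refine and_congr_right fun _ => ?_
  constructor
  · rintro ⟨γ, hγ, hx⟩
    rw [Ideal.span_singleton_eq_span_singleton] at hx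
    obtain ⟨u, hu⟩ := hx
    exact ⟨u, by rw [mul_comm, hu]; exact hγ⟩
  · rintro ⟨u, hu⟩
    refine ⟨(u : 𝓞 K) * x, hu, ?_⟩
    rw [Ideal.span_singleton_eq_span_singleton]
    exact ⟨u, mul_comm _ _⟩

theorem RayPrincipal.isPrincipal {𝔟 I : Ideal (𝓞 K)} (h : RayPrincipal K 𝔪 𝔟 I) :
    IsPrincipal I := by
  obtain ⟨-, γ, -, rfl⟩ := h
  exact ⟨γ, rfl⟩

/-- CRT: a residue mod `m` has a representative in `b` when `b + m = 1`, and the elements of `b`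
with that residue form a coset of `b * m`. -/
theorem exists_rep_mem (𝔟 : Ideal (𝓞 K)) (h𝔟 : 𝔟 ⊔ 𝔪 = ⊤) (r : 𝓞 K ⧸ 𝔪) :
    ∃ g : 𝓞 K, ∀ x : 𝓞 K, (x ∈ 𝔟 ∧ Ideal.Quotient.mk 𝔪 x = r) ↔ x - g ∈ 𝔟 * 𝔪 := by
  obtain ⟨x₀, rfl⟩ := Ideal.Quotient.mk_surjective r
  have h1 : (1 : 𝓞 K) ∈ 𝔟 ⊔ 𝔪 := by rw [h𝔟]; exact Submodule.mem_top
  obtain ⟨b, hb, m, hm, hbm⟩ := Submodule.mem_sup.mp h1
  have hcop : IsCoprime 𝔟 𝔪 := (Ideal.isCoprime_iff_sup_eq).mpr h𝔟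
  have hinf : 𝔟 ⊓ 𝔪 = 𝔟 * 𝔪 := Ideal.inf_eq_mul_of_isCoprime hcop
  refine ⟨x₀ * b, fun x => ?_⟩
  have hg𝔟 : x₀ * b ∈ 𝔟 := Ideal.mul_mem_left _ _ hb
  have hgm : x₀ - x₀ * b ∈ 𝔪 := by
    have : x₀ - x₀ * b = x₀ * m := by linear_combination (-x₀) * hbm
    rw [this]; exact Ideal.mul_mem_left _ _ hm
  rw [← hinf, Ideal.mem_inf]
  constructor
  · rintro ⟨hx𝔟, hxr⟩
    refine ⟨sub_mem hx𝔟 hg𝔟, ?_⟩
    have h2 : x - x₀ ∈ 𝔪 := Ideal.Quotient.eq.mp hxr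
    have : x - x₀ * b = (x - x₀) + (x₀ - x₀ * b) := by ring
    rw [this]; exact add_mem h2 hgm
  · rintro ⟨h1, h2⟩
    refine ⟨by have := add_mem h1 hg𝔟; rwa [sub_add_cancel] at this, ?_⟩
    apply Ideal.Quotient.eq.mpr
    have : x - x₀ = (x - x₀ * b) - (x₀ - x₀ * b) := by ring
    rw [this]; exact sub_mem h2 hgm

/-- the density of every ray class mod `m` -/
def rayKappa : ℝ :=
  (Nat.card (unitResidues K 𝔪) : ℝ) * idealKappa K / (absNorm 𝔪 : ℝ)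

theorem rayKappa_pos (h𝔪 : 𝔪 ≠ ⊥) : 0 < rayKappa K 𝔪 := by
  have : Finite (𝓞 K ⧸ 𝔪) := Ideal.finiteQuotientOfFreeOfNeBot 𝔪 h𝔪
  have h1 : 0 < Nat.card (unitResidues K 𝔪) :=
    Nat.card_pos_iff.mpr ⟨⟨⟨1, one_mem_unitResidues K 𝔪⟩⟩, inferInstance⟩
  have h2 : 0 < absNorm 𝔪 := Nat.pos_of_ne_zero (by rwa [Ne, Ideal.absNorm_eq_zero_iff])
  have h3 := idealKappa_pos K
  unfold rayKappa
  have h1' : (0 : ℝ) < Nat.card (unitResidues K 𝔪) := by exact_mod_cast h1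
  have h2' : (0 : ℝ) < absNorm 𝔪 := by exact_mod_cast h2
  positivity

/-- `w ·` (number of ray-principal ideals divisible by `b` of norm `≤ y`) as a sum of translated
lattice counts. -/
theorem card_rayPrincipal_mul_eq_sum (h𝔪 : 𝔪 ≠ ⊥) (𝔟 : (Ideal (𝓞 K))⁰)
    (h𝔟 : (𝔟 : Ideal (𝓞 K)) ⊔ 𝔪 = ⊤) [Fintype (unitResidues K 𝔪)] :
    ∃ g : unitResidues K 𝔪 → 𝓞 K, ∀ y : ℝ,
      Nat.card {J : (Ideal (𝓞 K))⁰ // RayPrincipal K 𝔪 𝔟 J ∧
        (absNorm (J : Ideal (𝓞 K)) : ℝ) ≤ y} * torsionOrder K =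
      ∑ r : unitResidues K 𝔪,
        latCount K (𝔟 * ⟨𝔪, mem_nonZeroDivisors_of_ne_zero h𝔪⟩)
          ((toMixed K).symm (mixedEmbedding K (g r : K))) y := by
  classical
  choose g hg using fun r : unitResidues K 𝔪 => exists_rep_mem K 𝔪 (𝔟 : Ideal (𝓞 K)) h𝔟 r.1
  refine ⟨g, fun y => ?_⟩
  have hcoe : (((𝔟 * ⟨𝔪, mem_nonZeroDivisors_of_ne_zero h𝔪⟩ : (Ideal (𝓞 K))⁰)) : Ideal (𝓞 K)) =
      (𝔟 : Ideal (𝓞 K)) * 𝔪 := rfl
  have h0 : Nat.card {J : (Ideal (𝓞 K))⁰ // RayPrincipal K 𝔪 𝔟 J ∧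
        (absNorm (J : Ideal (𝓞 K)) : ℝ) ≤ y} =
      Nat.card {J : (Ideal (𝓞 K))⁰ // IsPrincipal (J : Ideal (𝓞 K)) ∧
        RayPrincipal K 𝔪 𝔟 J ∧ (absNorm (J : Ideal (𝓞 K)) : ℝ) ≤ y} :=
    Nat.card_congr (Equiv.subtypeEquivRight fun J =>
      ⟨fun h => ⟨h.1.isPrincipal, h⟩, fun h => h.2⟩)
  rw [h0, ← intCount_span_eq K (RayPrincipal K 𝔪 𝔟) y,
    intCount_congr K (P' := fun x => x ∈ (𝔟 : Ideal (𝓞 K)) ∧
      Ideal.Quotient.mk 𝔪 x ∈ unitResidues K 𝔪)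
      (fun x _ => rayPrincipal_span_iff K 𝔪 (𝔟 : Ideal (𝓞 K)) x) y,
    intCount_eq_sum K (Ideal.Quotient.mk 𝔪) (unitResidues K 𝔪)
      (fun x => x ∈ (𝔟 : Ideal (𝓞 K))) y]
  refine Finset.sum_congr rfl fun r _ => ?_
  rw [latCount_eq_intCount, hcoe]
  exact intCount_congr K (fun x _ => hg r x) y

/-- **Counting ray-principal ideals.** -/
theorem exists_card_rayPrincipal_sub_le (h𝔪 : 𝔪 ≠ ⊥) (𝔟 : (Ideal (𝓞 K))⁰)
    (h𝔟 : (𝔟 : Ideal (𝓞 K)) ⊔ 𝔪 = ⊤) :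
    ∃ C : ℝ, ∀ x : ℝ, 1 ≤ x →
      |(Nat.card {J : (Ideal (𝓞 K))⁰ // RayPrincipal K 𝔪 𝔟 J ∧
          (absNorm (J : Ideal (𝓞 K)) : ℝ) ≤ x * (absNorm (𝔟 : Ideal (𝓞 K)) : ℝ)} : ℝ) -
        rayKappa K 𝔪 * x| ≤ C * x ^ (1 - 1 / (Module.finrank ℚ K : ℝ)) := by
  classical
  have : Finite (𝓞 K ⧸ 𝔪) := Ideal.finiteQuotientOfFreeOfNeBot 𝔪 h𝔪
  have : Fintype (unitResidues K 𝔪) := Fintype.ofFinite _
  obtain ⟨g, hg⟩ := card_rayPrincipal_mul_eq_sum K 𝔪 h𝔪 𝔟 h𝔟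
  set J𝔪 : (Ideal (𝓞 K))⁰ := 𝔟 * ⟨𝔪, mem_nonZeroDivisors_of_ne_zero h𝔪⟩ with hJ𝔪
  obtain ⟨C, hC⟩ := exists_latCount_sub_le K J𝔪
  set w : ℝ := (torsionOrder K : ℝ) with hw
  have hw0 : 0 < w := by
    rw [hw]; exact_mod_cast Nat.pos_of_ne_zero (torsionOrder_ne_zero K)
  set n𝔟 : ℝ := (absNorm (𝔟 : Ideal (𝓞 K)) : ℝ) with hn𝔟
  have hn𝔟1 : 1 ≤ n𝔟 := by
    rw [hn𝔟]; exact_mod_cast absNorm_pos_of_nonZeroDivisors 𝔟
  have hn𝔟0 : 0 < n𝔟 := by linarith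
  set n𝔪 : ℝ := (absNorm 𝔪 : ℝ) with hn𝔪
  have hn𝔪0 : 0 < n𝔪 := by
    rw [hn𝔪]
    exact_mod_cast Nat.pos_of_ne_zero (by rwa [Ne, Ideal.absNorm_eq_zero_iff])
  have hnJ : (absNorm (J𝔪 : Ideal (𝓞 K)) : ℝ) = n𝔟 * n𝔪 := by
    rw [hJ𝔪, Submonoid.coe_mul, map_mul, Nat.cast_mul]
  set u : ℝ := (Fintype.card (unitResidues K 𝔪) : ℝ) with hu
  have hu0 : 0 ≤ u := Nat.cast_nonneg _
  have hκ : rayKappa K 𝔪 = u * idealKappa K / n𝔪 := by
    unfold rayKappa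
    rw [Nat.card_eq_fintype_card]
  set e : ℝ := 1 - 1 / (Module.finrank ℚ K : ℝ) with he
  refine ⟨u * |C| * n𝔟 ^ e / w, fun x hx => ?_⟩
  have hx0 : 0 ≤ x := by linarith
  have hy : 1 ≤ x * n𝔟 := by nlinarith
  set M : ℝ := (Nat.card {J : (Ideal (𝓞 K))⁰ // RayPrincipal K 𝔪 𝔟 J ∧
          (absNorm (J : Ideal (𝓞 K)) : ℝ) ≤ x * n𝔟} : ℝ) with hM
  have hsum : M * w = ∑ r : unitResidues K 𝔪,
      (latCount K J𝔪 ((toMixed K).symm (mixedEmbedding K (g r : K))) (x * n𝔟) : ℝ) := by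
    rw [hM, hw, ← Nat.cast_mul, hg (x * n𝔟), Nat.cast_sum]
  have hbound : |M * w - u * ((w * idealKappa K / (n𝔟 * n𝔪)) * (x * n𝔟))| ≤
      u * (|C| * (x * n𝔟) ^ e) := by
    rw [hsum]
    have h1 : u * ((w * idealKappa K / (n𝔟 * n𝔪)) * (x * n𝔟)) =
        ∑ _r : unitResidues K 𝔪, (w * idealKappa K / (n𝔟 * n𝔪)) * (x * n𝔟) := by
      rw [Finset.sum_const, Finset.card_univ, nsmul_eq_mul]
    rw [h1, ← Finset.sum_sub_distrib]
    refine (Finset.abs_sum_le_sum_abs _ _).trans ?_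
    have h2 : ∀ r ∈ (Finset.univ : Finset (unitResidues K 𝔪)),
        |(latCount K J𝔪 ((toMixed K).symm (mixedEmbedding K (g r : K))) (x * n𝔟) : ℝ) -
          (w * idealKappa K / (n𝔟 * n𝔪)) * (x * n𝔟)| ≤ |C| * (x * n𝔟) ^ e := by
      intro r _
      have := hC ((toMixed K).symm (mixedEmbedding K (g r : K))) (x * n𝔟) hy
      rw [hnJ] at this
      refine this.trans ?_
      exact mul_le_mul_of_nonneg_right (le_abs_self C) (Real.rpow_nonneg (by positivity) _)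
    refine (Finset.sum_le_sum h2).trans ?_
    rw [Finset.sum_const, Finset.card_univ, nsmul_eq_mul]
  rw [Real.mul_rpow hx0 hn𝔟0.le] at hbound
  rw [hκ]
  have key : M - u * idealKappa K / n𝔪 * x =
      (M * w - u * ((w * idealKappa K / (n𝔟 * n𝔪)) * (x * n𝔟))) / w := by
    field_simp
  rw [key, abs_div, abs_of_pos hw0, div_le_iff₀ hw0]
  calc |M * w - u * ((w * idealKappa K / (n𝔟 * n𝔪)) * (x * n𝔟))|
      ≤ u * (|C| * (x ^ e * n𝔟 ^ e)) := hbound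
    _ = u * |C| * n𝔟 ^ e / w * x ^ e * w := by field_simp

end Fermat.Agent.GC.RaySI
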