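/-
GATE-C / C4 (G3-an) (helper88): R3c + glue (file RayIndex.lean; helper77's RayGlue.lean is the hypothesis-form twin).
(i)  `#{I ∈ c, N I ≤ x} = #{J ray-principal w.r.t. b, N J ≤ x N b}` for `b ∈ c⁻¹`, hence every ray
     class has `rayKappa K m · x + O(x^(1-1/d))` integral ideals of norm `≤ x`;
(ii) the analytic second inequality for ray class groups: a subgroup `H ≤ Cl_m` containing the
     classes of the primes of `K` below the degree one primes of `L` has index `≤ [L:K]`.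
-/
import Fermat.Agent.GC.RaySI.RayClass
import Fermat.Agent.GC.RaySI.PrincipalCount
import Fermat.Agent.GC.RaySI.RayMain
import Fermat.Agent.GC.RaySI.RayGlue

set_option autoImplicit false

open NumberField Ideal
open scoped nonZeroDivisors

namespace Fermat.Agent.GC.RaySI.Glue

variable (K : Type*) [Field K] [NumberField K] (m : Ideal (𝓞 K))

/-- R3c: ideals of a ray class `c` of norm `≤ x` ↔ ray-principal ideals divisible by `b ∈ c⁻¹` of
norm `≤ x N b`. -/
theorem card_ray_class_eq {c : RayClassGroup m} {b : coprimeSubmonoid m}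
    (hb : rayMk m b = c⁻¹) (x : ℝ) :
    Nat.card {I : coprimeSubmonoid m //
        (absNorm ((I : (Ideal (𝓞 K))⁰) : Ideal (𝓞 K)) : ℝ) ≤ x ∧ rayMk m I = c} =
      Nat.card {J : (Ideal (𝓞 K))⁰ // RayPrincipal K m ((b : (Ideal (𝓞 K))⁰) : Ideal (𝓞 K)) J ∧
        (absNorm (J : Ideal (𝓞 K)) : ℝ) ≤
          x * (absNorm ((b : (Ideal (𝓞 K))⁰) : Ideal (𝓞 K)) : ℝ)} := by
  have hbpos : (0 : ℝ) < (absNorm ((b : (Ideal (𝓞 K))⁰) : Ideal (𝓞 K)) : ℝ) := by
    exact_mod_cast absNorm_pos_of_nonZeroDivisors (b : (Ideal (𝓞 K))⁰)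
  have hb' : RayClass.mk m b = c⁻¹ := hb
  have key : ∀ I : coprimeSubmonoid m, rayMk m I = c ↔ RayClass.mk m I * RayClass.mk m b = 1 := by
    intro I
    change RayClass.mk m I = c ↔ _
    rw [hb', mul_inv_eq_one]
  -- step 1: rewrite the left side as a subtype of the source of `classEquiv`
  let e1 : {I : coprimeSubmonoid m //
        (absNorm ((I : (Ideal (𝓞 K))⁰) : Ideal (𝓞 K)) : ℝ) ≤ x ∧ rayMk m I = c} ≃
      {I' : {I : coprimeSubmonoid m // RayClass.mk m I * RayClass.mk m b = 1} //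
        (absNorm (RayClass.idl I'.1) : ℝ) ≤ x} :=
    { toFun := fun I => ⟨⟨I.1, (key I.1).1 I.2.2⟩, I.2.1⟩
      invFun := fun I' => ⟨I'.1.1, I'.2, (key I'.1.1).2 I'.1.2⟩
      left_inv := fun _ => rfl
      right_inv := fun _ => rfl }
  -- step 2: transport along `classEquiv`
  let e2 : {I' : {I : coprimeSubmonoid m // RayClass.mk m I * RayClass.mk m b = 1} //
        (absNorm (RayClass.idl I'.1) : ℝ) ≤ x} ≃
      {J' : {J : (Ideal (𝓞 K))⁰ // RayClass.idl b ∣ (J : Ideal (𝓞 K)) ∧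
          ∃ g : 𝓞 K, g - 1 ∈ m ∧ (J : Ideal (𝓞 K)) = span {g}} //
        (absNorm ((J'.1 : (Ideal (𝓞 K))⁰) : Ideal (𝓞 K)) : ℝ) ≤
          x * (absNorm (RayClass.idl b) : ℝ)} :=
    (RayClass.classEquiv m b).subtypeEquiv (fun I' => by
      rw [RayClass.coe_classEquiv, map_mul, Nat.cast_mul]
      exact (mul_le_mul_iff_of_pos_right hbpos).symm)
  -- step 3: flatten
  let e3 : {J' : {J : (Ideal (𝓞 K))⁰ // RayClass.idl b ∣ (J : Ideal (𝓞 K)) ∧
          ∃ g : 𝓞 K, g - 1 ∈ m ∧ (J : Ideal (𝓞 K)) = span {g}} //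
        (absNorm ((J'.1 : (Ideal (𝓞 K))⁰) : Ideal (𝓞 K)) : ℝ) ≤
          x * (absNorm (RayClass.idl b) : ℝ)} ≃
      {J : (Ideal (𝓞 K))⁰ // RayPrincipal K m ((b : (Ideal (𝓞 K))⁰) : Ideal (𝓞 K)) J ∧
        (absNorm (J : Ideal (𝓞 K)) : ℝ) ≤
          x * (absNorm ((b : (Ideal (𝓞 K))⁰) : Ideal (𝓞 K)) : ℝ)} :=
    { toFun := fun J' => ⟨J'.1.1, J'.1.2, J'.2⟩
      invFun := fun J => ⟨⟨J.1, J.2.1⟩, J.2.2⟩
      left_inv := fun _ => rfl
      right_inv := fun _ => rfl }
  exact Nat.card_congr ((e1.trans e2).trans e3)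


/-- **R3**: every ray class modulo `m ≠ 0` contains `rayKappa K m · x + O(x^(1-1/d))` integral
ideals of norm at most `x`, with constants independent of the class. -/
theorem exists_card_ray_sub_le (hm : m ≠ ⊥) :
    ∃ C : ℝ, ∀ (c : RayClassGroup m) (x : ℝ), 1 ≤ x →
      |(Nat.card {I : coprimeSubmonoid m //
          (absNorm ((I : (Ideal (𝓞 K))⁰) : Ideal (𝓞 K)) : ℝ) ≤ x ∧ rayMk m I = c} : ℝ) -
        rayKappa K m * x| ≤ C * x ^ (1 - 1 / (Module.finrank ℚ K : ℝ)) := by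
  classical
  have : Fintype (RayClassGroup m) := Fintype.ofFinite _
  choose b hb using fun c : RayClassGroup m => rayMk_surjective m c⁻¹
  have hcop : ∀ c, ((b c : (Ideal (𝓞 K))⁰) : Ideal (𝓞 K)) ⊔ m = ⊤ := fun c =>
    (mem_coprimeSubmonoid m).1 (b c).2
  choose C hC using fun c : RayClassGroup m =>
    exists_card_rayPrincipal_sub_le K m hm (b c : (Ideal (𝓞 K))⁰) (hcop c)
  refine ⟨∑ c, |C c|, fun c x hx => ?_⟩
  rw [card_ray_class_eq K m (hb c) x]
  refine (hC c x hx).trans ?_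
  have hx0 : 0 ≤ x ^ (1 - 1 / (Module.finrank ℚ K : ℝ)) :=
    Real.rpow_nonneg (by linarith) _
  refine mul_le_mul_of_nonneg_right ?_ hx0
  exact (le_abs_self _).trans
    (Finset.single_le_sum (f := fun c => |C c|) (fun _ _ => abs_nonneg _) (Finset.mem_univ c))


/-! ### the glue to `card_le_finrank_of_count` -/

section Glue

variable {K m}
variable (H : Subgroup (RayClassGroup m))

/-- The class map to `Cl_m ⧸ H`, extended by `1` off the ideals coprime to `m`. -/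
noncomputable def quotPhi (I : (Ideal (𝓞 K))⁰) : RayClassGroup m ⧸ H :=
  open Classical in
  if h : I ∈ coprimeSubmonoid m then
    ((rayMk m ⟨I, h⟩ : RayClassGroup m) : RayClassGroup m ⧸ H) else 1

theorem quotPhi_of_mem {I : (Ideal (𝓞 K))⁰} (h : I ∈ coprimeSubmonoid m) :
    quotPhi H I = ((rayMk m ⟨I, h⟩ : RayClassGroup m) : RayClassGroup m ⧸ H) := by
  classical
  unfold quotPhi
  rw [dif_pos h]

theorem quotPhi_one : quotPhi H (1 : (Ideal (𝓞 K))⁰) = 1 := by
  rw [quotPhi_of_mem H (coprimeSubmonoid m).one_mem]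
  have : (⟨1, (coprimeSubmonoid m).one_mem⟩ : coprimeSubmonoid m) = 1 := rfl
  rw [this, map_one]
  rfl

theorem quotPhi_mul (I J : (Ideal (𝓞 K))⁰) (hI : IsCoprime (I : Ideal (𝓞 K)) m)
    (hJ : IsCoprime (J : Ideal (𝓞 K)) m) : quotPhi H (I * J) = quotPhi H I * quotPhi H J := by
  have hI' : I ∈ coprimeSubmonoid m := hI
  have hJ' : J ∈ coprimeSubmonoid m := hJ
  rw [quotPhi_of_mem H hI', quotPhi_of_mem H hJ',
    quotPhi_of_mem H ((coprimeSubmonoid m).mul_mem hI' hJ')]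
  have : (⟨I * J, (coprimeSubmonoid m).mul_mem hI' hJ'⟩ : coprimeSubmonoid m) =
      ⟨I, hI'⟩ * ⟨J, hJ'⟩ := rfl
  rw [this, map_mul]
  rfl

/-- every fibre of `Cl_m → Cl_m ⧸ H` has `#H` elements -/
theorem card_fibre_quot (g : RayClassGroup m ⧸ H) :
    Nat.card {c : RayClassGroup m // (c : RayClassGroup m ⧸ H) = g} = Nat.card H := by
  obtain ⟨c0, rfl⟩ := QuotientGroup.mk_surjective g
  refine Nat.card_congr
    { toFun := fun c => ⟨c0⁻¹ * c.1, QuotientGroup.eq.1 c.2.symm⟩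
      invFun := fun h => ⟨c0 * h.1, by
        rw [QuotientGroup.mk_mul_of_mem c0 h.2]⟩
      left_inv := fun c => by
        apply Subtype.ext
        simp
      right_inv := fun h => by
        apply Subtype.ext
        simp }

/-- the fibre of `quotPhi` over `g`, cut by the norm, as a disjoint union of ray classes -/
noncomputable def fibreEquiv (g : RayClassGroup m ⧸ H) (n : ℕ) :
    {I : (Ideal (𝓞 K))⁰ // IsCoprime (I : Ideal (𝓞 K)) m ∧ quotPhi H I = g ∧
        absNorm (I : Ideal (𝓞 K)) ≤ n} ≃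
      Σ c : {c : RayClassGroup m // (c : RayClassGroup m ⧸ H) = g},
        {I : coprimeSubmonoid m //
          (absNorm ((I : (Ideal (𝓞 K))⁰) : Ideal (𝓞 K)) : ℝ) ≤ (n : ℝ) ∧ rayMk m I = c.1} where
  toFun I := ⟨⟨rayMk m ⟨I.1, I.2.1⟩, by
      rw [← quotPhi_of_mem H (I := I.1) I.2.1]; exact I.2.2.1⟩,
    ⟨⟨I.1, I.2.1⟩, by exact_mod_cast I.2.2.2, rfl⟩⟩
  invFun p := ⟨p.2.1.1, p.2.1.2, by
      rw [quotPhi_of_mem H p.2.1.2]
      have h1 : rayMk m ⟨p.2.1.1, p.2.1.2⟩ = p.1.1 := p.2.2.2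
      rw [h1]; exact p.1.2, by exact_mod_cast p.2.2.1⟩
  left_inv I := rfl
  right_inv := fun ⟨⟨c, hc⟩, ⟨I, hI1, hI2⟩⟩ => by
    cases hI2
    rfl

theorem finite_ray_norm_le (c : RayClassGroup m) (x : ℝ) :
    Finite {I : coprimeSubmonoid m //
      (absNorm ((I : (Ideal (𝓞 K))⁰) : Ideal (𝓞 K)) : ℝ) ≤ x ∧ rayMk m I = c} := by
  have hfin := Ideal.finite_setOfPred_absNorm_le (S := 𝓞 K) ⌊x⌋₊
  have : Finite {I : Ideal (𝓞 K) // absNorm I ≤ ⌊x⌋₊} := hfin
  refine Finite.of_injective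
    (fun I : {I : coprimeSubmonoid m //
      (absNorm ((I : (Ideal (𝓞 K))⁰) : Ideal (𝓞 K)) : ℝ) ≤ x ∧ rayMk m I = c} =>
      (⟨((I.1 : (Ideal (𝓞 K))⁰) : Ideal (𝓞 K)), Nat.le_floor I.2.1⟩ :
        {I : Ideal (𝓞 K) // absNorm I ≤ ⌊x⌋₊})) ?_
  intro I J h
  apply Subtype.ext
  apply RayClass.idl_injective
  have h' := congrArg Subtype.val h
  exact h'

end Glue

/-- **Analytic second inequality for ray class groups.**  Let `L/K` be an extension of number
fields, `m ≠ 0` an ideal of `𝓞 K`, and `H ≤ Cl_m` a subgroup containing the class of the prime of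
`K` below every degree one prime of `L` (when it is coprime to `m`).  Then `[Cl_m : H] ≤ [L:K]`. -/
theorem index_le_finrank (L : Type*) [Field L] [NumberField L] [Algebra K L] (hm : m ≠ ⊥)
    (H : Subgroup (RayClassGroup m))
    (hH : ∀ P : Ideal (𝓞 L), P.IsPrime → (absNorm P).Prime →
      ∀ (h0 : P.under (𝓞 K) ≠ ⊥) (hc : IsCoprime (P.under (𝓞 K)) m),
        rayMk m ⟨⟨P.under (𝓞 K), mem_nonZeroDivisors_of_ne_zero h0⟩, hc⟩ ∈ H) :
    H.index ≤ Module.finrank K L := by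
  classical
  rw [Subgroup.index_eq_card]
  obtain ⟨C0, hC0⟩ := exists_card_ray_sub_le K m hm
  have hd : 0 < Module.finrank ℚ K := Module.finrank_pos
  refine card_le_finrank_of_count K L m hm (quotPhi H) (quotPhi_one H) (quotPhi_mul H)
    ⟨Nat.card H * rayKappa K m, Nat.card H * C0, 1 / (Module.finrank ℚ K : ℝ), ?_, ?_, ?_⟩ ?_
  · have h1 : (0 : ℝ) < Nat.card H := by exact_mod_cast Nat.card_pos
    exact mul_pos h1 (rayKappa_pos K m hm)
  · have : (0 : ℝ) < Module.finrank ℚ K := by exact_mod_cast hd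
    positivity
  · intro g n hn
    have hn1 : (1 : ℝ) ≤ (n : ℝ) := by exact_mod_cast hn
    have : Fintype {c : RayClassGroup m // (c : RayClassGroup m ⧸ H) = g} := Fintype.ofFinite _
    have hfin : ∀ c : {c : RayClassGroup m // (c : RayClassGroup m ⧸ H) = g},
        Finite {I : coprimeSubmonoid m //
          (absNorm ((I : (Ideal (𝓞 K))⁰) : Ideal (𝓞 K)) : ℝ) ≤ (n : ℝ) ∧ rayMk m I = c.1} :=
      fun c => finite_ray_norm_le c.1 n
    rw [Nat.card_congr (fibreEquiv H g n), Nat.card_sigma, Nat.cast_sum]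
    have hcard : (Nat.card H : ℝ) =
        ∑ _c : {c : RayClassGroup m // (c : RayClassGroup m ⧸ H) = g}, (1 : ℝ) := by
      rw [Finset.sum_const, Finset.card_univ, ← Nat.card_eq_fintype_card, card_fibre_quot H g]
      simp
    rw [hcard, Finset.sum_mul, Finset.sum_mul, Finset.sum_mul, Finset.sum_mul,
      ← Finset.sum_sub_distrib]
    refine (Finset.abs_sum_le_sum_abs _ _).trans (Finset.sum_le_sum fun c _ => ?_)
    rw [one_mul, one_mul]
    exact hC0 c.1 n hn1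
  · intro P hP hPn h0 hc
    have hmem : (⟨P.under (𝓞 K), mem_nonZeroDivisors_of_ne_zero h0⟩ : (Ideal (𝓞 K))⁰) ∈
        coprimeSubmonoid m := hc
    rw [quotPhi_of_mem H hmem]
    exact (QuotientGroup.eq_one_iff _).2 (hH P hP hPn h0 hc)


/-! ### discharging the hypothesis of helper77's `RayGlue.lean` -/

/-- helper77's `RayCountStmt` holds for every `m ≠ 0` (with `κ = rayKappa K m`). -/
theorem rayCountStmt (hm : m ≠ ⊥) : RayCountStmt K m := by
  obtain ⟨C, hC⟩ := exists_card_ray_sub_le K m hm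
  exact ⟨rayKappa K m, C, rayKappa_pos K m hm, hC⟩

/-- **`[Cl_m(K) : N Cl_m(L)] ≤ [L:K]`**, unconditionally (helper77's `index_normSubgroup_le` with the
counting hypothesis discharged). -/
theorem index_normSubgroup_le (L : Type*) [Field L] [NumberField L] [Algebra K L] (hm : m ≠ ⊥) :
    (normSubgroup K L m).index ≤ Module.finrank K L ∧ (normSubgroup K L m).index ≠ 0 :=
  Fermat.Agent.GC.RaySI.index_normSubgroup_le K L hm (rayCountStmt K m hm)

end Fermat.Agent.GC.RaySI.Glue
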