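/-
GATE-C / (G3-an) analytic hedge, FINAL (helper77): the ray class counting statement is a theorem
(R1-R3, helper98 + helper88), so the universal norm index inequality holds UNCONDITIONALLY in all
three forms: ray class group form (R5a), `Kˣ`-form (R5b), model-free engine form (R5c).
-/
import Fermat.Agent.GC.RaySI.RayIndex
import Fermat.Agent.GC.RaySI.RayEngine

set_option autoImplicit false

open NumberField nonZeroDivisors IsDedekindDomain

namespace Fermat.Agent.GC.RaySI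

variable (K L : Type*) [Field K] [NumberField K] [Field L] [NumberField L] [Algebra K L]
variable {m : Ideal (𝓞 K)}

/-- The ray class counting statement holds for every nonzero modulus. -/
theorem rayCountStmt (hm : m ≠ ⊥) : RayCountStmt K m := by
  obtain ⟨C, hC⟩ := Glue.exists_card_ray_sub_le K m hm
  exact ⟨rayKappa K m, C, rayKappa_pos K m hm, fun c x hx => hC c x hx⟩

/-- **(G3-an), ray class group form**: `[Cl_m(K) : N Cl_m(L)] ≤ [L:K]` for every extension `L/K`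
of number fields and every nonzero modulus `m`. -/
theorem index_normSubgroup_le_finrank (hm : m ≠ ⊥) :
    (normSubgroup K L m).index ≤ Module.finrank K L ∧ (normSubgroup K L m).index ≠ 0 :=
  index_normSubgroup_le K L hm (rayCountStmt K hm)

/-- **(G3-an), `Kˣ`-form**: `[Kˣ : N_{L/K}(Lˣ) · K_{m,1} · U_S] ≤ [L:K]`, for `S ⊇ supp m` and a set
`SL` of primes of `L` above `S` whose classes generate `Cl(L)`. -/
theorem index_units_le_finrank (hm : m ≠ ⊥) (S : Set (HeightOneSpectrum (𝓞 K)))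
    (hmS : ∀ v : HeightOneSpectrum (𝓞 K), m ≤ v.asIdeal → v ∈ S)
    (SL : Set (HeightOneSpectrum (𝓞 L)))
    (hSL₁ : ∀ w ∈ SL, ∃ v ∈ S, w.asIdeal.under (𝓞 K) = v.asIdeal)
    (hSL₂ : Subgroup.closure (Set.range fun w : SL =>
      ClassGroup.mk0 ⟨w.1.asIdeal, mem_nonZeroDivisors_of_ne_zero w.1.ne_bot⟩) = ⊤) :
    (normUnits K L ⊔ Km1 K m ⊔ S.unit K).index ≤ Module.finrank K L ∧
      (normUnits K L ⊔ Km1 K m ⊔ S.unit K).index ≠ 0 :=
  index_units_le K L hm (rayCountStmt K hm) S hmS SL hSL₁ hSL₂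

/-- **(G3-an), engine form** (for the C4-COH adapter): `d : Kˣ →* A`, `𝒩 ≤ A` with
(h2) `d (N_{L/K} z) ∈ 𝒩`, (h3) `A = d(Kˣ) · 𝒩`, (h4) `d a ∈ 𝒩` for the integers `a ≡ 1 mod m`.
Then `[A : 𝒩 · d(U_S)] ≤ [L:K]`.  No roots of unity, no cyclicity, no Galois hypothesis. -/
theorem index_le_finrank_of_model (hm : m ≠ ⊥) (S : Set (HeightOneSpectrum (𝓞 K)))
    (hmS : ∀ v : HeightOneSpectrum (𝓞 K), m ≤ v.asIdeal → v ∈ S)
    (SL : Set (HeightOneSpectrum (𝓞 L)))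
    (hSL₁ : ∀ w ∈ SL, ∃ v ∈ S, w.asIdeal.under (𝓞 K) = v.asIdeal)
    (hSL₂ : Subgroup.closure (Set.range fun w : SL =>
      ClassGroup.mk0 ⟨w.1.asIdeal, mem_nonZeroDivisors_of_ne_zero w.1.ne_bot⟩) = ⊤)
    {A : Type*} [CommGroup A] (d : Kˣ →* A) (𝒩 : Subgroup A)
    (h2 : ∀ z : Lˣ, d (Units.map (Algebra.norm K : L →* K) z) ∈ 𝒩)
    (h3 : ∀ y : A, ∃ x : Kˣ, ∃ z ∈ 𝒩, y = d x * z)
    (h4 : ∀ a : 𝓞 K, ∀ ha : a ≠ 0, a - 1 ∈ m → d (intUnit a ha) ∈ 𝒩) :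
    (𝒩 ⊔ (S.unit K).map d).index ≤ Module.finrank K L ∧
      (𝒩 ⊔ (S.unit K).map d).index ≠ 0 :=
  index_le_of_model K L hm (rayCountStmt K hm) S hmS SL hSL₁ hSL₂ d 𝒩 h2 h3 h4

/-- Engine form with the extra hypothesis (h1) that `A ⧸ 𝒩` is killed by a prime `p = [L:K]`:
the index divides `p` (the shape of `GC.Kummer.second_inequality_of_model`). -/
theorem index_dvd_of_model {p : ℕ} (hp : p.Prime) (hdeg : Module.finrank K L = p) (hm : m ≠ ⊥)
    (S : Set (HeightOneSpectrum (𝓞 K)))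
    (hmS : ∀ v : HeightOneSpectrum (𝓞 K), m ≤ v.asIdeal → v ∈ S)
    (SL : Set (HeightOneSpectrum (𝓞 L)))
    (hSL₁ : ∀ w ∈ SL, ∃ v ∈ S, w.asIdeal.under (𝓞 K) = v.asIdeal)
    (hSL₂ : Subgroup.closure (Set.range fun w : SL =>
      ClassGroup.mk0 ⟨w.1.asIdeal, mem_nonZeroDivisors_of_ne_zero w.1.ne_bot⟩) = ⊤)
    {A : Type*} [CommGroup A] (d : Kˣ →* A) (𝒩 : Subgroup A)
    (h1 : ∀ y : A, y ^ p ∈ 𝒩)
    (h2 : ∀ z : Lˣ, d (Units.map (Algebra.norm K : L →* K) z) ∈ 𝒩)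
    (h3 : ∀ y : A, ∃ x : Kˣ, ∃ z ∈ 𝒩, y = d x * z)
    (h4 : ∀ a : 𝓞 K, ∀ ha : a ≠ 0, a - 1 ∈ m → d (intUnit a ha) ∈ 𝒩) :
    (𝒩 ⊔ (S.unit K).map d).index ∣ p := by
  obtain ⟨hle, hne⟩ := index_le_finrank_of_model K L hm S hmS SL hSL₁ hSL₂ d 𝒩 h2 h3 h4
  rw [hdeg] at hle
  set W : Subgroup A := 𝒩 ⊔ (S.unit K).map d with hW
  have hfi : W.FiniteIndex := ⟨hne⟩
  have hfin : Finite (A ⧸ W) := Subgroup.finite_quotient_of_finiteIndex
  -- the quotient is a finite group killed by `p`, so its order is a power of `p`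
  have hpow : ∀ q : A ⧸ W, q ^ p = 1 := by
    intro q
    obtain ⟨y, rfl⟩ := QuotientGroup.mk_surjective q
    rw [← QuotientGroup.mk_pow, QuotientGroup.eq_one_iff]
    exact Subgroup.mem_sup_left (h1 y)
  have hpg : IsPGroup p (A ⧸ W) := fun q => ⟨1, by rw [pow_one]; exact hpow q⟩
  have : Fact p.Prime := ⟨hp⟩
  obtain ⟨k, hk⟩ := hpg.exists_card_eq
  rw [Subgroup.index_eq_card] at hle ⊢
  rw [hk] at hle ⊢
  rcases k with _ | k
  · simp
  · rcases k with _ | k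
    · simp
    · exfalso
      have h2p : p ^ 2 ≤ p ^ (k + 1 + 1) := Nat.pow_le_pow_right hp.pos (by omega)
      have : p < p ^ 2 := by
        have := hp.one_lt
        nlinarith
      omega

end Fermat.Agent.GC.RaySI

/-! ### the names of helper88's version of this file (board 1777), kept for consumers -/

namespace Fermat.Agent.GC.RaySI.Final

variable (K L : Type*) [Field K] [NumberField K] [Field L] [NumberField L] [Algebra K L]
variable {m : Ideal (𝓞 K)}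

/-- **Analytic second inequality, `Kˣ`-form** (= `index_units_le_finrank`). -/
theorem index_units_le (hm : m ≠ ⊥) (S : Set (HeightOneSpectrum (𝓞 K)))
    (hmS : ∀ v : HeightOneSpectrum (𝓞 K), m ≤ v.asIdeal → v ∈ S)
    (SL : Set (HeightOneSpectrum (𝓞 L)))
    (hSL₁ : ∀ w ∈ SL, ∃ v ∈ S, w.asIdeal.under (𝓞 K) = v.asIdeal)
    (hSL₂ : Subgroup.closure (Set.range fun w : SL =>
      ClassGroup.mk0 ⟨w.1.asIdeal, mem_nonZeroDivisors_of_ne_zero w.1.ne_bot⟩) = ⊤) :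
    (normUnits K L ⊔ Km1 K m ⊔ S.unit K).index ≤ Module.finrank K L ∧
      (normUnits K L ⊔ Km1 K m ⊔ S.unit K).index ≠ 0 :=
  index_units_le_finrank K L hm S hmS SL hSL₁ hSL₂

/-- **Analytic second inequality, engine form** (= `index_le_finrank_of_model`). -/
theorem index_le_of_model (hm : m ≠ ⊥) (S : Set (HeightOneSpectrum (𝓞 K)))
    (hmS : ∀ v : HeightOneSpectrum (𝓞 K), m ≤ v.asIdeal → v ∈ S)
    (SL : Set (HeightOneSpectrum (𝓞 L)))
    (hSL₁ : ∀ w ∈ SL, ∃ v ∈ S, w.asIdeal.under (𝓞 K) = v.asIdeal)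
    (hSL₂ : Subgroup.closure (Set.range fun w : SL =>
      ClassGroup.mk0 ⟨w.1.asIdeal, mem_nonZeroDivisors_of_ne_zero w.1.ne_bot⟩) = ⊤)
    {A : Type*} [CommGroup A] (d : Kˣ →* A) (𝒩 : Subgroup A)
    (h2 : ∀ z : Lˣ, d (Units.map (Algebra.norm K : L →* K) z) ∈ 𝒩)
    (h3 : ∀ y : A, ∃ x : Kˣ, ∃ z ∈ 𝒩, y = d x * z)
    (h4 : ∀ a : 𝓞 K, ∀ ha : a ≠ 0, a - 1 ∈ m → d (intUnit a ha) ∈ 𝒩) :
    (𝒩 ⊔ (S.unit K).map d).index ≤ Module.finrank K L ∧
      (𝒩 ⊔ (S.unit K).map d).index ≠ 0 :=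
  index_le_finrank_of_model K L hm S hmS SL hSL₁ hSL₂ d 𝒩 h2 h3 h4

end Fermat.Agent.GC.RaySI.Final
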