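/-
GATE-C / (G3-an) (helper77): the analytic second inequality in EXACTLY the shape of
`Fermat.Agent.GC.Kummer.second_inequality_of_model` (helper51), with FEWER hypotheses:
no `IsGalois K N`, no `p ≠ 2`, no `ζ_p ∈ K`, no `S ⊇ {v ∣ p}`, no `hScl` for `K`, no `hunr`.
The hypotheses `h1`–`h4` on the model `(A, d, 𝒩)` are VERBATIM those of the Kummer engine, so any
adapter written for it applies to this theorem as well.

Proof: `m := ∏_{v ∈ S} v ^ prec p v`.  An integer `a ≡ 1 mod m` lies in `locPow p S`, so `d a` is a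
`p`-th power (h4), hence in `𝒩` (h1); and `y = d x * z ^ p` with `z ^ p ∈ 𝒩`.
-/
import Fermat.Agent.GC.RaySI.RayFinal
import Fermat.Agent.GC.Kummer.Count

set_option autoImplicit false

open NumberField IsDedekindDomain nonZeroDivisors

namespace Fermat.Agent.GC.RaySI

open Fermat.Agent.S14 Fermat.Agent.S14.SI Fermat.Agent.GC.Kummer

variable {K : Type*} [Field K] [NumberField K]
variable {N : Type*} [Field N] [NumberField N] [Algebra K N]

/-- The modulus `∏_{v ∈ S} v ^ prec p v`. -/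
noncomputable def precModulus (p : ℕ) (S : Finset (HeightOneSpectrum (𝓞 K))) : Ideal (𝓞 K) :=
  ∏ v ∈ S, v.asIdeal ^ prec p v.asIdeal

theorem precModulus_ne_bot (p : ℕ) (S : Finset (HeightOneSpectrum (𝓞 K))) :
    precModulus p S ≠ ⊥ := by
  unfold precModulus
  rw [← Ideal.zero_eq_bot, Finset.prod_ne_zero_iff]
  intro v _
  exact pow_ne_zero _ v.ne_bot

theorem precModulus_le (p : ℕ) (S : Finset (HeightOneSpectrum (𝓞 K)))
    {v : HeightOneSpectrum (𝓞 K)} (hv : v ∈ S) :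
    precModulus p S ≤ v.asIdeal ^ prec p v.asIdeal := by
  unfold precModulus
  exact Ideal.le_of_dvd (Finset.dvd_prod_of_mem (fun v : HeightOneSpectrum (𝓞 K) =>
    v.asIdeal ^ prec p v.asIdeal) hv)

theorem prec_pos (p : ℕ) (v : Ideal (𝓞 K)) : 0 < prec p v := by
  unfold prec
  exact Nat.succ_pos _

theorem mem_of_precModulus_le (p : ℕ) (S : Finset (HeightOneSpectrum (𝓞 K)))
    (v : HeightOneSpectrum (𝓞 K)) (h : precModulus p S ≤ v.asIdeal) : v ∈ S := by
  unfold precModulus at h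
  obtain ⟨w, hwS, hw⟩ := (Ideal.IsPrime.prod_le v.isPrime).mp h
  have hvp : v.asIdeal.IsPrime := v.isPrime
  have h1 : w.asIdeal ≤ v.asIdeal :=
    (Ideal.IsPrime.pow_le_iff (prec_pos p w.asIdeal).ne').mp hw
  have h2 : w.asIdeal = v.asIdeal := w.isMaximal.eq_of_le v.isPrime.ne_top h1
  rwa [← HeightOneSpectrum.ext h2]

/-- A nonzero integer `≡ 1` modulo `precModulus p S` is a local `p`-th power at all `v ∈ S`. -/
theorem intUnit_mem_locPow (p : ℕ) (S : Finset (HeightOneSpectrum (𝓞 K))) (a : 𝓞 K) (ha : a ≠ 0)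
    (ha1 : a - 1 ∈ precModulus p S) : intUnit a ha ∈ locPow p S := by
  rw [mem_locPow]
  intro v hv
  refine ⟨1, ?_⟩
  rw [one_pow, div_one]
  have h1 : a - 1 ∈ v.asIdeal ^ prec p v.asIdeal := precModulus_le p S hv ha1
  have h2 : a - 1 ∈ v.asIdeal := Ideal.pow_le_self (prec_pos p v.asIdeal).ne' h1
  have h1v : (1 : 𝓞 K) ∉ v.asIdeal := fun h =>
    v.isPrime.ne_top ((Ideal.eq_top_iff_one _).2 h)
  refine ⟨a, 1, fun h => ?_, h1v, h1, ?_⟩
  · apply h1v
    have : (1 : 𝓞 K) = a - (a - 1) := by ring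
    rw [this]
    exact Ideal.sub_mem _ h h2
  · simp [coe_intUnit]

/-- **Analytic second inequality in the shape of the Kummer engine**: the conclusion of
`GC.Kummer.second_inequality_of_model` from `h1`–`h4` alone (plus `hdeg`, `hSN`, `hSNcl`). -/
theorem second_inequality_of_model_an {p : ℕ} (hp : p.Prime) (hdeg : Module.finrank K N = p)
    (S : Finset (HeightOneSpectrum (𝓞 K)))
    (SN : Finset (HeightOneSpectrum (𝓞 N)))
    (hSN : ∀ Q ∈ SN, Bridge.below K Q ∈ S)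
    (hSNcl : Subgroup.closure (Set.range fun Q : SN =>
        ClassGroup.mk0 ⟨Q.1.asIdeal, mem_nonZeroDivisors_of_ne_zero Q.1.ne_bot⟩) = ⊤)
    {A : Type*} [CommGroup A] (d : Kˣ →* A) (𝒩 : Subgroup A)
    (h1 : ∀ y : A, y ^ p ∈ 𝒩)
    (h2 : ∀ z : Nˣ, d (Units.map (Algebra.norm K : N →* K) z) ∈ 𝒩)
    (h3 : ∀ y : A, ∃ x : Kˣ, ∃ z : A, y = d x * z ^ p)
    (h4 : ∀ x ∈ locPow p S, ∃ z : A, d x = z ^ p) :
    (𝒩 ⊔ ((S : Set (HeightOneSpectrum (𝓞 K))).unit K).map d).index ∣ p := by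
  refine index_dvd_of_model K N hp hdeg (precModulus_ne_bot p S)
    (S : Set (HeightOneSpectrum (𝓞 K))) (fun v hv => Finset.mem_coe.mpr
      (mem_of_precModulus_le p S v hv))
    (SN : Set (HeightOneSpectrum (𝓞 N))) ?_ ?_ d 𝒩 h1 h2 ?_ ?_
  · intro w hw
    exact ⟨Bridge.below K w, Finset.mem_coe.mpr (hSN w (Finset.mem_coe.mp hw)), rfl⟩
  · rw [eq_top_iff, ← hSNcl]
    refine Subgroup.closure_mono ?_
    rintro _ ⟨Q, rfl⟩
    exact ⟨⟨Q.1, Finset.mem_coe.mpr Q.2⟩, rfl⟩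
  · intro y
    obtain ⟨x, z, rfl⟩ := h3 y
    exact ⟨x, z ^ p, h1 z, rfl⟩
  · intro a ha ha1
    obtain ⟨z, hz⟩ := h4 _ (intUnit_mem_locPow p S a ha ha1)
    rw [hz]
    exact h1 z

end Fermat.Agent.GC.RaySI
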